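/-
W3-PT / PT-BRIDGE, block LOCGRP (helper23), part A.

Krasner cofinality for the frozen local group `Gal(PadicAlgCl q / ℚ_[q])`:
* `h23b_exists_padicEmbedding_eq_of_isAlgebraic` : the image of `padicEmbedding q` is the set
  of elements of `PadicAlgCl q` algebraic over `ℚ`;
* `h23b_exists_near` : `padicEmbedding q` has dense range (explicit ε-form);
* `h23b_exists_mem_adjoin` : every `x : PadicAlgCl q` lies in `ℚ_[q]⟮ι y⟯` for some `y : ℚ̄`;
* `h23b_localGaloisToGlobal_injective`.
Mathlib + Prelude only.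
-/
import Mathlib
import Fermat.Prelude.Def_GaloisRep_CompletionBridge

set_option autoImplicit false

open Polynomial IntermediateField

namespace Fermat.Agent.PT.Bridge

variable (q : ℕ) [Fact q.Prime]

/-- The image of `padicEmbedding q` consists exactly of the elements algebraic over `ℚ`. -/
theorem h23b_exists_padicEmbedding_eq_of_isAlgebraic {b : PadicAlgCl q}
    (hb : IsAlgebraic ℚ b) : ∃ y : AlgebraicClosure ℚ, padicEmbedding q y = b := by
  have hint : IsIntegral ℚ b := hb.isIntegral
  set g := minpoly ℚ b with hg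
  have hg0 : g ≠ 0 := minpoly.ne_zero hint
  have hroot : b ∈ g.aroots (PadicAlgCl q) := by
    rw [Polynomial.mem_aroots]
    exact ⟨hg0, minpoly.aeval ℚ b⟩
  have hcomp : (algebraMap ℚ (PadicAlgCl q)) =
      ((padicEmbedding q).toRingHom).comp (algebraMap ℚ (AlgebraicClosure ℚ)) :=
    Subsingleton.elim _ _
  rw [Polynomial.aroots_def, hcomp, ← Polynomial.map_map,
    Splits.roots_map (IsAlgClosed.splits (g.map (algebraMap ℚ (AlgebraicClosure ℚ)))),
    Multiset.mem_map] at hroot
  obtain ⟨y, -, hy⟩ := hroot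
  exact ⟨y, hy⟩

theorem h23b_isAlgebraic_padicEmbedding (y : AlgebraicClosure ℚ) :
    IsAlgebraic ℚ (padicEmbedding q y) :=
  IsAlgebraic.algHom (padicEmbedding q) ((AlgebraicClosure.isAlgebraic ℚ).isAlgebraic y)

theorem h23b_isIntegral_padicEmbedding (y : AlgebraicClosure ℚ) :
    IsIntegral ℚ_[q] (padicEmbedding q y) :=
  Algebra.IsIntegral.isIntegral _

theorem h23b_denseRange_algebraMap : DenseRange (algebraMap ℚ ℚ_[q]) := by
  have h := Padic.denseRange_ratCast q
  have : (algebraMap ℚ ℚ_[q] : ℚ → ℚ_[q]) = Rat.cast := by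
    funext x; simp
  rw [this]; exact h

/-- Core approximation statement: for every `x` and every `δ > 0` there is a root `b` of a monic
rational polynomial with `‖x - b‖ < δ`. -/
theorem h23b_exists_root_near (x : PadicAlgCl q) {δ : ℝ} (hδ : 0 < δ) :
    ∃ y : AlgebraicClosure ℚ, ‖x - padicEmbedding q y‖ < δ := by
  have hx : IsIntegral ℚ_[q] x := Algebra.IsIntegral.isIntegral x
  set f := minpoly ℚ_[q] x with hf
  have fmon : f.Monic := minpoly.monic hx
  have fa0 : Polynomial.aeval x f = 0 := minpoly.aeval _ _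
  have fnatdeg0 : f.natDegree ≠ 0 := (minpoly.natDegree_pos hx).ne'
  have hε : (δ / (max ‖x‖ 1)) ^ f.natDegree / (f.natDegree + 1) > 0 := by positivity
  obtain ⟨g, gmon, gdeg, gcoeff⟩ :=
    exists_monic_and_natDegree_eq_and_norm_map_algebraMap_coeff_sub_lt
      (h23b_denseRange_algebraMap q) fmon hε
  obtain ⟨b, hb, hab⟩ := exists_aroots_norm_sub_lt_of_norm_coeff_sub_lt
      hε fa0 fmon (gmon.map _) (gdeg ▸ (g.natDegree_map _)) gcoeff
      (IsAlgClosed.splits _)
  have hab : ‖x - b‖ < δ := by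
    rw [← Real.rpow_natCast, ← mul_comm_div, div_self, one_mul,
        ← Real.rpow_mul (div_pos hδ (by positivity)).le, mul_inv_cancel₀] at hab
    · simpa [mul_assoc, div_mul_cancel₀ _ (by positivity : (max ‖x‖ 1) > 0).ne'] using hab
    · simp [fnatdeg0]
    · positivity
  have hbalg : IsAlgebraic ℚ b := by
    rw [Polynomial.mem_aroots] at hb
    refine ⟨g, gmon.ne_zero, ?_⟩
    have h2 := hb.2
    rwa [Polynomial.aeval_map_algebraMap] at h2
  obtain ⟨y, rfl⟩ := h23b_exists_padicEmbedding_eq_of_isAlgebraic q hbalg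
  exact ⟨y, hab⟩

/-- `padicEmbedding q` has dense range. -/
theorem h23b_denseRange_padicEmbedding : DenseRange (padicEmbedding q) := by
  rw [Metric.denseRange_iff]
  intro x r hr
  obtain ⟨y, hy⟩ := h23b_exists_root_near q x hr
  exact ⟨y, by rwa [dist_eq_norm]⟩

/-- **Krasner cofinality.** Every element of `PadicAlgCl q` lies in `ℚ_[q]⟮ι y⟯` for some
algebraic number `y`. -/
theorem h23b_exists_mem_adjoin (x : PadicAlgCl q) :
    ∃ y : AlgebraicClosure ℚ, x ∈ ℚ_[q]⟮padicEmbedding q y⟯ := by
  have hx : IsIntegral ℚ_[q] x := Algebra.IsIntegral.isIntegral x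
  set f := minpoly ℚ_[q] x with hf
  classical
  let S : Finset (PadicAlgCl q) := {z ∈ (f.rootSet (PadicAlgCl q)).toFinset | z ≠ x}
  let δ : ℝ := if hS : S.Nonempty then Finset.min' (S.image fun z => ‖x - z‖)
      (Finset.image_nonempty.mpr hS) else 1
  have norm_sub_le : ∀ a' : PadicAlgCl q, IsConjRoot ℚ_[q] x a' → x ≠ a' → δ ≤ ‖x - a'‖ := by
    intro a' conj ne
    by_cases hS : S.Nonempty <;> simp only [hS, ↓reduceDIte, δ]
    · apply Finset.min'_le (S.image fun z => ‖x - z‖) (‖x - a'‖)
      apply Finset.mem_image_of_mem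
      simp only [Finset.mem_filter, Set.mem_toFinset, S]
      rw [← (isConjRoot_iff_mem_minpoly_rootSet hx)]
      exact ⟨conj, ne.symm⟩
    · simp only [ne_eq, Finset.not_nonempty_iff_eq_empty, Finset.filter_eq_empty_iff,
        Set.mem_toFinset, not_not, S] at hS
      rw [isConjRoot_iff_mem_minpoly_rootSet hx] at conj
      exact (ne (hS conj).symm).elim
  have δpos : δ > 0 := by
    by_cases hS : S.Nonempty <;> simp only [hS, ↓reduceDIte, δ]
    · simp only [gt_iff_lt, Finset.lt_min'_iff, Finset.mem_image, forall_exists_index, and_imp,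
        forall_apply_eq_imp_iff₂]
      rintro a' ha'
      simp only [Finset.mem_filter, Set.mem_toFinset, S] at ha'
      rw [norm_pos_iff, sub_ne_zero]
      exact ha'.2.symm
    · linarith
  obtain ⟨y, hy⟩ := h23b_exists_root_near q x δpos
  refine ⟨y, ?_⟩
  exact IsKrasner.krasner (minpoly.irreducible hx).separable (IsAlgClosed.splits _)
    (h23b_isIntegral_padicEmbedding q y)
    (fun a' h1 h2 ↦ lt_of_lt_of_le hy (norm_sub_le a' h1 h2))

/-- An automorphism of `PadicAlgCl q` over `ℚ_[q]` is determined by its values on algebraic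
numbers. -/
theorem h23b_algEquiv_ext {τ τ' : PadicAlgCl q ≃ₐ[ℚ_[q]] PadicAlgCl q}
    (h : ∀ y : AlgebraicClosure ℚ, τ (padicEmbedding q y) = τ' (padicEmbedding q y)) :
    τ = τ' := by
  ext x
  obtain ⟨y, hy⟩ := h23b_exists_mem_adjoin q x
  have hfix : ∀ z ∈ ℚ_[q]⟮padicEmbedding q y⟯, τ z = τ' z := by
    intro z hz
    induction hz using IntermediateField.adjoin_induction with
    | mem z hz =>
      rw [Set.mem_singleton_iff] at hz
      rw [hz]; exact h y
    | algebraMap c => simp
    | add a b _ _ ha hb => simp [ha, hb]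
    | inv a _ ha => simp [ha]
    | mul a b _ _ ha hb => simp [ha, hb]
  exact hfix x hy

/-- **LG2.** The frozen map `Gal(PadicAlgCl q / ℚ_[q]) → Gal(ℚ̄/ℚ)` is injective. -/
theorem h23b_localGaloisToGlobal_injective :
    Function.Injective (localGaloisToGlobal q) := by
  intro τ τ' h
  apply h23b_algEquiv_ext q
  intro y
  rw [← padicEmbedding_localGaloisToGlobal, ← padicEmbedding_localGaloisToGlobal, h]

end Fermat.Agent.PT.Bridge
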