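/-
W3-PT / PT-BRIDGE, block LOCGRP (helper23), part B.

* `h23b_norm_padicEmbedding_of_mem_decomp` (LG0): elements of the decomposition group of
  `padicPlace q` preserve the `q`-adic norm of algebraic numbers.
Mathlib + Prelude only.
-/
import Mathlib
import Fermat.Agent.PT.Bridge.LocGrpA

set_option autoImplicit false

open Polynomial IntermediateField
open scoped Pointwise

namespace Fermat.Agent.PT.Bridge

variable (q : ℕ) [Fact q.Prime]

local notation "Qb" => AlgebraicClosure ℚ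

theorem h23b_norm_natCast_prime : ‖((q : ℕ) : PadicAlgCl q)‖ = (q : ℝ)⁻¹ := by
  have h1 : ((q : ℕ) : PadicAlgCl q) = algebraMap ℚ_[q] (PadicAlgCl q) (q : ℚ_[q]) := by
    simp
  rw [h1, PadicAlgCl.norm_extends, Padic.norm_p]

/-- One-sided comparison: a ring endomorphism of `ℚ̄` mapping the valuation ring `padicPlace q`
into itself does not increase the `q`-adic norm. -/
theorem h23b_norm_le_of_forall_le_one (σ : Qb →+* Qb)
    (h : ∀ x : Qb, ‖padicEmbedding q x‖ ≤ 1 → ‖padicEmbedding q (σ x)‖ ≤ 1) (x : Qb) :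
    ‖padicEmbedding q (σ x)‖ ≤ ‖padicEmbedding q x‖ := by
  by_contra hlt
  rw [not_le] at hlt
  set a := ‖padicEmbedding q x‖ with ha
  set b := ‖padicEmbedding q (σ x)‖ with hb
  have hx0 : x ≠ 0 := by
    rintro rfl
    simp only [map_zero, norm_zero, a, b] at hlt
    exact lt_irrefl _ hlt
  have ha0 : 0 < a := by
    rw [ha, norm_pos_iff]
    exact fun h0 => hx0 ((padicEmbedding q).injective (h0.trans (map_zero _).symm))
  have hq1 : (1 : ℝ) < q := by exact_mod_cast (Fact.out : q.Prime).one_lt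
  have hq0 : (0 : ℝ) < q := by linarith
  have hba : 1 < b / a := (one_lt_div ha0).2 hlt
  obtain ⟨n, hn⟩ := pow_unbounded_of_one_lt (q : ℝ) hba
  have han : 0 < a ^ n := pow_pos ha0 n
  obtain ⟨k, hk1, hk2⟩ := exists_mem_Ico_zpow (x := a ^ n) (y := (q : ℝ)) han hq1
  -- the test element
  set t : Qb := x ^ n * ((q : ℕ) : Qb) ^ (k + 1) with ht
  have hqQb : padicEmbedding q ((q : ℕ) : Qb) = ((q : ℕ) : PadicAlgCl q) := map_natCast _ _
  have hσq : σ ((q : ℕ) : Qb) = ((q : ℕ) : Qb) := map_natCast σ q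
  have hnorm_t : ‖padicEmbedding q t‖ = a ^ n * ((q : ℝ) ^ (k + 1))⁻¹ := by
    rw [ht, map_mul, map_pow, map_zpow₀, hqQb, norm_mul, norm_pow, norm_zpow,
      h23b_norm_natCast_prime, inv_zpow]
  have hnorm_st : ‖padicEmbedding q (σ t)‖ = b ^ n * ((q : ℝ) ^ (k + 1))⁻¹ := by
    rw [ht, map_mul, map_pow, map_zpow₀, hσq, map_mul, map_pow, map_zpow₀, hqQb, norm_mul,
      norm_pow, norm_zpow, h23b_norm_natCast_prime, inv_zpow]
  have hqk : 0 < (q : ℝ) ^ (k + 1) := zpow_pos hq0 _
  have h1 : ‖padicEmbedding q t‖ ≤ 1 := by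
    rw [hnorm_t, ← div_eq_mul_inv, div_le_one hqk]
    exact hk2.le
  have h2 := h t h1
  rw [hnorm_st, ← div_eq_mul_inv, div_le_one hqk] at h2
  -- b^n ≤ q^(k+1) = q * q^k ≤ q * a^n < b^n
  have h3 : (q : ℝ) ^ (k + 1) = q * (q : ℝ) ^ k := by
    rw [zpow_add_one₀ hq0.ne', mul_comm]
  have h4 : (q : ℝ) * a ^ n < b ^ n := by
    have : (b / a) ^ n = b ^ n / a ^ n := div_pow b a n
    rw [this, lt_div_iff₀ han] at hn
    exact hn
  have h5 : (q : ℝ) * (q : ℝ) ^ k ≤ q * a ^ n := mul_le_mul_of_nonneg_left hk1 hq0.le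
  linarith

/-- Membership in the decomposition group, spelled out. -/
theorem h23b_mem_padicPlace_iff_of_mem_decomp {σ : Qb ≃ₐ[ℚ] Qb}
    (hσ : σ ∈ (padicPlace q).decompositionSubgroup ℚ) (x : Qb) :
    σ x ∈ padicPlace q ↔ x ∈ padicPlace q := by
  have h : σ • padicPlace q = padicPlace q := hσ
  have := ValuationSubring.smul_mem_pointwise_smul_iff (g := σ) (S := padicPlace q) (x := x)
  rw [h] at this
  exact this

/-- **LG0.** Elements of the decomposition group of `padicPlace q` are isometries for the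
`q`-adic norm. -/
theorem h23b_norm_padicEmbedding_of_mem_decomp {σ : Qb ≃ₐ[ℚ] Qb}
    (hσ : σ ∈ (padicPlace q).decompositionSubgroup ℚ) (x : Qb) :
    ‖padicEmbedding q (σ x)‖ = ‖padicEmbedding q x‖ := by
  apply le_antisymm
  · refine h23b_norm_le_of_forall_le_one q (σ : Qb →+* Qb) (fun y hy => ?_) x
    have : σ y ∈ padicPlace q := (h23b_mem_padicPlace_iff_of_mem_decomp q hσ y).2
      ((mem_padicPlace_iff q).2 (by exact_mod_cast hy))
    have h2 := (mem_padicPlace_iff q).1 this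
    exact_mod_cast h2
  · have h := h23b_norm_le_of_forall_le_one q (σ.symm : Qb →+* Qb) (fun y hy => ?_) (σ x)
    · simpa using h
    · have hy' : y ∈ padicPlace q := (mem_padicPlace_iff q).2 (by exact_mod_cast hy)
      have : σ.symm y ∈ padicPlace q := by
        rw [← h23b_mem_padicPlace_iff_of_mem_decomp q hσ (σ.symm y)]
        simpa using hy'
      have h2 := (mem_padicPlace_iff q).1 this
      exact_mod_cast h2

end Fermat.Agent.PT.Bridge
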