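/-
W3-PT / PT-BRIDGE, block LOCGRP (helper23), part C.

* `h23b_exists_localGalois_of_mem_decomp` : every element of the decomposition group of
  `padicPlace q` is the restriction of an automorphism of `PadicAlgCl q` over `ℚ_[q]`;
* `h23b_range_localGaloisToGlobal` (LG3): the range of the frozen map
  `localGaloisToGlobal q` is exactly the decomposition group of `padicPlace q`.
Mathlib + Prelude only.
-/
import Mathlib
import Fermat.Agent.PT.Bridge.LocGrpB

set_option autoImplicit false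
set_option linter.style.haveILetI false
set_option warn.classDefReducibility false

open Polynomial IntermediateField
open scoped Pointwise

namespace Fermat.Agent.PT.Bridge

variable (q : ℕ) [Fact q.Prime]

local notation "Qb" => AlgebraicClosure ℚ

/-- The `q`-adic normed field structure on `ℚ̄` induced by `padicEmbedding q`
(never an instance; use `letI`). -/
noncomputable def h23b_normedQb : NormedField Qb :=
  NormedField.induced Qb (PadicAlgCl q) (padicEmbedding q) (padicEmbedding q).injective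

theorem h23b_isometry_padicEmbedding :
    letI := h23b_normedQb q
    Isometry ((padicEmbedding q).toRingHom : Qb → PadicAlgCl q) := by
  letI := h23b_normedQb q
  exact AddMonoidHomClass.isometry_of_norm ((padicEmbedding q).toRingHom) (fun _ => rfl)

/-- The ring homomorphism `ℚ̄ → ℂ_[q]`, `y ↦ ι (σ y)`. -/
noncomputable def h23b_twist (σ : Qb ≃ₐ[ℚ] Qb) : Qb →+* ℂ_[q] :=
  (algebraMap (PadicAlgCl q) ℂ_[q]).comp ((padicEmbedding q).toRingHom.comp (σ : Qb →+* Qb))

theorem h23b_twist_apply (σ : Qb ≃ₐ[ℚ] Qb) (y : Qb) :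
    h23b_twist q σ y = ((padicEmbedding q (σ y) : PadicAlgCl q) : ℂ_[q]) := rfl

theorem h23b_isometry_twist {σ : Qb ≃ₐ[ℚ] Qb}
    (hσ : σ ∈ (padicPlace q).decompositionSubgroup ℚ) :
    letI := h23b_normedQb q
    Isometry (h23b_twist q σ : Qb → ℂ_[q]) := by
  letI := h23b_normedQb q
  refine AddMonoidHomClass.isometry_of_norm (h23b_twist q σ) (fun y => ?_)
  rw [h23b_twist_apply, PadicComplex.norm_extends, h23b_norm_padicEmbedding_of_mem_decomp q hσ]
  rfl

/-- The continuous extension `PadicAlgCl q → ℂ_[q]` of `y ↦ ι (σ y)`. -/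
noncomputable def h23b_ext0 {σ : Qb ≃ₐ[ℚ] Qb}
    (hσ : σ ∈ (padicPlace q).decompositionSubgroup ℚ) : PadicAlgCl q →+* ℂ_[q] :=
  letI := h23b_normedQb q
  IsDenseInducing.extendRingHom (i := (padicEmbedding q).toRingHom) (f := h23b_twist q σ)
    (h23b_isometry_padicEmbedding q).isUniformInducing (h23b_denseRange_padicEmbedding q)
    (h23b_isometry_twist q hσ).uniformContinuous

theorem h23b_ext0_padicEmbedding {σ : Qb ≃ₐ[ℚ] Qb}
    (hσ : σ ∈ (padicPlace q).decompositionSubgroup ℚ) (y : Qb) :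
    h23b_ext0 q hσ (padicEmbedding q y) = ((padicEmbedding q (σ y) : PadicAlgCl q) : ℂ_[q]) := by
  letI := h23b_normedQb q
  exact IsDenseInducing.extend_eq
    ((h23b_isometry_padicEmbedding q).isUniformInducing.isDenseInducing
      (h23b_denseRange_padicEmbedding q))
    (h23b_isometry_twist q hσ).uniformContinuous.continuous y

theorem h23b_continuous_ext0 {σ : Qb ≃ₐ[ℚ] Qb}
    (hσ : σ ∈ (padicPlace q).decompositionSubgroup ℚ) :
    Continuous (h23b_ext0 q hσ) := by
  letI := h23b_normedQb q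
  exact (uniformContinuous_uniformly_extend
    (h23b_isometry_padicEmbedding q).isUniformInducing (h23b_denseRange_padicEmbedding q)
    (h23b_isometry_twist q hσ).uniformContinuous).continuous

theorem h23b_ext0_algebraMap {σ : Qb ≃ₐ[ℚ] Qb}
    (hσ : σ ∈ (padicPlace q).decompositionSubgroup ℚ) (c : ℚ_[q]) :
    h23b_ext0 q hσ (algebraMap ℚ_[q] (PadicAlgCl q) c) = algebraMap ℚ_[q] ℂ_[q] c := by
  have h1 : Continuous fun c : ℚ_[q] => h23b_ext0 q hσ (algebraMap ℚ_[q] (PadicAlgCl q) c) :=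
    (h23b_continuous_ext0 q hσ).comp (continuous_algebraMap ℚ_[q] (PadicAlgCl q))
  have h2 : Continuous fun c : ℚ_[q] => algebraMap ℚ_[q] ℂ_[q] c :=
    continuous_algebraMap ℚ_[q] ℂ_[q]
  have := DenseRange.equalizer (Padic.denseRange_ratCast q) h1 h2 (by
    funext r
    simp only [Function.comp_apply, map_ratCast])
  exact congrFun this c

/-- The extension as an algebra homomorphism over `ℚ_[q]`. -/
noncomputable def h23b_ext1 {σ : Qb ≃ₐ[ℚ] Qb}
    (hσ : σ ∈ (padicPlace q).decompositionSubgroup ℚ) : PadicAlgCl q →ₐ[ℚ_[q]] ℂ_[q] :=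
  { h23b_ext0 q hσ with
    commutes' := h23b_ext0_algebraMap q hσ }

theorem h23b_ext1_apply {σ : Qb ≃ₐ[ℚ] Qb}
    (hσ : σ ∈ (padicPlace q).decompositionSubgroup ℚ) (x : PadicAlgCl q) :
    h23b_ext1 q hσ x = h23b_ext0 q hσ x := rfl

/-- Elements of `ℂ_[q]` algebraic over `ℚ_[q]` come from `PadicAlgCl q`. -/
theorem h23b_mem_range_of_isAlgebraic {z : ℂ_[q]} (hz : IsAlgebraic ℚ_[q] z) :
    ∃ x : PadicAlgCl q, (x : ℂ_[q]) = z := by
  have hint : IsIntegral ℚ_[q] z := hz.isIntegral
  set g := minpoly ℚ_[q] z with hg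
  have hg0 : g ≠ 0 := minpoly.ne_zero hint
  have hroot : z ∈ g.aroots ℂ_[q] := by
    rw [Polynomial.mem_aroots]
    exact ⟨hg0, minpoly.aeval ℚ_[q] z⟩
  have hcomp : (algebraMap ℚ_[q] ℂ_[q]) =
      (algebraMap (PadicAlgCl q) ℂ_[q]).comp (algebraMap ℚ_[q] (PadicAlgCl q)) :=
    IsScalarTower.algebraMap_eq _ _ _
  rw [Polynomial.aroots_def, hcomp, ← Polynomial.map_map,
    Splits.roots_map (IsAlgClosed.splits (g.map (algebraMap ℚ_[q] (PadicAlgCl q)))),
    Multiset.mem_map] at hroot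
  obtain ⟨y, -, hy⟩ := hroot
  exact ⟨y, hy⟩

theorem h23b_exists_eq_ext1 {σ : Qb ≃ₐ[ℚ] Qb}
    (hσ : σ ∈ (padicPlace q).decompositionSubgroup ℚ) (x : PadicAlgCl q) :
    ∃ x' : PadicAlgCl q, (x' : ℂ_[q]) = h23b_ext1 q hσ x :=
  h23b_mem_range_of_isAlgebraic q
    (IsAlgebraic.algHom (h23b_ext1 q hσ) (Algebra.IsAlgebraic.isAlgebraic x))

theorem h23b_coe_injective :
    Function.Injective (fun x : PadicAlgCl q => (x : ℂ_[q])) :=
  (algebraMap (PadicAlgCl q) ℂ_[q]).injective

/-- The extension with values in `PadicAlgCl q`. -/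
noncomputable def h23b_ext2 {σ : Qb ≃ₐ[ℚ] Qb}
    (hσ : σ ∈ (padicPlace q).decompositionSubgroup ℚ) : PadicAlgCl q →ₐ[ℚ_[q]] PadicAlgCl q where
  toFun x := (h23b_exists_eq_ext1 q hσ x).choose
  map_one' := by
    apply h23b_coe_injective q
    simp only
    rw [(h23b_exists_eq_ext1 q hσ 1).choose_spec, map_one]
    rfl
  map_mul' x y := by
    apply h23b_coe_injective q
    simp only
    rw [(h23b_exists_eq_ext1 q hσ (x * y)).choose_spec, map_mul]
    change _ = algebraMap (PadicAlgCl q) ℂ_[q] (_ * _)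
    rw [map_mul]
    congr 1
    · exact ((h23b_exists_eq_ext1 q hσ x).choose_spec).symm
    · exact ((h23b_exists_eq_ext1 q hσ y).choose_spec).symm
  map_zero' := by
    apply h23b_coe_injective q
    simp only
    rw [(h23b_exists_eq_ext1 q hσ 0).choose_spec, map_zero]
    rfl
  map_add' x y := by
    apply h23b_coe_injective q
    simp only
    rw [(h23b_exists_eq_ext1 q hσ (x + y)).choose_spec, map_add]
    change _ = algebraMap (PadicAlgCl q) ℂ_[q] (_ + _)
    rw [map_add]
    congr 1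
    · exact ((h23b_exists_eq_ext1 q hσ x).choose_spec).symm
    · exact ((h23b_exists_eq_ext1 q hσ y).choose_spec).symm
  commutes' c := by
    apply h23b_coe_injective q
    simp only
    rw [(h23b_exists_eq_ext1 q hσ _).choose_spec, AlgHom.commutes]
    exact IsScalarTower.algebraMap_apply ℚ_[q] (PadicAlgCl q) ℂ_[q] c

theorem h23b_coe_ext2 {σ : Qb ≃ₐ[ℚ] Qb}
    (hσ : σ ∈ (padicPlace q).decompositionSubgroup ℚ) (x : PadicAlgCl q) :
    ((h23b_ext2 q hσ x : PadicAlgCl q) : ℂ_[q]) = h23b_ext0 q hσ x :=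
  (h23b_exists_eq_ext1 q hσ x).choose_spec

theorem h23b_ext2_padicEmbedding {σ : Qb ≃ₐ[ℚ] Qb}
    (hσ : σ ∈ (padicPlace q).decompositionSubgroup ℚ) (y : Qb) :
    h23b_ext2 q hσ (padicEmbedding q y) = padicEmbedding q (σ y) := by
  apply h23b_coe_injective q
  simp only
  rw [h23b_coe_ext2, h23b_ext0_padicEmbedding]

/-- The automorphism of `PadicAlgCl q` extending `σ`. -/
noncomputable def h23b_lift {σ : Qb ≃ₐ[ℚ] Qb}
    (hσ : σ ∈ (padicPlace q).decompositionSubgroup ℚ) : PadicAlgCl q ≃ₐ[ℚ_[q]] PadicAlgCl q :=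
  AlgEquiv.ofBijective (h23b_ext2 q hσ) (Algebra.IsAlgebraic.algHom_bijective _)

theorem h23b_lift_padicEmbedding {σ : Qb ≃ₐ[ℚ] Qb}
    (hσ : σ ∈ (padicPlace q).decompositionSubgroup ℚ) (y : Qb) :
    h23b_lift q hσ (padicEmbedding q y) = padicEmbedding q (σ y) :=
  h23b_ext2_padicEmbedding q hσ y

theorem h23b_localGaloisToGlobal_lift {σ : Qb ≃ₐ[ℚ] Qb}
    (hσ : σ ∈ (padicPlace q).decompositionSubgroup ℚ) :
    localGaloisToGlobal q (h23b_lift q hσ) = σ := by
  ext y
  exact (padicEmbedding q).injective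
    ((padicEmbedding_localGaloisToGlobal q (h23b_lift q hσ) y).trans
      (h23b_lift_padicEmbedding q hσ y))

/-- Every element of the decomposition group of `padicPlace q` lifts to the local Galois
group. -/
theorem h23b_exists_localGalois_of_mem_decomp {σ : Qb ≃ₐ[ℚ] Qb}
    (hσ : σ ∈ (padicPlace q).decompositionSubgroup ℚ) :
    ∃ τ : PadicAlgCl q ≃ₐ[ℚ_[q]] PadicAlgCl q, localGaloisToGlobal q τ = σ :=
  ⟨h23b_lift q hσ, h23b_localGaloisToGlobal_lift q hσ⟩

/-- **LG3.** The range of the frozen map `localGaloisToGlobal q` is the decomposition group of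
`padicPlace q`. -/
theorem h23b_range_localGaloisToGlobal :
    (localGaloisToGlobal q).range = (padicPlace q).decompositionSubgroup ℚ := by
  ext σ
  constructor
  · rintro ⟨τ, rfl⟩
    exact localGaloisToGlobal_mem_decompositionSubgroup q τ
  · intro hσ
    exact h23b_exists_localGalois_of_mem_decomp q hσ

/-- The frozen local group is isomorphic to the decomposition group. -/
noncomputable def h23b_localGaloisEquivDecomp :
    (PadicAlgCl q ≃ₐ[ℚ_[q]] PadicAlgCl q) ≃* (padicPlace q).decompositionSubgroup ℚ :=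
  (MonoidHom.ofInjective (h23b_localGaloisToGlobal_injective q)).trans
    (MulEquiv.subgroupCongr (h23b_range_localGaloisToGlobal q))

theorem h23b_localGaloisEquivDecomp_apply (τ : PadicAlgCl q ≃ₐ[ℚ_[q]] PadicAlgCl q) :
    ((h23b_localGaloisEquivDecomp q τ : (padicPlace q).decompositionSubgroup ℚ) :
      Qb ≃ₐ[ℚ] Qb) = localGaloisToGlobal q τ := rfl

end Fermat.Agent.PT.Bridge
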