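/-
W3-PT / PT-BRIDGE, block LOCGRP (helper23), part D: the LEVEL DICTIONARY.

For a number field `F ⊆ ℚ̄` let `h23b_localField q F := ℚ_[q](ι F) ⊆ PadicAlgCl q`.
* `h23b_mem_fixingSubgroup_localField_iff` : `r τ` fixes `F` iff `τ` fixes `ℚ_[q](ι F)`;
* `h23b_finiteDimensional_localField` : `ℚ_[q](ι F)` is finite over `ℚ_[q]`;
* `h23b_exists_le_localField` (cofinality): every finite extension `E` of `ℚ_[q]` inside
  `PadicAlgCl q` is contained in `ℚ_[q](ι F)` for a finite NORMAL `F/ℚ`;
* `h23b_isLevelConstant₁_iff`, `h23b_isLevelConstant₂_iff` (LG4): the frozen level-constant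
  cochains on the local group are exactly the cochains which are right-invariant under the
  fixing subgroup of a finite extension of `ℚ_[q]`.
Mathlib + Prelude only.
-/
import Mathlib
import Fermat.Agent.PT.Bridge.LocGrpC
import Fermat.Prelude.Def_GroupCohomology_ContinuousH2

set_option autoImplicit false
set_option linter.style.haveILetI false

open Polynomial IntermediateField
open scoped Pointwise

namespace Fermat.Agent.PT.Bridge

variable (q : ℕ) [Fact q.Prime]

local notation "Qb" => AlgebraicClosure ℚ
local notation "Gq" => (PadicAlgCl q ≃ₐ[ℚ_[q]] PadicAlgCl q)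

local instance h23b_isAlgebraicQb : Algebra.IsAlgebraic ℚ (AlgebraicClosure ℚ) :=
  AlgebraicClosure.isAlgebraic ℚ
local instance h23b_isAlgClosureQb : IsAlgClosure ℚ (AlgebraicClosure ℚ) :=
  ⟨inferInstance, inferInstance⟩
local instance h23b_normalQb : Normal ℚ (AlgebraicClosure ℚ) :=
  IsAlgClosure.normal ℚ (AlgebraicClosure ℚ)

/-- The local field `ℚ_[q](ι F)` attached to a subfield `F` of `ℚ̄`. -/
noncomputable def h23b_localField (F : IntermediateField ℚ Qb) :
    IntermediateField ℚ_[q] (PadicAlgCl q) :=
  IntermediateField.adjoin ℚ_[q] (padicEmbedding q '' (F : Set Qb))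

theorem h23b_padicEmbedding_mem_localField {F : IntermediateField ℚ Qb} {y : Qb} (hy : y ∈ F) :
    padicEmbedding q y ∈ h23b_localField q F :=
  IntermediateField.subset_adjoin _ _ ⟨y, hy, rfl⟩

theorem h23b_localField_mono {F F' : IntermediateField ℚ Qb} (h : F ≤ F') :
    h23b_localField q F ≤ h23b_localField q F' :=
  IntermediateField.adjoin.mono _ _ _ (Set.image_mono h)

theorem h23b_mem_fixingSubgroup_localField_iff (F : IntermediateField ℚ Qb) (τ : Gq) :
    τ ∈ (h23b_localField q F).fixingSubgroup ↔ localGaloisToGlobal q τ ∈ F.fixingSubgroup := by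
  rw [IntermediateField.mem_fixingSubgroup_iff, IntermediateField.mem_fixingSubgroup_iff]
  constructor
  · intro h y hy
    apply (padicEmbedding q).injective
    have := h _ (h23b_padicEmbedding_mem_localField q hy)
    exact (padicEmbedding_localGaloisToGlobal q τ y).trans this
  · intro h x hx
    induction hx using IntermediateField.adjoin_induction with
    | mem z hz =>
      obtain ⟨y, hy, rfl⟩ := hz
      rw [← padicEmbedding_localGaloisToGlobal, h y hy]
    | algebraMap c => simp
    | add a b _ _ ha hb => simp [ha, hb]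
    | inv a _ ha => simp [ha]
    | mul a b _ _ ha hb => simp [ha, hb]

theorem h23b_comap_fixingSubgroup (F : IntermediateField ℚ Qb) :
    (F.fixingSubgroup).comap (localGaloisToGlobal q) = (h23b_localField q F).fixingSubgroup := by
  ext τ
  rw [Subgroup.mem_comap, h23b_mem_fixingSubgroup_localField_iff]

/-- An intermediate field containing a basis of a finite-dimensional intermediate field
contains that field. -/
theorem h23b_le_of_basis_mem {K L : Type*} [Field K] [Field L] [Algebra K L]
    (E E' : IntermediateField K L) [FiniteDimensional K E]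
    (h : ∀ i, ((Module.finBasis K E i : E) : L) ∈ E') : E ≤ E' := by
  intro x hx
  have hsum := (Module.finBasis K E).sum_repr ⟨x, hx⟩
  generalize (Module.finBasis K E).repr ⟨x, hx⟩ = c at hsum
  have h2 : ((∑ i, c i • (Module.finBasis K E) i : E) : L) = x := congrArg Subtype.val hsum
  rw [IntermediateField.coe_sum] at h2
  have key : (∑ i, ((c i • (Module.finBasis K E) i : E) : L)) ∈ E' := by
    refine sum_mem (fun i _ => ?_)
    rw [IntermediateField.coe_smul]
    exact E'.smul_mem (h i)
  rw [h2] at key
  exact key

theorem h23b_finiteDimensional_localField (F : IntermediateField ℚ Qb) [FiniteDimensional ℚ F] :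
    FiniteDimensional ℚ_[q] (h23b_localField q F) := by
  classical
  let b := Module.finBasis ℚ F
  let S : Set (PadicAlgCl q) := Set.range fun i => padicEmbedding q ((b i : F) : Qb)
  have hfin : FiniteDimensional ℚ_[q] (IntermediateField.adjoin ℚ_[q] S) :=
    IntermediateField.finiteDimensional_adjoin (fun x _ => Algebra.IsIntegral.isIntegral x)
  have hle : h23b_localField q F ≤ IntermediateField.adjoin ℚ_[q] S := by
    rw [h23b_localField, IntermediateField.adjoin_le_iff]
    rintro _ ⟨y, hy, rfl⟩
    have hsum := b.sum_repr ⟨y, hy⟩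
    generalize b.repr ⟨y, hy⟩ = c at hsum
    have h2 : ((∑ i, c i • b i : F) : Qb) = y := congrArg Subtype.val hsum
    rw [IntermediateField.coe_sum] at h2
    have key : padicEmbedding q (∑ i, ((c i • b i : F) : Qb)) ∈
        IntermediateField.adjoin ℚ_[q] S := by
      rw [map_sum]
      refine sum_mem (fun i _ => ?_)
      rw [IntermediateField.coe_smul, Algebra.smul_def, map_mul, AlgHom.commutes]
      have hmem : padicEmbedding q ((b i : F) : Qb) ∈ IntermediateField.adjoin ℚ_[q] S :=
        IntermediateField.subset_adjoin _ _ ⟨i, rfl⟩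
      have hc : algebraMap ℚ (PadicAlgCl q) (c i) ∈ IntermediateField.adjoin ℚ_[q] S := by
        have : algebraMap ℚ (PadicAlgCl q) (c i) =
            algebraMap ℚ_[q] (PadicAlgCl q) ((c i : ℚ) : ℚ_[q]) := by simp
        rw [this]
        exact (IntermediateField.adjoin ℚ_[q] S).algebraMap_mem _
      exact mul_mem hc hmem
    rw [h2] at key
    exact key
  exact FiniteDimensional.of_injective (IntermediateField.inclusion hle).toLinearMap
    (IntermediateField.inclusion_injective hle)

/-- **Cofinality.** Every finite extension of `ℚ_[q]` inside `PadicAlgCl q` is contained in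
`ℚ_[q](ι F)` for some finite normal extension `F/ℚ`. -/
theorem h23b_exists_le_localField (E : IntermediateField ℚ_[q] (PadicAlgCl q))
    [FiniteDimensional ℚ_[q] E] :
    ∃ F : IntermediateField ℚ Qb, FiniteDimensional ℚ F ∧ Normal ℚ F ∧
      E ≤ h23b_localField q F := by
  classical
  let b := Module.finBasis ℚ_[q] E
  choose y hy using fun i => h23b_exists_mem_adjoin q ((b i : E) : PadicAlgCl q)
  let S : Set Qb := Set.range y
  let F₀ : IntermediateField ℚ Qb := IntermediateField.adjoin ℚ S
  haveI : FiniteDimensional ℚ F₀ :=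
    IntermediateField.finiteDimensional_adjoin (fun x _ => Algebra.IsIntegral.isIntegral x)
  let F : IntermediateField ℚ Qb := IntermediateField.normalClosure ℚ F₀ Qb
  refine ⟨F, normalClosure.is_finiteDimensional ℚ F₀ Qb, normalClosure.normal ℚ F₀ Qb, ?_⟩
  apply h23b_le_of_basis_mem
  intro i
  have h1 : y i ∈ F := IntermediateField.le_normalClosure F₀
    (IntermediateField.subset_adjoin _ _ ⟨i, rfl⟩)
  have h2 : ℚ_[q]⟮padicEmbedding q (y i)⟯ ≤ h23b_localField q F :=
    IntermediateField.adjoin_simple_le_iff.2 (h23b_padicEmbedding_mem_localField q h1)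
  exact h2 (hy i)

open groupCohomology in
/-- **LG4 (degree one).** -/
theorem h23b_isLevelConstant₁_iff {X : Type*} (f : Gq → X) :
    IsLevelConstant₁ (localGaloisToGlobal q) f ↔
      ∃ E : IntermediateField ℚ_[q] (PadicAlgCl q), FiniteDimensional ℚ_[q] E ∧
        ∀ g s : Gq, s ∈ E.fixingSubgroup → f (g * s) = f g := by
  constructor
  · rintro ⟨F, hF, h⟩
    haveI := hF
    exact ⟨h23b_localField q F, h23b_finiteDimensional_localField q F, fun g s hs =>
      h g s ((h23b_mem_fixingSubgroup_localField_iff q F s).1 hs)⟩
  · rintro ⟨E, hE, h⟩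
    haveI := hE
    obtain ⟨F, hF, -, hle⟩ := h23b_exists_le_localField q E
    exact ⟨F, hF, fun g s hs => h g s (IntermediateField.fixingSubgroup_antitone hle
      ((h23b_mem_fixingSubgroup_localField_iff q F s).2 hs))⟩

open groupCohomology in
/-- **LG4 (degree two).** -/
theorem h23b_isLevelConstant₂_iff {X : Type*} (f : Gq × Gq → X) :
    IsLevelConstant₂ (localGaloisToGlobal q) f ↔
      ∃ E : IntermediateField ℚ_[q] (PadicAlgCl q), FiniteDimensional ℚ_[q] E ∧
        ∀ g g' s s' : Gq, s ∈ E.fixingSubgroup → s' ∈ E.fixingSubgroup →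
          f (g * s, g' * s') = f (g, g') := by
  constructor
  · rintro ⟨F, hF, h⟩
    haveI := hF
    exact ⟨h23b_localField q F, h23b_finiteDimensional_localField q F, fun g g' s s' hs hs' =>
      h g g' s s' ((h23b_mem_fixingSubgroup_localField_iff q F s).1 hs)
        ((h23b_mem_fixingSubgroup_localField_iff q F s').1 hs')⟩
  · rintro ⟨E, hE, h⟩
    haveI := hE
    obtain ⟨F, hF, -, hle⟩ := h23b_exists_le_localField q E
    exact ⟨F, hF, fun g g' s s' hs hs' => h g g' s s'
      (IntermediateField.fixingSubgroup_antitone hle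
        ((h23b_mem_fixingSubgroup_localField_iff q F s).2 hs))
      (IntermediateField.fixingSubgroup_antitone hle
        ((h23b_mem_fixingSubgroup_localField_iff q F s').2 hs'))⟩

end Fermat.Agent.PT.Bridge
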