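/-
W3-PT / PT-BRIDGE, block LOCGRP (helper23), part E (LG5): restricted local data over a number
field `L ⊆ ℚ̄`.

`A := padicPlace q`, `r := localGaloisToGlobal q`, `U := L.fixingSubgroup`.
* `h23b_padicPlace_liesOver` : `padicPlace q` lies over `q`;
* `h23b_conj_mem_fixingSubgroup_iff` : `τ` stabilises the coset `g U` iff `τ` fixes the local
  field `ℚ_[q](ι (g L))`;
* `h23b_mem_decomp_inf_fixing_iff` : relative form of LG3:
  `D(A) ∩ Gal(ℚ̄/L) = r (Gal(PadicAlgCl q / ℚ_[q](ι L)))`;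
* `h23b_primeUnder_eq_iff` : two cosets `g U`, `g' U` cut out the same prime of `𝓞 L` iff they are
  in the same orbit of the local group (double cosets `r(Γ_q) \ G_ℚ / U` = primes of `L` over `q`);
* `h23b_exists_primeUnder_eq` : every prime of `𝓞 L` containing `q` is cut out by some coset.
-/
import Mathlib
import Fermat.Agent.PT.Bridge.LocGrpD
import Fermat.Agent.Bridge.Main

set_option autoImplicit false
set_option linter.style.haveILetI false

open Polynomial IntermediateField NumberField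
open scoped Pointwise

namespace Fermat.Agent.PT.Bridge

open Fermat.Agent.Bridge

variable (q : ℕ) [Fact q.Prime]

local notation "Gq" => (PadicAlgCl q ≃ₐ[ℚ_[q]] PadicAlgCl q)

theorem h23b_norm_padicEmbedding_natCast :
    ‖padicEmbedding q ((q : ℕ) : Qb)‖ = (q : ℝ)⁻¹ := by
  rw [map_natCast]
  exact h23b_norm_natCast_prime q

/-- `padicPlace q` lies over `q`. -/
theorem h23b_padicPlace_liesOver : (padicPlace q).LiesOverPrime q := by
  have hq1 : (1 : ℝ) < q := by exact_mod_cast (Fact.out : q.Prime).one_lt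
  have hq0 : (0 : ℝ) < q := by linarith
  show ((q : ℕ) : Qb) ∈ (padicPlace q).nonunits
  rw [mem_nonunits_iff_inv]
  right
  intro h
  have h2 := (mem_padicPlace_iff q).1 h
  have h3 : ‖padicEmbedding q (((q : ℕ) : Qb)⁻¹)‖ = (q : ℝ) := by
    rw [map_inv₀, norm_inv, h23b_norm_padicEmbedding_natCast, inv_inv]
  have h4 : ‖padicEmbedding q (((q : ℕ) : Qb)⁻¹)‖ ≤ 1 := by exact_mod_cast h2
  rw [h3] at h4
  linarith

/-- Stabiliser of a coset `g U` in the local group = Galois group of the local field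
`ℚ_[q](ι (g L))`. -/
theorem h23b_conj_mem_fixingSubgroup_iff (L : IntermediateField ℚ Qb) (g : GQ) (τ : Gq) :
    g⁻¹ * localGaloisToGlobal q τ * g ∈ L.fixingSubgroup ↔
      τ ∈ (h23b_localField q (L.map (g : Qb →ₐ[ℚ] Qb))).fixingSubgroup := by
  rw [h23b_mem_fixingSubgroup_localField_iff, IntermediateField.mem_fixingSubgroup_iff,
    IntermediateField.mem_fixingSubgroup_iff]
  constructor
  · rintro h _ ⟨x, hx, rfl⟩
    have := h x hx
    have h2 : g ((g⁻¹ * localGaloisToGlobal q τ * g) x) = g x := by rw [this]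
    simpa [AlgEquiv.mul_apply] using h2
  · intro h x hx
    have := h (g x) ⟨x, hx, rfl⟩
    show g⁻¹ (localGaloisToGlobal q τ (g x)) = x
    change (localGaloisToGlobal q τ) (g x) = g x at this
    rw [this]
    exact g.symm_apply_apply x

/-- **Relative LG3.** -/
theorem h23b_mem_decomp_inf_fixing_iff (L : IntermediateField ℚ Qb) (σ : GQ) :
    (σ ∈ (padicPlace q).decompositionSubgroup ℚ ∧ σ ∈ L.fixingSubgroup) ↔
      ∃ τ : Gq, τ ∈ (h23b_localField q L).fixingSubgroup ∧ localGaloisToGlobal q τ = σ := by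
  constructor
  · rintro ⟨h1, h2⟩
    obtain ⟨τ, rfl⟩ := h23b_exists_localGalois_of_mem_decomp q h1
    exact ⟨τ, (h23b_mem_fixingSubgroup_localField_iff q L τ).2 h2, rfl⟩
  · rintro ⟨τ, hτ, rfl⟩
    exact ⟨localGaloisToGlobal_mem_decompositionSubgroup q τ,
      (h23b_mem_fixingSubgroup_localField_iff q L τ).1 hτ⟩

theorem h23b_primeUnder_smul_of_mem_fixingSubgroup (L : IntermediateField ℚ Qb)
    (B : ValuationSubring Qb) {u : GQ} (hu : u ∈ L.fixingSubgroup) :
    primeUnder (u • B) L = primeUnder B L := by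
  ext x
  rw [mem_primeUnder, mem_primeUnder, mem_nonunits_smul_iff]
  have hu' : (u⁻¹ : GQ) ∈ L.fixingSubgroup := inv_mem hu
  have := (IntermediateField.mem_fixingSubgroup_iff L _).1 hu' ((x : L) : Qb) (x : L).2
  rw [this]

/-- **Double cosets = primes.** The cosets `g U` and `g' U` (`U = Gal(ℚ̄/L)`) cut out the same
prime of `𝓞 L` iff `g' ∈ r(Γ_q) g U`. -/
theorem h23b_primeUnder_eq_iff (L : IntermediateField ℚ Qb) (g g' : GQ) :
    primeUnder (g⁻¹ • padicPlace q) L = primeUnder (g'⁻¹ • padicPlace q) L ↔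
      ∃ τ : Gq, ∃ u ∈ L.fixingSubgroup, g' = localGaloisToGlobal q τ * g * u := by
  constructor
  · intro h
    obtain ⟨u, hu, hconj⟩ := conj L (g'⁻¹ • padicPlace q) (g⁻¹ • padicPlace q) h.symm
    -- u • g'⁻¹ • A = g⁻¹ • A, so d := g * u * g'⁻¹ ∈ D(A)
    have hd : (g * u * g'⁻¹) ∈ (padicPlace q).decompositionSubgroup ℚ := by
      rw [MulAction.mem_stabilizer_iff, mul_smul, mul_smul, hconj, smul_inv_smul]
    obtain ⟨τ, hτ⟩ := h23b_exists_localGalois_of_mem_decomp q hd
    refine ⟨τ⁻¹, u, hu, ?_⟩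
    rw [map_inv, hτ]
    group
  · rintro ⟨τ, u, hu, rfl⟩
    have hτ : localGaloisToGlobal q τ ∈ (padicPlace q).decompositionSubgroup ℚ :=
      localGaloisToGlobal_mem_decompositionSubgroup q τ
    have hτ' : (localGaloisToGlobal q τ)⁻¹ • padicPlace q = padicPlace q :=
      (MulAction.mem_stabilizer_iff.1 (inv_mem hτ))
    have : (localGaloisToGlobal q τ * g * u)⁻¹ • padicPlace q
        = u⁻¹ • (g⁻¹ • padicPlace q) := by
      rw [mul_inv_rev, mul_inv_rev, mul_smul, mul_smul, hτ']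
    rw [this, h23b_primeUnder_smul_of_mem_fixingSubgroup L _ (inv_mem hu)]

/-- Every valuation subring of `ℚ̄` over `q` is a translate of `padicPlace q`. -/
theorem h23b_exists_smul_padicPlace {B : ValuationSubring Qb} (hB : B.LiesOverPrime q) :
    ∃ g : GQ, g⁻¹ • padicPlace q = B := by
  obtain ⟨σ, hσ⟩ := exists_smul_eq_of_liesOverPrime (Fact.out : q.Prime)
    (h23b_padicPlace_liesOver q) hB
  exact ⟨σ⁻¹, by rw [inv_inv]; exact hσ⟩

/-- Every prime of `𝓞 L` containing `q` is cut out by a coset. -/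
theorem h23b_exists_primeUnder_eq (L : IntermediateField ℚ Qb) (P : Ideal (𝓞 L)) [P.IsPrime]
    (hP : ((q : ℕ) : 𝓞 L) ∈ P) :
    ∃ g : GQ, primeUnder (g⁻¹ • padicPlace q) L = P := by
  obtain ⟨B, hB⟩ := M2_exists_primeUnder_eq L P
  have hBq : B.LiesOverPrime q := by
    have : ((q : ℕ) : 𝓞 L) ∈ primeUnder B L := hB ▸ hP
    rw [mem_primeUnder] at this
    have h2 : ((((q : ℕ) : 𝓞 L) : L) : Qb) = ((q : ℕ) : Qb) := by simp
    rw [h2] at this
    exact this
  obtain ⟨g, hg⟩ := h23b_exists_smul_padicPlace q hBq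
  exact ⟨g, by rw [hg, hB]⟩

/-- The prime cut out by a coset contains `q`. -/
theorem h23b_natCast_mem_primeUnder (L : IntermediateField ℚ Qb) (g : GQ) :
    ((q : ℕ) : 𝓞 L) ∈ primeUnder (g⁻¹ • padicPlace q) L := by
  rw [mem_primeUnder, mem_nonunits_smul_iff]
  have h : ((q : ℕ) : Qb) ∈ (padicPlace q).nonunits := h23b_padicPlace_liesOver q
  have h2 : ((g⁻¹)⁻¹ : GQ) ((((q : ℕ) : 𝓞 L) : L) : Qb) = ((q : ℕ) : Qb) := by simp
  rw [h2]
  exact h

end Fermat.Agent.PT.Bridge
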