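import Fermat.Agent.PT.Bridge.Sha

/-!
# W3-PT, PT-BRIDGE: the endgame of S55

The frozen statement S55 only asks for the *existence* of a perfect pairing between
`sha₁ S (M.dualTwist (cycloChar p))` and `sha₂ S M`; it is equivalent to: both spaces are
finite dimensional, of the same dimension (`ShaFinrankStatement`).

Sub-architect: helper79.
-/

set_option autoImplicit false

open CategoryTheory Module groupCohomology ExtCitation

noncomputable section

namespace Fermat.Agent.PT

/-- two finite dimensional spaces of the same dimension admit a perfect pairing. -/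
theorem pt79_exists_perfect_pairing {k : Type} [Field k] {V W : Type} [AddCommGroup V]
    [Module k V] [AddCommGroup W] [Module k W] [FiniteDimensional k V] [FiniteDimensional k W]
    (h : finrank k V = finrank k W) :
    ∃ B : V →ₗ[k] W →ₗ[k] k,
      (∀ y, (∀ x, B y x = 0) → y = 0) ∧ (∀ x, (∀ y, B y x = 0) → x = 0) := by
  have h1 : finrank k V = finrank k (Module.Dual k W) := by
    rw [h, Subspace.dual_finrank_eq]
  obtain ⟨e⟩ := FiniteDimensional.nonempty_linearEquiv_of_finrank_eq h1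
  refine ⟨e.toLinearMap, fun y hy => ?_, fun x hx => ?_⟩
  · have : e y = 0 := LinearMap.ext fun x => hy x
    exact e.map_eq_zero_iff.mp this
  · rw [← Module.forall_dual_apply_eq_zero_iff k]
    intro φ
    obtain ⟨y, rfl⟩ := e.surjective φ
    exact hx y

/-- **the target of W3-PT**: `Ш¹_S(M^∨(1))` and `Ш²_S(M)` are finite dimensional of the same
dimension. -/
def ShaFinrankStatement : Prop :=
  ∀ (p : ℕ) [Fact p.Prime], p ≠ 2 → ∀ (S : Finset Nat.Primes), pPrime p ∈ S →
    ∀ (M : Rep (ZMod p) GQ) [FiniteDimensional (ZMod p) M],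
      (∀ m : M, ∃ F : IntermediateField ℚ (AlgebraicClosure ℚ), FiniteDimensional ℚ F ∧
        ∀ s ∈ F.fixingSubgroup, M.ρ s m = m) →
      (∀ q : Nat.Primes, q ∉ S → ∀ A : ValuationSubring (AlgebraicClosure ℚ),
        A.LiesOverPrime (q : ℕ) → ∀ g ∈ A.inertiaSubgroupIn ℚ, M.ρ g = 1) →
      FiniteDimensional (ZMod p) (sha₁ S (M.dualTwist (cycloChar p))) ∧
      FiniteDimensional (ZMod p) (sha₂ S M) ∧
      finrank (ZMod p) (sha₁ S (M.dualTwist (cycloChar p))) = finrank (ZMod p) (sha₂ S M)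

/-- **S55 from `ShaFinrankStatement`** (exactly the frozen statement). -/
theorem s55_of_shaFinrank (h : ShaFinrankStatement)
    {p : ℕ} [Fact p.Prime] (hp2 : p ≠ 2) (S : Finset Nat.Primes) (hpS : pPrime p ∈ S)
    (M : Rep (ZMod p) (AlgebraicClosure ℚ ≃ₐ[ℚ] AlgebraicClosure ℚ))
    [FiniteDimensional (ZMod p) M]
    (hsm : ∀ m : M, ∃ F : IntermediateField ℚ (AlgebraicClosure ℚ), FiniteDimensional ℚ F ∧
      ∀ s ∈ F.fixingSubgroup, M.ρ s m = m)
    (hMur : ∀ q : Nat.Primes, q ∉ S → ∀ A : ValuationSubring (AlgebraicClosure ℚ),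
      A.LiesOverPrime (q : ℕ) → ∀ g ∈ A.inertiaSubgroupIn ℚ, M.ρ g = 1) :
    ∃ B : sha₁ S (M.dualTwist (cycloChar p)) →ₗ[ZMod p] sha₂ S M →ₗ[ZMod p] ZMod p,
      (∀ y, (∀ x, B y x = 0) → y = 0) ∧ (∀ x, (∀ y, B y x = 0) → x = 0) := by
  obtain ⟨h1, h2, h3⟩ := h p hp2 S hpS M hsm hMur
  exact pt79_exists_perfect_pairing h3

end Fermat.Agent.PT
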