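/-
W3-PT (S55), PT-BRIDGE, leaf BR-DQGOOD (helper23).

`dqGood : DQGood` : the arithmetic datum `DQ p S` (`p ∈ S`) is good:

* the global levels (fixing subgroups of finite normal extensions unramified outside `S`) and
  the local levels (pull-backs of all finite normal levels) are normal of finite index;
* there is at least one place (`p ∈ S`);
* every global level pulls back to a local level;
* the cyclotomic character is trivial on the level `ℚ(ζ_p)`, which is finite, normal and
  unramified outside `p`.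

Imports: Mathlib, the frame `Fermat.Agent.PT.Iface` and `Fermat.Agent.S54.FrobValuation`
(valuation subrings of fields algebraic over `ℤ`).
-/
import Mathlib
import Fermat.Agent.PT.Iface
import Fermat.Agent.S54.FrobValuation

set_option autoImplicit false
set_option linter.style.haveILetI false

open ExtCitation groupCohomology

namespace Fermat.Agent.PT.Bridge

/-! ## Levels are normal of finite index -/

/-- `ℚ̄ / ℚ` is Galois. -/
theorem h23b_isGalois_Qb : IsGalois ℚ (AlgebraicClosure ℚ) :=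
  haveI : IsAlgClosure ℚ (AlgebraicClosure ℚ) := ⟨inferInstance, AlgebraicClosure.isAlgebraic ℚ⟩
  IsAlgClosure.isGalois ℚ (AlgebraicClosure ℚ)

/-- The fixing subgroup of a finite normal extension of `ℚ` inside `ℚ̄` is normal of finite
index. -/
theorem h23b_fixingSubgroup_good (F : IntermediateField ℚ (AlgebraicClosure ℚ))
    [FiniteDimensional ℚ F] (hn : Normal ℚ F) :
    F.fixingSubgroup.Normal ∧ F.fixingSubgroup.FiniteIndex := by
  have hG : IsGalois ℚ F := ⟨⟩
  haveI : IsGalois ℚ (AlgebraicClosure ℚ) := h23b_isGalois_Qb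
  refine ⟨@IsGalois.fixingSubgroup_normal_of_isGalois ℚ (AlgebraicClosure ℚ) _ _ _ F
    h23b_isGalois_Qb hG, ⟨?_⟩⟩
  rw [← IntermediateField.finrank_eq_fixingSubgroup_index (E' := AlgebraicClosure ℚ) F]
  exact Module.finrank_pos.ne'

/-- The global levels unramified outside `S` are good. -/
theorem h23b_levQ_good (S : Finset Nat.Primes) : (levQ S).Good := by
  rintro N ⟨F, hF, hn, rfl⟩
  haveI := hF.1
  exact h23b_fixingSubgroup_good F hn

/-- All finite normal levels are good. -/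
theorem h23b_levFin_good : levFin.Good := by
  rintro N ⟨F, hF, hn, rfl⟩
  exact h23b_fixingSubgroup_good F hn

/-- Pull-backs of good level systems are good. -/
theorem h23b_comap_good {G H : Type} [Group G] [Group H] (L : Lev G) (hL : L.Good)
    (f : H →* G) : (L.comap f).Good := by
  rintro N' ⟨N, hN, rfl⟩
  obtain ⟨h1, h2⟩ := hL N hN
  refine ⟨inferInstance, ⟨?_⟩⟩
  rw [Subgroup.index_comap]
  haveI := h2
  haveI : N.IsFiniteRelIndex f.range := Subgroup.isFiniteRelIndex_of_finiteIndex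
  exact Subgroup.IsFiniteRelIndex.relIndex_ne_zero

/-- Every level unramified outside `S` is a finite level. -/
theorem h23b_levQ_sets_subset_levFin (S : Finset Nat.Primes) :
    (levQ S).sets ⊆ levFin.sets := by
  rintro N ⟨F, hF, hn, rfl⟩
  exact ⟨F, hF.1, hn, rfl⟩

/-! ## Roots of unity and valuation subrings (after `Fermat.Agent.S29.CycChar`) -/

section Cyc

variable {L : Type*} [Field L]

/-- If `ξ ≡ 1` modulo the maximal ideal of a valuation subring `A` and `ξ` is a root of unity of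
prime order `p`, `ξ ≠ 1`, then `p` lies in the maximal ideal of `A`. -/
theorem h23b_natCast_mem_nonunits_of_sub_one_mem (A : ValuationSubring L) {p : ℕ} {ξ : L}
    (hξ : ξ ^ p = 1) (hξ1 : ξ ≠ 1) (h : ξ - 1 ∈ A.nonunits) : (p : L) ∈ A.nonunits := by
  have hξA : ξ ∈ A := by
    have h1 : ξ = (ξ - 1) + 1 := by ring
    rw [h1]
    exact A.add_mem _ _ (A.nonunits_le h) A.one_mem
  have hgeom : ∑ i ∈ Finset.range p, ξ ^ i = 0 := by
    have h1 : (∑ i ∈ Finset.range p, ξ ^ i) * (ξ - 1) = 0 := by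
      rw [geom_sum_mul, hξ, sub_self]
    rcases mul_eq_zero.mp h1 with h2 | h2
    · exact h2
    · exact absurd (sub_eq_zero.mp h2) hξ1
  let ξA : A := ⟨ξ, hξA⟩
  have hres : IsLocalRing.residue A ξA = 1 := by
    have h2 : ξA - 1 ∈ IsLocalRing.maximalIdeal A := by
      rw [← ValuationSubring.coe_mem_nonunits_iff]
      exact h
    have h3 := (IsLocalRing.residue_eq_zero_iff (ξA - 1)).mpr h2
    rwa [map_sub, map_one, sub_eq_zero] at h3
  have hsumA : ∑ i ∈ Finset.range p, ξA ^ i = 0 := by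
    apply Subtype.ext
    have : ((∑ i ∈ Finset.range p, ξA ^ i : A) : L) = ∑ i ∈ Finset.range p, ξ ^ i := by
      push_cast
      rfl
    rw [this, hgeom]
    rfl
  have hp0 : IsLocalRing.residue A (p : A) = 0 := by
    have h4 := congrArg (IsLocalRing.residue A) hsumA
    rw [map_sum, map_zero] at h4
    simp only [map_pow, hres, one_pow, Finset.sum_const, Finset.card_range, nsmul_eq_mul,
      mul_one] at h4
    rw [map_natCast]
    exact h4
  have hp1 : (p : A) ∈ IsLocalRing.maximalIdeal A := (IsLocalRing.residue_eq_zero_iff _).mp hp0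
  have hp2 : (((p : A) : A) : L) ∈ A.nonunits :=
    (ValuationSubring.coe_mem_nonunits_iff).mpr hp1
  simpa using hp2

/-- Distinct `p`-th roots of unity stay distinct modulo the maximal ideal of a valuation subring
lying over a prime `ℓ ≠ p`. -/
theorem h23b_eq_of_sub_mem_nonunits (A : ValuationSubring L) {p ℓ : ℕ} (hp : p.Prime)
    (hℓ : ℓ.Prime) (hne : ℓ ≠ p) (hA : (ℓ : L) ∈ A.nonunits) {x y : L} (hx : x ^ p = 1)
    (hy : y ^ p = 1) (h : x - y ∈ A.nonunits) : x = y := by
  by_contra hxy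
  have hy0 : y ≠ 0 := by
    rintro rfl
    rw [zero_pow hp.ne_zero] at hy
    exact zero_ne_one hy
  have hyint : IsIntegral ℤ y⁻¹ := by
    refine ⟨Polynomial.X ^ p - 1, Polynomial.monic_X_pow_sub_C (1 : ℤ) hp.ne_zero, ?_⟩
    simp [inv_pow, hy]
  have hyA : y⁻¹ ∈ A := Fermat.Agent.S54.mem_valuationSubring_of_isIntegral A hyint
  have hξ : (x * y⁻¹) ^ p = 1 := by rw [mul_pow, inv_pow, hx, hy, inv_one, mul_one]
  have hξ1 : x * y⁻¹ ≠ 1 := by
    intro h1
    apply hxy
    field_simp at h1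
    exact h1
  have hmem : x * y⁻¹ - 1 ∈ A.nonunits := by
    have e : x * y⁻¹ - 1 = (x - y) * y⁻¹ := by
      field_simp
    rw [e, ValuationSubring.mem_nonunits_iff] at *
    rw [map_mul]
    exact mul_lt_one_of_nonneg_of_lt_one_left zero_le h ((A.valuation_le_one_iff _).mpr hyA)
  have hpmem := h23b_natCast_mem_nonunits_of_sub_one_mem A hξ hξ1 hmem
  have hnd : ¬ (ℓ : ℤ) ∣ (p : ℤ) := by
    intro hdvd
    have h2 : ℓ ∣ p := Int.natCast_dvd_natCast.mp hdvd
    exact hne ((Nat.prime_dvd_prime_iff_eq hℓ hp).mp h2)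
  have := Fermat.Agent.S54.intCast_not_mem_nonunits A hℓ hA hnd
  apply this
  simpa using hpmem

/-- Equal powers of a primitive root have congruent exponents. -/
theorem h23b_modEq_of_pow_eq {ζ : L} {p : ℕ} (hζ : IsPrimitiveRoot ζ p) (hp : 0 < p) {a b : ℕ}
    (h : ζ ^ a = ζ ^ b) : a ≡ b [MOD p] := by
  have hζ0 : ζ ≠ 0 := hζ.ne_zero hp.ne'
  have h1 : ζ ^ ((b : ℤ) - (a : ℤ)) = 1 := by
    rw [zpow_sub₀ hζ0, zpow_natCast, zpow_natCast, h, div_self (pow_ne_zero _ hζ0)]
  have h2 : (p : ℤ) ∣ (b : ℤ) - (a : ℤ) := (hζ.zpow_eq_one_iff_dvd _).mp h1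
  exact Int.natCast_modEq_iff.mp ((Int.modEq_iff_dvd).mpr h2)

/-- An element of the inertia group acts trivially modulo the maximal ideal. -/
theorem h23b_inertia_sub_mem {k : Type*} [Field k] [Algebra k L] (A : ValuationSubring L)
    {σ : L ≃ₐ[k] L} (hσ : σ ∈ A.inertiaSubgroupIn k) {z : L} (hz : z ∈ A) :
    σ z - z ∈ A.nonunits := by
  obtain ⟨τ, hτ, rfl⟩ := hσ
  have hmem : (τ : L ≃ₐ[k] L) z ∈ A := ((τ • (⟨z, hz⟩ : A) : A)).2
  have hker : MulSemiringAction.toRingAut (A.decompositionSubgroup k)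
      (IsLocalRing.ResidueField A) τ = 1 := hτ
  have h1 : τ • IsLocalRing.residue A ⟨z, hz⟩ = IsLocalRing.residue A ⟨z, hz⟩ := by
    have := congrArg (fun e : RingAut (IsLocalRing.ResidueField A) =>
      e (IsLocalRing.residue A ⟨z, hz⟩)) hker
    simpa using this
  rw [← IsLocalRing.ResidueField.residue_smul] at h1
  have h2 : IsLocalRing.residue A (τ • (⟨z, hz⟩ : A) - ⟨z, hz⟩) = 0 := by
    rw [map_sub, h1, sub_self]
  rw [IsLocalRing.residue_eq_zero_iff] at h2
  rw [ValuationSubring.mem_nonunits_iff_exists_mem_maximalIdeal]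
  exact ⟨sub_mem hmem hz, h2⟩

end Cyc

/-! ## The cyclotomic level -/

section CycLevel

variable (p : ℕ) [Fact p.Prime]

/-- The defining property of the mod `p` cyclotomic character. -/
theorem h23b_cycloChar_spec (σ : AlgebraicClosure ℚ ≃ₐ[ℚ] AlgebraicClosure ℚ)
    (t : AlgebraicClosure ℚ) (ht : t ^ p = 1) :
    σ t = t ^ ((cycloChar p σ : (ZMod p)ˣ) : ZMod p).val := by
  have hp : p.Prime := Fact.out
  haveI : NeZero p := ⟨hp.ne_zero⟩
  have ht0 : t ≠ 0 := by
    rintro rfl
    rw [zero_pow hp.ne_zero] at ht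
    exact zero_ne_one ht
  have hmem : Units.mk0 t ht0 ∈ rootsOfUnity p (AlgebraicClosure ℚ) := by
    rw [mem_rootsOfUnity]
    ext
    simpa using ht
  exact modularCyclotomicCharacter.spec (AlgebraicClosure ℚ)
    (card_rootsOfUnity_eq_self p) (σ : AlgebraicClosure ℚ ≃+* AlgebraicClosure ℚ) hmem

/-- The value of the cyclotomic character is read off from the action on a primitive root. -/
theorem h23b_cycloChar_eq_of_apply {ζ : AlgebraicClosure ℚ} (hζ : IsPrimitiveRoot ζ p)
    (σ : AlgebraicClosure ℚ ≃ₐ[ℚ] AlgebraicClosure ℚ) (n : ℕ) (hn : σ ζ = ζ ^ n) :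
    ((cycloChar p σ : (ZMod p)ˣ) : ZMod p) = (n : ZMod p) := by
  have hp : p.Prime := Fact.out
  haveI : NeZero p := ⟨hp.ne_zero⟩
  have h1 := h23b_cycloChar_spec p σ ζ hζ.pow_eq_one
  rw [hn] at h1
  have h2 : n ≡ ((cycloChar p σ : (ZMod p)ˣ) : ZMod p).val [MOD p] :=
    h23b_modEq_of_pow_eq hζ hp.pos h1
  have h3 : ((n : ℕ) : ZMod p) =
      ((((cycloChar p σ : (ZMod p)ˣ) : ZMod p).val : ℕ) : ZMod p) :=
    (ZMod.natCast_eq_natCast_iff _ _ _).mpr h2
  rw [h3, ZMod.natCast_val, ZMod.cast_id]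

/-- The cyclotomic character is trivial on an automorphism iff it fixes a (any) primitive `p`-th
root of unity. -/
theorem h23b_cycloChar_eq_one_iff {ζ : AlgebraicClosure ℚ} (hζ : IsPrimitiveRoot ζ p)
    (σ : AlgebraicClosure ℚ ≃ₐ[ℚ] AlgebraicClosure ℚ) :
    cycloChar p σ = 1 ↔ σ ζ = ζ := by
  have hp : p.Prime := Fact.out
  haveI : NeZero p := ⟨hp.ne_zero⟩
  haveI : Fact (1 < p) := ⟨hp.one_lt⟩
  constructor
  · intro h
    have h1 := h23b_cycloChar_spec p σ ζ hζ.pow_eq_one
    rw [h, Units.val_one, ZMod.val_one, pow_one] at h1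
    exact h1
  · intro h
    have h3 := h23b_cycloChar_eq_of_apply p hζ σ 1 (by rw [pow_one]; exact h)
    apply Units.ext
    rw [h3]
    simp

/-- An automorphism fixing `ζ` fixes `ℚ(ζ)`. -/
theorem h23b_mem_fixingSubgroup_adjoin_simple {ζ : AlgebraicClosure ℚ}
    {σ : AlgebraicClosure ℚ ≃ₐ[ℚ] AlgebraicClosure ℚ} (h : σ ζ = ζ) :
    σ ∈ (IntermediateField.adjoin ℚ {ζ}).fixingSubgroup := by
  have h1 : IntermediateField.adjoin ℚ {ζ} ≤
      IntermediateField.fixedField (Subgroup.zpowers σ) := by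
    rw [IntermediateField.adjoin_le_iff]
    rintro x hx
    rw [Set.mem_singleton_iff] at hx
    subst hx
    rintro ⟨τ, hτ⟩
    obtain ⟨n, rfl⟩ := Subgroup.mem_zpowers_iff.mp hτ
    show (σ ^ n) x = x
    have hfix : ∀ m : ℕ, (σ ^ m) x = x := by
      intro m
      induction m with
      | zero => simp
      | succ m ih => rw [pow_succ, AlgEquiv.mul_apply, h, ih]
    have hinv : ∀ m : ℕ, ((σ ^ m)⁻¹) x = x := by
      intro m
      have := hfix m
      calc ((σ ^ m)⁻¹) x = ((σ ^ m)⁻¹) ((σ ^ m) x) := by rw [this]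
        _ = x := by rw [← AlgEquiv.mul_apply, inv_mul_cancel, AlgEquiv.one_apply]
    rcases n with m | m
    · simpa using hfix m
    · rw [zpow_negSucc]
      exact hinv (m + 1)
  exact (IntermediateField.le_iff_le _ _).mp h1 (Subgroup.mem_zpowers σ)

/-- `ℚ(ζ_p)` is normal over `ℚ`. -/
theorem h23b_normal_adjoin_primitiveRoot {ζ : AlgebraicClosure ℚ} (hζ : IsPrimitiveRoot ζ p) :
    Normal ℚ (IntermediateField.adjoin ℚ {ζ}) := by
  haveI : IsGalois ℚ (AlgebraicClosure ℚ) := h23b_isGalois_Qb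
  refine (IntermediateField.normal_iff_forall_map_le').mpr ?_
  intro σ
  rw [IntermediateField.adjoin_map, IntermediateField.adjoin_le_iff]
  rintro _ ⟨x, hx, rfl⟩
  rw [Set.mem_singleton_iff] at hx
  subst hx
  have h1 := h23b_cycloChar_spec p σ x hζ.pow_eq_one
  show σ x ∈ IntermediateField.adjoin ℚ {x}
  rw [h1]
  exact pow_mem (IntermediateField.mem_adjoin_simple_self ℚ x) _

/-- `ℚ(ζ_p)` is unramified outside every set of primes containing `p`. -/
theorem h23b_isUnramifiedOutside_adjoin_primitiveRoot (S : Finset Nat.Primes)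
    (hpS : pPrime p ∈ S) {ζ : AlgebraicClosure ℚ} (hζ : IsPrimitiveRoot ζ p) :
    (IntermediateField.adjoin ℚ {ζ}).IsUnramifiedOutside S := by
  have hp : p.Prime := Fact.out
  have hζint : IsIntegral ℤ ζ := hζ.isIntegral hp.pos
  refine ⟨IntermediateField.adjoin.finiteDimensional (hζint.tower_top (A := ℚ)), ?_⟩
  intro q hq A hA σ hσ
  have hne : (q : ℕ) ≠ p := by
    intro h
    apply hq
    have : q = pPrime p := Subtype.ext h
    rw [this]
    exact hpS
  have hζA : ζ ∈ A := Fermat.Agent.S54.mem_valuationSubring_of_isIntegral A hζint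
  have h1 : σ ζ - ζ ∈ A.nonunits := h23b_inertia_sub_mem A hσ hζA
  have hσp : (σ ζ) ^ p = 1 := by rw [← map_pow, hζ.pow_eq_one, map_one]
  have h2 : σ ζ = ζ := h23b_eq_of_sub_mem_nonunits A hp q.2 hne hA hσp hζ.pow_eq_one h1
  exact h23b_mem_fixingSubgroup_adjoin_simple h2

/-- There is a primitive `p`-th root of unity in `ℚ̄`. -/
theorem h23b_exists_primitiveRoot : ∃ ζ : AlgebraicClosure ℚ, IsPrimitiveRoot ζ p := by
  have hp : p.Prime := Fact.out
  haveI : NeZero (p : AlgebraicClosure ℚ) := ⟨Nat.cast_ne_zero.mpr hp.ne_zero⟩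
  exact HasEnoughRootsOfUnity.exists_primitiveRoot (AlgebraicClosure ℚ) p

/-- The cyclotomic level: the fixing subgroup of `ℚ(ζ_p)` is a level of `levQ S` (`p ∈ S`) on
which the cyclotomic character is trivial. -/
theorem h23b_exists_cyclotomic_level (S : Finset Nat.Primes) (hpS : pPrime p ∈ S) :
    ∃ N ∈ (levQ S).sets, ∀ s ∈ N, cycloChar p s = 1 := by
  obtain ⟨ζ, hζ⟩ := h23b_exists_primitiveRoot p
  refine ⟨(IntermediateField.adjoin ℚ {ζ}).fixingSubgroup,
    ⟨IntermediateField.adjoin ℚ {ζ}, h23b_isUnramifiedOutside_adjoin_primitiveRoot p S hpS hζ,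
      h23b_normal_adjoin_primitiveRoot p hζ, rfl⟩, ?_⟩
  intro s hs
  rw [h23b_cycloChar_eq_one_iff p hζ]
  exact hs ⟨ζ, IntermediateField.mem_adjoin_simple_self ℚ ζ⟩

end CycLevel

/-! ## The datum is good -/

/-- **BR-DQGOOD.** The arithmetic datum is good. -/
theorem dqGood : DQGood := by
  intro p _ S hpS
  refine ⟨h23b_levQ_good S, fun q => h23b_comap_good _ h23b_levFin_good _,
    ⟨⟨pPrime p, hpS⟩⟩, ?_, h23b_exists_cyclotomic_level p S hpS⟩
  intro q N hN
  exact ⟨N.comap (primeLocalToGlobal q.1), ⟨N, h23b_levQ_sets_subset_levFin S hN, rfl⟩, le_rfl⟩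

end Fermat.Agent.PT.Bridge
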