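/-
W3-PT (S55), PT-BRIDGE, leaf BR-OPEN (helper23): the open-subgroup dictionary.

The frame (`ArithBase2`) speaks of open subgroups `U` of the level systems `levQ S` (global) and
`levFin.comap (primeLocalToGlobal q)` (local).  The arithmetic consumers speak of fields.

* `h23b_isOpen_levFin_iff` : `U` open in `levFin` iff `U = L.fixingSubgroup`, `L/ℚ` finite.
* `h23b_isOpen_levQ_iff`   : `U` open in `levQ S` iff `U = L.fixingSubgroup`, `L/ℚ` finite and
  unramified outside `S`.
* `h23b_cycloChar_trivial_iff` : `cycloChar p` is trivial on `L.fixingSubgroup` iff `ζ_p ∈ L`.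
* `h23b_isOpen_levLoc_iff` : `U` open in `levFin.comap (localGaloisToGlobal q)` iff
  `U = E.fixingSubgroup`, `E/ℚ_q` finite (`E ≤ PadicAlgCl q`).
* `h23b_cycloChar_loc_trivial_iff` : the local cyclotomic character is trivial on
  `E.fixingSubgroup` iff `ι ζ_p ∈ E`.
* `h23b_index_fixingSubgroup`, `h23b_index_fixingSubgroup_loc` : `[G : G_L] = [L : ℚ]`,
  `[G_q : G_E] = [E : ℚ_q]`.
-/
import Mathlib
import Fermat.Agent.PT.Bridge.DQGood
import Fermat.Agent.PT.Bridge.LocGrpD
import Fermat.Agent.PT.Bridge.Levels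

set_option autoImplicit false
set_option linter.style.haveILetI false

open ExtCitation groupCohomology

namespace Fermat.Agent.PT.Bridge

/-! ## Galois correspondence for open subgroups (general) -/

section General

variable {k K : Type*} [Field k] [Field K] [Algebra k K]

/-- A subgroup of `Gal(K/k)` containing the fixing subgroup of a finite subextension `F` is the
fixing subgroup of a subfield of `F`. -/
theorem h23b_exists_fixingSubgroup_eq [IsGalois k K] (F : IntermediateField k K)
    [FiniteDimensional k F] (U : Subgroup (K ≃ₐ[k] K)) (hle : F.fixingSubgroup ≤ U) :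
    ∃ L : IntermediateField k K, L ≤ F ∧ FiniteDimensional k L ∧ L.fixingSubgroup = U := by
  have hopen : IsOpen (U : Set (K ≃ₐ[k] K)) :=
    Subgroup.isOpen_mono hle (IntermediateField.fixingSubgroup_isOpen F)
  have hclosed : IsClosed (U : Set (K ≃ₐ[k] K)) := OpenSubgroup.isClosed ⟨U, hopen⟩
  have hfix : (IntermediateField.fixedField U).fixingSubgroup = U :=
    InfiniteGalois.fixingSubgroup_fixedField (k := k) (K := K) ⟨U, hclosed⟩
  have hLF : IntermediateField.fixedField U ≤ F := by
    have h1 := IntermediateField.fixedField_antitone hle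
    rwa [InfiniteGalois.fixedField_fixingSubgroup] at h1
  refine ⟨IntermediateField.fixedField U, hLF, ?_, hfix⟩
  exact FiniteDimensional.of_injective (IntermediateField.inclusion hLF).toLinearMap
    (IntermediateField.inclusion_injective hLF)

/-- `[Gal(K/k) : Gal(K/L)] = [L : k]`. -/
theorem h23b_index_fixingSubgroup_gen [IsGalois k K] (L : IntermediateField k K) :
    L.fixingSubgroup.index = Module.finrank k L :=
  (IntermediateField.finrank_eq_fixingSubgroup_index (E' := K) L).symm

/-- For a Galois extension, `x ∈ L` iff `x` is fixed by `Gal(K/L)`. -/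
theorem h23b_mem_iff_forall_fixed [IsGalois k K] (L : IntermediateField k K) (x : K) :
    x ∈ L ↔ ∀ s ∈ L.fixingSubgroup, s x = x := by
  constructor
  · intro hx s hs
    exact hs ⟨x, hx⟩
  · intro h
    rw [← InfiniteGalois.fixedField_fixingSubgroup L, IntermediateField.mem_fixedField_iff]
    exact h

end General

/-! ## Global dictionary -/

/-- `U` is open for the system of all finite normal levels iff it is the fixing subgroup of a
finite extension of `ℚ`. -/
theorem h23b_isOpen_levFin_iff (U : Subgroup (AlgebraicClosure ℚ ≃ₐ[ℚ] AlgebraicClosure ℚ)) :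
    levFin.IsOpen U ↔ ∃ L : IntermediateField ℚ (AlgebraicClosure ℚ),
      FiniteDimensional ℚ L ∧ U = L.fixingSubgroup := by
  haveI := h23b_isGalois_Qb
  constructor
  · rintro ⟨N, ⟨F, hF, -, rfl⟩, hle⟩
    haveI := hF
    obtain ⟨L, -, hL, hfix⟩ := h23b_exists_fixingSubgroup_eq F U hle
    exact ⟨L, hL, hfix.symm⟩
  · rintro ⟨L, hL, rfl⟩
    haveI := hL
    refine ⟨(pt79_galClosure L).fixingSubgroup,
      ⟨pt79_galClosure L, pt79_galClosure_finiteDimensional L, pt79_galClosure_normal L, rfl⟩,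
      IntermediateField.fixingSubgroup_antitone (pt79_le_galClosure L)⟩

/-- `U` is open for the levels unramified outside `S` iff it is the fixing subgroup of a
finite extension of `ℚ` unramified outside `S`. -/
theorem h23b_isOpen_levQ_iff (S : Finset Nat.Primes)
    (U : Subgroup (AlgebraicClosure ℚ ≃ₐ[ℚ] AlgebraicClosure ℚ)) :
    (levQ S).IsOpen U ↔ ∃ L : IntermediateField ℚ (AlgebraicClosure ℚ),
      L.IsUnramifiedOutside S ∧ U = L.fixingSubgroup := by
  haveI := h23b_isGalois_Qb
  constructor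
  · rintro ⟨N, ⟨F, hF, -, rfl⟩, hle⟩
    haveI := hF.1
    obtain ⟨L, hLF, -, hfix⟩ := h23b_exists_fixingSubgroup_eq F U hle
    exact ⟨L, hF.of_le hLF, hfix.symm⟩
  · rintro ⟨L, hL, rfl⟩
    haveI := hL.1
    refine ⟨(pt79_galClosure L).fixingSubgroup,
      ⟨pt79_galClosure L, pt79_isUnramifiedOutside_galClosure hL, pt79_galClosure_normal L, rfl⟩,
      IntermediateField.fixingSubgroup_antitone (pt79_le_galClosure L)⟩

/-- The open subgroups of the datum `DQ p S`. -/
theorem h23b_isOpen_DQ_iff (p : ℕ) [Fact p.Prime] (S : Finset Nat.Primes)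
    (U : Subgroup (DQ p S).G) :
    (DQ p S).lev.IsOpen U ↔ ∃ L : IntermediateField ℚ (AlgebraicClosure ℚ),
      L.IsUnramifiedOutside S ∧ U = L.fixingSubgroup :=
  h23b_isOpen_levQ_iff S U

/-- The cyclotomic character is trivial on `Gal(ℚ̄/L)` iff `ζ_p ∈ L`. -/
theorem h23b_cycloChar_trivial_iff (p : ℕ) [Fact p.Prime]
    (L : IntermediateField ℚ (AlgebraicClosure ℚ)) {ζ : AlgebraicClosure ℚ}
    (hζ : IsPrimitiveRoot ζ p) :
    (∀ u ∈ L.fixingSubgroup, cycloChar p u = 1) ↔ ζ ∈ L := by
  haveI := h23b_isGalois_Qb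
  rw [h23b_mem_iff_forall_fixed L ζ]
  constructor
  · intro h s hs
    exact (h23b_cycloChar_eq_one_iff p hζ s).mp (h s hs)
  · intro h u hu
    exact (h23b_cycloChar_eq_one_iff p hζ u).mpr (h u hu)

/-- `[G_ℚ : G_L] = [L : ℚ]`. -/
theorem h23b_index_fixingSubgroup (L : IntermediateField ℚ (AlgebraicClosure ℚ)) :
    L.fixingSubgroup.index = Module.finrank ℚ L := by
  haveI := h23b_isGalois_Qb
  exact h23b_index_fixingSubgroup_gen L

/-! ## Local dictionary -/

section Local

variable (q : ℕ) [Fact q.Prime]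

/-- `ℚ̄_q / ℚ_q` is Galois. -/
theorem h23b_isGalois_padicAlgCl : IsGalois ℚ_[q] (PadicAlgCl q) :=
  haveI : IsAlgClosure ℚ_[q] (PadicAlgCl q) := ⟨inferInstance, AlgebraicClosure.isAlgebraic _⟩
  IsAlgClosure.isGalois ℚ_[q] (PadicAlgCl q)

/-- `U` is open for the local level system iff it is the fixing subgroup of a finite extension
of `ℚ_q`. -/
theorem h23b_isOpen_levLoc_iff (U : Subgroup (PadicAlgCl q ≃ₐ[ℚ_[q]] PadicAlgCl q)) :
    (levFin.comap (localGaloisToGlobal q)).IsOpen U ↔
      ∃ E : IntermediateField ℚ_[q] (PadicAlgCl q),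
        FiniteDimensional ℚ_[q] E ∧ U = E.fixingSubgroup := by
  haveI := h23b_isGalois_padicAlgCl q
  constructor
  · rintro ⟨N', ⟨N, ⟨F, hF, -, rfl⟩, rfl⟩, hle⟩
    haveI := hF
    haveI := h23b_finiteDimensional_localField q F
    rw [h23b_comap_fixingSubgroup] at hle
    obtain ⟨E, -, hE, hfix⟩ := h23b_exists_fixingSubgroup_eq (h23b_localField q F) U hle
    exact ⟨E, hE, hfix.symm⟩
  · rintro ⟨E, hE, rfl⟩
    haveI := hE
    obtain ⟨F, hF, hn, hle⟩ := h23b_exists_le_localField q E
    refine ⟨F.fixingSubgroup.comap (localGaloisToGlobal q), ⟨_, ⟨F, hF, hn, rfl⟩, rfl⟩, ?_⟩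
    rw [h23b_comap_fixingSubgroup]
    exact IntermediateField.fixingSubgroup_antitone hle

/-- `[G_q : G_E] = [E : ℚ_q]`. -/
theorem h23b_index_fixingSubgroup_loc (E : IntermediateField ℚ_[q] (PadicAlgCl q)) :
    E.fixingSubgroup.index = Module.finrank ℚ_[q] E := by
  haveI := h23b_isGalois_padicAlgCl q
  exact h23b_index_fixingSubgroup_gen E

/-- The local cyclotomic character is trivial on `Gal(ℚ̄_q/E)` iff `ι ζ_p ∈ E`. -/
theorem h23b_cycloChar_loc_trivial_iff (p : ℕ) [Fact p.Prime]
    (E : IntermediateField ℚ_[q] (PadicAlgCl q)) {ζ : AlgebraicClosure ℚ}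
    (hζ : IsPrimitiveRoot ζ p) :
    (∀ u ∈ E.fixingSubgroup, cycloChar p (localGaloisToGlobal q u) = 1) ↔
      padicEmbedding q ζ ∈ E := by
  haveI := h23b_isGalois_padicAlgCl q
  rw [h23b_mem_iff_forall_fixed E (padicEmbedding q ζ)]
  constructor
  · intro h s hs
    have h1 := (h23b_cycloChar_eq_one_iff p hζ _).mp (h s hs)
    have h2 := padicEmbedding_localGaloisToGlobal q s ζ
    rw [h1] at h2
    exact h2.symm
  · intro h u hu
    rw [h23b_cycloChar_eq_one_iff p hζ]
    apply (padicEmbedding q).injective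
    show padicEmbedding q (localGaloisToGlobal q u ζ) = padicEmbedding q ζ
    rw [padicEmbedding_localGaloisToGlobal]
    exact h u hu

end Local

/-- The open subgroups of the local level systems of the datum `DQ p S`. -/
theorem h23b_isOpen_DQ_loc_iff (p : ℕ) [Fact p.Prime] (S : Finset Nat.Primes)
    (q : (DQ p S).P) (U : Subgroup ((DQ p S).H q)) :
    ((DQ p S).levH q).IsOpen U ↔
      haveI : Fact ((q.1 : Nat.Primes) : ℕ).Prime := ⟨q.1.2⟩
      ∃ E : IntermediateField ℚ_[((q.1 : Nat.Primes) : ℕ)] (PadicAlgCl ((q.1 : Nat.Primes) : ℕ)),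
        FiniteDimensional ℚ_[((q.1 : Nat.Primes) : ℕ)] E ∧
          U = (E.fixingSubgroup : Subgroup (PadicAlgCl ((q.1 : Nat.Primes) : ℕ) ≃ₐ[ℚ_[((q.1 : Nat.Primes) : ℕ)]]
            PadicAlgCl ((q.1 : Nat.Primes) : ℕ))) :=
  haveI : Fact ((q.1 : Nat.Primes) : ℕ).Prime := ⟨q.1.2⟩
  h23b_isOpen_levLoc_iff ((q.1 : Nat.Primes) : ℕ) U

end Fermat.Agent.PT.Bridge
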