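/-
W3-PT (S55), PT-BRIDGE, leaf BR-PLACES (helper23): places of a number field as double cosets,
the degree formula.

For `L/ℚ` finite inside `ℚ̄`, `U = Gal(ℚ̄/L)`, a prime `q` and `x ∈ G_ℚ`, the place `(q, x)` of `L`
is `y ↦ ‖ι_q (x y)‖`; its local field is `E_{q,x} = h23b_localField q (L.map x)`, its local group
is `E_{q,x}.fixingSubgroup = {h | x⁻¹ r(h) x ∈ U}`.  Two `x` give the same place iff they lie in
the same double coset `r(G_q) x U` (`h23b_primeUnder_eq_iff` in `LocGrpE`).

* `h23b_class_formula` : the class formula for an action on a finite set (no finiteness of the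
  group).
* `h23b_double_coset_formula` : representatives of `f(H)\G/U` and the sum of the indices of the
  stabilisers.
* `h23b_stabilizer_eq` : the stabiliser of `xU` is `Gal(ℚ̄_q / E_{q,x})`.
* `h23b_degree_formula` : `∑_{x} [E_{q,x} : ℚ_q] = [L : ℚ]`, the sum over a (finite) system of
  representatives of the double cosets.
-/
import Mathlib
import Fermat.Agent.PT.Bridge.Open
import Fermat.Agent.PT.Bridge.LocGrpE

set_option autoImplicit false
set_option linter.style.haveILetI false

open ExtCitation groupCohomology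

namespace Fermat.Agent.PT.Bridge

/-! ## The class formula -/

/-- The class formula: a system of representatives of the orbits of a group acting on a finite
set, and the sum of the indices of the stabilisers. -/
theorem h23b_class_formula (H X : Type*) [Group H] [MulAction H X] [Finite X] :
    ∃ T : Finset X, (∀ x : X, ∃! t, t ∈ T ∧ x ∈ MulAction.orbit H t) ∧
      ∑ t ∈ T, (MulAction.stabilizer H t).index = Nat.card X := by
  classical
  haveI : Finite (MulAction.orbitRel.Quotient H X) := Quotient.finite _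
  haveI : Fintype (MulAction.orbitRel.Quotient H X) := Fintype.ofFinite _
  let rep : MulAction.orbitRel.Quotient H X → X := Quotient.out
  have hrep : Function.Injective rep := Quotient.out_injective
  have hmem : ∀ (x : X) (ω : MulAction.orbitRel.Quotient H X),
      x ∈ MulAction.orbit H (rep ω) ↔ (Quotient.mk'' x : MulAction.orbitRel.Quotient H X) = ω := by
    intro x ω
    rw [← MulAction.orbitRel_apply]
    constructor
    · intro h
      have h1 : (Quotient.mk'' x : MulAction.orbitRel.Quotient H X) = Quotient.mk'' (rep ω) :=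
        Quotient.sound' h
      rw [h1]
      exact Quotient.out_eq' ω
    · intro h
      have h1 : (Quotient.mk'' x : MulAction.orbitRel.Quotient H X) = Quotient.mk'' (rep ω) := by
        rw [h]
        exact (Quotient.out_eq' ω).symm
      exact Quotient.exact' h1
  refine ⟨Finset.univ.image rep, ?_, ?_⟩
  · intro x
    refine ⟨rep (Quotient.mk'' x), ⟨Finset.mem_image_of_mem _ (Finset.mem_univ _),
      (hmem x _).2 rfl⟩, ?_⟩
    rintro t ⟨ht, hx⟩
    obtain ⟨ω, -, rfl⟩ := Finset.mem_image.mp ht
    rw [(hmem x ω).1 hx]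
  · rw [Finset.sum_image (fun a _ b _ h => hrep h)]
    have h1 : ∀ ω : MulAction.orbitRel.Quotient H X,
        (MulAction.stabilizer H (rep ω)).index = Nat.card (MulAction.orbit H (rep ω)) := by
      intro ω
      rw [Subgroup.index_eq_card]
      exact (Nat.card_congr (MulAction.orbitEquivQuotientStabilizer H (rep ω))).symm
    simp_rw [h1]
    rw [← Nat.card_sigma]
    exact (Nat.card_congr (MulAction.selfEquivSigmaOrbits H X)).symm

/-- Double cosets `f(H) \ G / U` for `U` of finite index: a finite system of representatives,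
and the sum of the indices of the stabilisers `{h | x⁻¹ f(h) x ∈ U}` is `[G : U]`. -/
theorem h23b_double_coset_formula {G H : Type*} [Group G] [Group H] (f : H →* G)
    (U : Subgroup G) [U.FiniteIndex] :
    ∃ T : Finset G,
      (∀ g : G, ∃! x, x ∈ T ∧ ∃ h : H, ∃ u ∈ U, g = f h * x * u) ∧
      ∑ x ∈ T, (U.comap ((MulAut.conj x⁻¹).toMonoidHom.comp f)).index = U.index := by
  classical
  letI : MulAction H (G ⧸ U) := MulAction.compHom (G ⧸ U) f
  haveI : Finite (G ⧸ U) := Subgroup.finite_quotient_of_finiteIndex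
  have hsmul : ∀ (h : H) (x : G), h • (x : G ⧸ U) = ((f h * x : G) : G ⧸ U) := fun h x => rfl
  obtain ⟨T₀, hT₀, hsum⟩ := h23b_class_formula H (G ⧸ U)
  have hout : ∀ t : G ⧸ U, ((Quotient.out t : G) : G ⧸ U) = t := fun t => Quotient.out_eq' t
  have hinj : Function.Injective (Quotient.out : G ⧸ U → G) := Quotient.out_injective
  refine ⟨T₀.image Quotient.out, ?_, ?_⟩
  · intro g
    obtain ⟨t, ⟨htT, h, hh⟩, huniq⟩ := hT₀ (g : G ⧸ U)
    refine ⟨Quotient.out t, ⟨Finset.mem_image_of_mem _ htT, ?_⟩, ?_⟩
    · have h1 : ((f h * Quotient.out t : G) : G ⧸ U) = (g : G ⧸ U) := by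
        rw [← hsmul, hout]
        exact hh
      have hu := QuotientGroup.eq.mp h1
      exact ⟨h, _, hu, by group⟩
    · rintro y ⟨hy, h', u, hu, rfl⟩
      obtain ⟨t', ht', rfl⟩ := Finset.mem_image.mp hy
      have h2 : t' = t := by
        refine huniq t' ⟨ht', h', ?_⟩
        show h' • t' = _
        conv_lhs => rw [← hout t']
        rw [hsmul]
        apply QuotientGroup.eq.mpr
        have : (f h' * Quotient.out t')⁻¹ * (f h' * Quotient.out t' * u) = u := by group
        rw [this]
        exact hu
      rw [h2]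
  · rw [Finset.sum_image (fun a _ b _ h => hinj h), Subgroup.index_eq_card U, ← hsum]
    refine Finset.sum_congr rfl fun t _ => ?_
    congr 1
    ext h
    rw [Subgroup.mem_comap, MulAction.mem_stabilizer_iff]
    show (Quotient.out t)⁻¹ * f h * (Quotient.out t)⁻¹⁻¹ ∈ U ↔ _
    rw [inv_inv]
    conv_rhs => rw [← hout t, hsmul]
    rw [eq_comm, QuotientGroup.eq, mul_assoc]

/-! ## Places of `L` over `q` -/

section Places

variable (q : ℕ) [Fact q.Prime]

/-- The stabiliser of the coset `xU`, `U = Gal(ℚ̄/L)`, under the local Galois group at `q` is the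
Galois group of the local field of `L` at the place `(q, x)`. -/
theorem h23b_stabilizer_eq (L : IntermediateField ℚ (AlgebraicClosure ℚ))
    (x : AlgebraicClosure ℚ ≃ₐ[ℚ] AlgebraicClosure ℚ) :
    L.fixingSubgroup.comap ((MulAut.conj x⁻¹).toMonoidHom.comp (localGaloisToGlobal q)) =
      (h23b_localField q (L.map (x : AlgebraicClosure ℚ →ₐ[ℚ] AlgebraicClosure ℚ))).fixingSubgroup := by
  ext h
  rw [Subgroup.mem_comap, ← h23b_conj_mem_fixingSubgroup_iff]
  show x⁻¹ * localGaloisToGlobal q h * x⁻¹⁻¹ ∈ _ ↔ _
  rw [inv_inv]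

/-- **Degree formula.** For `L/ℚ` finite there is a finite system `T` of representatives of the
double cosets `r(G_q) \ G_ℚ / Gal(ℚ̄/L)` (= the places of `L` over `q`), and
`∑_{x ∈ T} [E_{q,x} : ℚ_q] = [L : ℚ]`. -/
theorem h23b_degree_formula (L : IntermediateField ℚ (AlgebraicClosure ℚ))
    [FiniteDimensional ℚ L] :
    ∃ T : Finset (AlgebraicClosure ℚ ≃ₐ[ℚ] AlgebraicClosure ℚ),
      (∀ g : AlgebraicClosure ℚ ≃ₐ[ℚ] AlgebraicClosure ℚ, ∃! x, x ∈ T ∧
        ∃ h : PadicAlgCl q ≃ₐ[ℚ_[q]] PadicAlgCl q, ∃ u ∈ L.fixingSubgroup,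
          g = localGaloisToGlobal q h * x * u) ∧
      ∑ x ∈ T, Module.finrank ℚ_[q]
        (h23b_localField q (L.map (x : AlgebraicClosure ℚ →ₐ[ℚ] AlgebraicClosure ℚ))) =
        Module.finrank ℚ L := by
  haveI : L.fixingSubgroup.FiniteIndex := by
    refine ⟨?_⟩
    rw [h23b_index_fixingSubgroup]
    exact Module.finrank_pos.ne'
  obtain ⟨T, hT, hsum⟩ := h23b_double_coset_formula (localGaloisToGlobal q) L.fixingSubgroup
  refine ⟨T, hT, ?_⟩
  rw [← h23b_index_fixingSubgroup L, ← hsum]
  refine Finset.sum_congr rfl fun x _ => ?_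
  rw [h23b_stabilizer_eq, h23b_index_fixingSubgroup_loc]

end Places

end Fermat.Agent.PT.Bridge
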