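/-
W3-PT (S55), PT-BRIDGE, leaf BR-INERT (helper23): inertia and Frobenius of the local Galois group
versus the frozen inertia subgroup / Frobenius elements of `padicPlace q`.

Notation: `A = padicPlace q`, `ι = padicEmbedding q`, `r = localGaloisToGlobal q`,
`G_q = Gal(ℚ̄_q/ℚ_q)`.  "Root of unity of order prime to `q`": `w ^ m = 1`, `0 < m`, `¬ q ∣ m`.

* `h23b_teichmuller` : an algebraic integer is in the maximal ideal of a valuation subring over
  `q` or congruent to a root of unity of order prime to `q`.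
* `h23b_eq_of_sub_mem_nonunits_of_not_dvd` : such roots of unity are distinct modulo the maximal
  ideal.
* `h23b_mem_inertia_iff` : `r h ∈ A.inertiaSubgroupIn ℚ` iff `h` fixes all roots of unity of order
  prime to `q` (i.e. `Loc.IsInert ⊥ h`, `h23b_isInert_iff`).
* `h23b_isFrobeniusAt_iff` : `A.IsFrobeniusAt (r φ) q` iff `φ w = w ^ q` for all such roots of
  unity.
* `h23b_mem_decomp_conj_iff`, `h23b_mem_inertia_conj_iff` : decomposition and inertia subgroups
  of the conjugates `x⁻¹ • A` (= all valuation subrings over `q`).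
* `h23b_conj_mem_fixingSubgroup_of_inert` : if `F` is unramified outside `S ∌ q` then the local
  inertia acts trivially on every local field `E_{q,x}` of `F` (levels unramified outside `S` are
  unramified at `q`).
-/
import Mathlib
import Fermat.Agent.PT.Bridge.Places
import Fermat.Agent.PT.Loc.Basic
import Fermat.Agent.Bridge.FrobeniusConj

set_option autoImplicit false
set_option linter.style.haveILetI false

open ExtCitation groupCohomology
open scoped Pointwise

namespace Fermat.Agent.PT.Bridge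

section Valuation

variable {L : Type*} [Field L]

/-- Distinct `m`-th roots of unity, `m` prime to `ℓ`, stay distinct modulo the maximal ideal of a
valuation subring lying over `ℓ`. -/
theorem h23b_eq_of_sub_mem_nonunits_of_not_dvd (A : ValuationSubring L) {m ℓ : ℕ}
    (hm : 0 < m) (hℓ : ℓ.Prime) (hnd : ¬ ℓ ∣ m) (hA : (ℓ : L) ∈ A.nonunits) {x y : L}
    (hx : x ^ m = 1) (hy : y ^ m = 1) (h : x - y ∈ A.nonunits) : x = y := by
  by_contra hxy
  have hy0 : y ≠ 0 := by
    rintro rfl
    rw [zero_pow hm.ne'] at hy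
    exact zero_ne_one hy
  have hyint : IsIntegral ℤ y⁻¹ := by
    refine ⟨Polynomial.X ^ m - 1, Polynomial.monic_X_pow_sub_C (1 : ℤ) hm.ne', ?_⟩
    simp [inv_pow, hy]
  have hyA : y⁻¹ ∈ A := Fermat.Agent.S54.mem_valuationSubring_of_isIntegral A hyint
  have hξ : (x * y⁻¹) ^ m = 1 := by rw [mul_pow, inv_pow, hx, hy, inv_one, mul_one]
  have hξ1 : x * y⁻¹ ≠ 1 := by
    intro h1
    apply hxy
    field_simp at h1
    exact h1
  have hmem : x * y⁻¹ - 1 ∈ A.nonunits := by
    have e : x * y⁻¹ - 1 = (x - y) * y⁻¹ := by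
      field_simp
    rw [e, ValuationSubring.mem_nonunits_iff] at *
    rw [map_mul]
    exact mul_lt_one_of_nonneg_of_lt_one_left zero_le h ((A.valuation_le_one_iff _).mpr hyA)
  have hpmem := h23b_natCast_mem_nonunits_of_sub_one_mem A hξ hξ1 hmem
  have hnd' : ¬ (ℓ : ℤ) ∣ (m : ℤ) := by
    intro hdvd
    exact hnd (Int.natCast_dvd_natCast.mp hdvd)
  have := Fermat.Agent.S54.intCast_not_mem_nonunits A hℓ hA hnd'
  apply this
  simpa using hpmem

end Valuation

section Teich

variable {L : Type*} [Field L]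

/-- In a valuation subring, a product of elements of the subring lying in the maximal ideal has
a factor in the maximal ideal. -/
theorem h23b_exists_mem_nonunits_of_prod_mem {ι : Type*} (A : ValuationSubring L)
    (s : Finset ι) (f : ι → L) (hf : ∀ i ∈ s, f i ∈ A) (h : ∏ i ∈ s, f i ∈ A.nonunits) :
    ∃ i ∈ s, f i ∈ A.nonunits := by
  by_contra hcon
  push Not at hcon
  have h1 : ∀ i ∈ s, A.valuation (f i) = 1 := by
    intro i hi
    have h2 : A.valuation (f i) ≤ 1 := (A.valuation_le_one_iff _).mpr (hf i hi)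
    have h3 : ¬ A.valuation (f i) < 1 := fun hlt =>
      hcon i hi ((ValuationSubring.mem_nonunits_iff A).mpr hlt)
    exact le_antisymm h2 (not_lt.mp h3)
  rw [ValuationSubring.mem_nonunits_iff, map_prod, Finset.prod_congr rfl h1,
    Finset.prod_const_one] at h
  exact lt_irrefl _ h

/-- **Teichmüller representatives.** Let `A` be a valuation subring of a field `L` with
enough roots of unity, lying over the prime `q`. An element of `A` integral over `ℤ` is either in
the maximal ideal or congruent to a root of unity of order prime to `q`. -/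
theorem h23b_teichmuller [IsAlgClosed L] [CharZero L] (A : ValuationSubring L) {q : ℕ}
    (hq : q.Prime) (hA : (q : L) ∈ A.nonunits) {x : L} (hx : IsIntegral ℤ x) :
    x ∈ A.nonunits ∨ ∃ (y : L) (m : ℕ), 0 < m ∧ ¬ q ∣ m ∧ y ^ m = 1 ∧ x - y ∈ A.nonunits := by
  classical
  have hxA : x ∈ A := Fermat.Agent.S54.mem_valuationSubring_of_isIntegral A hx
  -- the residue field has characteristic `q`
  have hq0 : ((q : ℕ) : IsLocalRing.ResidueField A) = 0 := by
    have h1 : ((q : ℕ) : A) ∈ IsLocalRing.maximalIdeal A := by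
      rw [← ValuationSubring.coe_mem_nonunits_iff]
      simpa using hA
    have h2 := (IsLocalRing.residue_eq_zero_iff _).mpr h1
    rwa [map_natCast] at h2
  haveI : CharP (IsLocalRing.ResidueField A) q := (CharP.charP_iff_prime_eq_zero hq).mpr hq0
  haveI : Fact q.Prime := ⟨hq⟩
  letI : Algebra (ZMod q) (IsLocalRing.ResidueField A) := ZMod.algebra _ q
  -- the residue of `x` is integral over `𝔽_q`
  set xb : IsLocalRing.ResidueField A := IsLocalRing.residue A ⟨x, hxA⟩ with hxb
  have hxbint : IsIntegral (ZMod q) xb := by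
    obtain ⟨P, hP, hPx⟩ := hx
    refine ⟨P.map (Int.castRingHom (ZMod q)), hP.map _, ?_⟩
    rw [Polynomial.eval₂_map]
    have e1 : (algebraMap (ZMod q) (IsLocalRing.ResidueField A)).comp (Int.castRingHom (ZMod q)) =
        (IsLocalRing.residue A).comp (Int.castRingHom A) := RingHom.ext_int _ _
    have e3 : A.subtype.comp (Int.castRingHom A) = algebraMap ℤ L := RingHom.ext_int _ _
    have e2 : Polynomial.eval₂ (Int.castRingHom A) (⟨x, hxA⟩ : A) P = 0 := by
      apply Subtype.ext
      have h1 := Polynomial.hom_eval₂ P (Int.castRingHom A) A.subtype (⟨x, hxA⟩ : A)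
      rw [e3] at h1
      have h2 : A.subtype (⟨x, hxA⟩ : A) = x := rfl
      rw [h2, hPx] at h1
      exact h1
    rw [e1, hxb, ← Polynomial.hom_eval₂, e2, map_zero]
  by_cases hxb0 : xb = 0
  · left
    have := (IsLocalRing.residue_eq_zero_iff _).mp hxb0
    rw [← ValuationSubring.coe_mem_nonunits_iff] at this
    exact this
  right
  haveI : FiniteDimensional (ZMod q) (IntermediateField.adjoin (ZMod q) {xb}) :=
    IntermediateField.adjoin.finiteDimensional hxbint
  haveI : Finite (IntermediateField.adjoin (ZMod q) {xb}) :=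
    Module.finite_of_finite (ZMod q)
  letI : Fintype (IntermediateField.adjoin (ZMod q) {xb}) := Fintype.ofFinite _
  obtain ⟨n, -, hcard⟩ := FiniteField.card (IntermediateField.adjoin (ZMod q) {xb}) q
  set a : IntermediateField.adjoin (ZMod q) {xb} :=
    ⟨xb, IntermediateField.mem_adjoin_simple_self (ZMod q) xb⟩ with ha
  have ha0 : a ≠ 0 := fun h => hxb0 (congrArg Subtype.val h)
  have hpow := FiniteField.pow_card_sub_one_eq_one a ha0
  rw [hcard] at hpow
  set m : ℕ := q ^ (n : ℕ) - 1 with hm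
  have hqn : 2 ≤ q ^ (n : ℕ) := by
    calc 2 ≤ q := hq.two_le
      _ = q ^ 1 := (pow_one q).symm
      _ ≤ q ^ (n : ℕ) := Nat.pow_le_pow_right hq.pos n.2
  have hmpos : 0 < m := by omega
  have hnd : ¬ q ∣ m := by
    intro hdvd
    have h1 : q ∣ q ^ (n : ℕ) := dvd_pow_self q n.ne_zero
    have h2 : q ∣ q ^ (n : ℕ) - m := Nat.dvd_sub h1 hdvd
    have h3 : q ^ (n : ℕ) - m = 1 := by omega
    rw [h3] at h2
    exact hq.one_lt.ne' (Nat.dvd_one.mp h2)
  have hxbpow : xb ^ m = 1 := by
    have := congrArg Subtype.val hpow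
    simpa using this
  -- hence `x ^ m - 1` is in the maximal ideal
  have hmem : x ^ m - 1 ∈ A.nonunits := by
    have h1 : IsLocalRing.residue A ((⟨x, hxA⟩ : A) ^ m - 1) = 0 := by
      rw [map_sub, map_pow, map_one, ← hxb, hxbpow, sub_self]
    have h2 := (IsLocalRing.residue_eq_zero_iff _).mp h1
    rw [← ValuationSubring.coe_mem_nonunits_iff] at h2
    simpa using h2
  -- factor `x ^ m - 1`
  haveI : NeZero (m : L) := ⟨Nat.cast_ne_zero.mpr hmpos.ne'⟩
  obtain ⟨ζ, hζ⟩ := HasEnoughRootsOfUnity.exists_primitiveRoot L m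
  have hfac := hζ.pow_sub_pow_eq_prod_sub_mul x 1 hmpos
  rw [one_pow] at hfac
  rw [hfac] at hmem
  have hroot : ∀ y ∈ Polynomial.nthRootsFinset m (1 : L), y ^ m = 1 := fun y hy =>
    (Polynomial.mem_nthRootsFinset hmpos 1).mp hy
  obtain ⟨y, hy, hy2⟩ := h23b_exists_mem_nonunits_of_prod_mem A _ (fun y => x - y * 1)
    (fun y hy => by
      have hyint : IsIntegral ℤ y :=
        ⟨Polynomial.X ^ m - 1, Polynomial.monic_X_pow_sub_C (1 : ℤ) hmpos.ne', by
          simp [hroot y hy]⟩
      rw [mul_one]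
      exact sub_mem hxA (Fermat.Agent.S54.mem_valuationSubring_of_isIntegral A hyint)) hmem
  rw [mul_one] at hy2
  exact ⟨y, m, hmpos, hnd, hroot y hy, hy2⟩

end Teich

/-! ## The local Galois group -/

section Local

variable (q : ℕ) [Fact q.Prime]

/-- `ι` is injective (stated for the function). -/
theorem h23b_padicEmbedding_injective :
    Function.Injective (padicEmbedding q : AlgebraicClosure ℚ → PadicAlgCl q) :=
  (padicEmbedding q).toRingHom.injective

/-- A root of unity in `ℚ̄_q` comes from `ℚ̄`. -/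
theorem h23b_exists_padicEmbedding_eq_of_pow_eq_one {w : PadicAlgCl q} {m : ℕ} (hm : 0 < m)
    (hw : w ^ m = 1) :
    ∃ y : AlgebraicClosure ℚ, padicEmbedding q y = w ∧ y ^ m = 1 ∧ IsIntegral ℤ y := by
  have hwalg : IsAlgebraic ℚ w := by
    refine ⟨Polynomial.X ^ m - 1, ?_, by simp [hw]⟩
    exact (Polynomial.monic_X_pow_sub_C (1 : ℚ) hm.ne').ne_zero
  obtain ⟨y, rfl⟩ := h23b_exists_padicEmbedding_eq_of_isAlgebraic q hwalg
  have hy : y ^ m = 1 := by
    apply h23b_padicEmbedding_injective q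
    rw [map_pow, hw, map_one]
  exact ⟨y, rfl, hy, ⟨Polynomial.X ^ m - 1, Polynomial.monic_X_pow_sub_C (1 : ℤ) hm.ne', by
    simp [hy]⟩⟩

/-- **Inertia.** `r h` lies in the inertia subgroup of `padicPlace q` iff `h` fixes all roots of
unity of order prime to `q`. -/
theorem h23b_mem_inertia_iff (h : PadicAlgCl q ≃ₐ[ℚ_[q]] PadicAlgCl q) :
    localGaloisToGlobal q h ∈ (padicPlace q).inertiaSubgroupIn ℚ ↔
      ∀ (w : PadicAlgCl q) (m : ℕ), 0 < m → ¬ q ∣ m → w ^ m = 1 → h w = w := by
  have hq : q.Prime := Fact.out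
  have hA : ((q : ℕ) : AlgebraicClosure ℚ) ∈ (padicPlace q).nonunits := h23b_padicPlace_liesOver q
  constructor
  · intro hin w m hm hnd hw
    obtain ⟨y, rfl, hy, hyint⟩ := h23b_exists_padicEmbedding_eq_of_pow_eq_one q hm hw
    have h1 := (Fermat.Agent.Bridge.memInertiaInt (padicPlace q) _).mp hin y hyint
    have h2 : (localGaloisToGlobal q h y) ^ m = 1 := by rw [← map_pow, hy, map_one]
    have h3 := h23b_eq_of_sub_mem_nonunits_of_not_dvd (padicPlace q) hm hq hnd hA h2 hy h1
    rw [← padicEmbedding_localGaloisToGlobal, h3]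
  · intro hall
    rw [Fermat.Agent.Bridge.memInertiaInt]
    intro x hx
    have hD := localGaloisToGlobal_mem_decompositionSubgroup q h
    rcases h23b_teichmuller (padicPlace q) hq hA hx with h1 | ⟨y, m, hm, hnd, hy, hxy⟩
    · exact Fermat.Agent.Bridge.sub_mem_nonunits _
        ((Fermat.Agent.Bridge.mem_nonunits_of_mem_decomp hD).mpr h1) h1
    · have hfix : localGaloisToGlobal q h y = y := by
        apply h23b_padicEmbedding_injective q
        rw [padicEmbedding_localGaloisToGlobal]
        exact hall _ m hm hnd (by rw [← map_pow, hy, map_one])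
      have e : localGaloisToGlobal q h x - x = localGaloisToGlobal q h (x - y) - (x - y) := by
        rw [map_sub, hfix]
        ring
      rw [e]
      exact Fermat.Agent.Bridge.sub_mem_nonunits _
        ((Fermat.Agent.Bridge.mem_nonunits_of_mem_decomp hD).mpr hxy) hxy

/-- The same in the language of PT-LOC. -/
theorem h23b_isInert_iff (K : Loc.LF q) (h : Loc.Gq q) :
    Loc.IsInert K h ↔
      h ∈ Loc.GK K ∧ localGaloisToGlobal q h ∈ (padicPlace q).inertiaSubgroupIn ℚ := by
  rw [h23b_mem_inertia_iff]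
  rfl

/-- **Frobenius.** `r φ` is a Frobenius element of `padicPlace q` iff `φ` raises all roots of
unity of order prime to `q` to the power `q`. -/
theorem h23b_isFrobeniusAt_iff (φ : PadicAlgCl q ≃ₐ[ℚ_[q]] PadicAlgCl q) :
    (padicPlace q).IsFrobeniusAt (localGaloisToGlobal q φ) q ↔
      ∀ (w : PadicAlgCl q) (m : ℕ), 0 < m → ¬ q ∣ m → w ^ m = 1 → φ w = w ^ q := by
  have hq : q.Prime := Fact.out
  have hA : ((q : ℕ) : AlgebraicClosure ℚ) ∈ (padicPlace q).nonunits := h23b_padicPlace_liesOver q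
  rw [Fermat.Agent.Bridge.isFrobeniusAt_iff_forall_integral hq (h23b_padicPlace_liesOver q)]
  constructor
  · intro hfr w m hm hnd hw
    obtain ⟨y, rfl, hy, hyint⟩ := h23b_exists_padicEmbedding_eq_of_pow_eq_one q hm hw
    have h1 := hfr y hyint
    have h2 : (localGaloisToGlobal q φ y) ^ m = 1 := by rw [← map_pow, hy, map_one]
    have h2' : (y ^ q) ^ m = 1 := by rw [← pow_mul, mul_comm, pow_mul, hy, one_pow]
    have h3 := h23b_eq_of_sub_mem_nonunits_of_not_dvd (padicPlace q) hm hq hnd hA h2 h2' h1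
    rw [← padicEmbedding_localGaloisToGlobal, h3, map_pow]
  · intro hall x hx
    have hD := localGaloisToGlobal_mem_decompositionSubgroup q φ
    have hxA : x ∈ padicPlace q := Fermat.Agent.Bridge.mem_of_isIntegral _ hx
    rcases h23b_teichmuller (padicPlace q) hq hA hx with h1 | ⟨y, m, hm, hnd, hy, hxy⟩
    · exact Fermat.Agent.Bridge.sub_mem_nonunits _
        ((Fermat.Agent.Bridge.mem_nonunits_of_mem_decomp hD).mpr h1)
        (Fermat.Agent.Bridge.pow_mem_nonunits _ hq.ne_zero h1)
    · have hyint : IsIntegral ℤ y :=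
        ⟨Polynomial.X ^ m - 1, Polynomial.monic_X_pow_sub_C (1 : ℤ) hm.ne', by simp [hy]⟩
      have hyA : y ∈ padicPlace q := Fermat.Agent.Bridge.mem_of_isIntegral _ hyint
      have hfr : localGaloisToGlobal q φ y = y ^ q := by
        apply h23b_padicEmbedding_injective q
        rw [padicEmbedding_localGaloisToGlobal, map_pow]
        exact hall _ m hm hnd (by rw [← map_pow, hy, map_one])
      have hgeom : x ^ q - y ^ q ∈ (padicPlace q).nonunits := by
        rw [← geom_sum₂_mul]
        refine Fermat.Agent.Bridge.mul_mem_nonunits_right _ ?_ hxy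
        exact sum_mem fun i _ => mul_mem (pow_mem hxA _) (pow_mem hyA _)
      have e : localGaloisToGlobal q φ x - x ^ q =
          localGaloisToGlobal q φ (x - y) - (x ^ q - y ^ q) := by
        rw [map_sub, hfr]
        ring
      rw [e]
      exact Fermat.Agent.Bridge.sub_mem_nonunits _
        ((Fermat.Agent.Bridge.mem_nonunits_of_mem_decomp hD).mpr hxy) hgeom

/-! ## Conjugates: all valuation subrings over `q` -/

/-- The decomposition subgroup of `x⁻¹ • padicPlace q` is `x⁻¹ r(G_q) x`. -/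
theorem h23b_mem_decomp_conj_iff (x σ : AlgebraicClosure ℚ ≃ₐ[ℚ] AlgebraicClosure ℚ) :
    σ ∈ (x⁻¹ • padicPlace q).decompositionSubgroup ℚ ↔
      ∃ h : PadicAlgCl q ≃ₐ[ℚ_[q]] PadicAlgCl q, σ = x⁻¹ * localGaloisToGlobal q h * x := by
  rw [Fermat.Agent.Bridge.mem_decompositionSubgroup_smul_iff, inv_inv]
  constructor
  · intro h
    obtain ⟨τ, hτ⟩ := h23b_exists_localGalois_of_mem_decomp q h
    exact ⟨τ, by rw [hτ]; group⟩
  · rintro ⟨h, rfl⟩
    have e : x * (x⁻¹ * localGaloisToGlobal q h * x) * x⁻¹ = localGaloisToGlobal q h := by group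
    rw [e]
    exact localGaloisToGlobal_mem_decompositionSubgroup q h

/-- The inertia subgroup of `x⁻¹ • padicPlace q` is `x⁻¹ r(I_q) x`, `I_q` = the elements of `G_q`
fixing all roots of unity of order prime to `q`. -/
theorem h23b_mem_inertia_conj_iff (x σ : AlgebraicClosure ℚ ≃ₐ[ℚ] AlgebraicClosure ℚ) :
    σ ∈ (x⁻¹ • padicPlace q).inertiaSubgroupIn ℚ ↔
      ∃ h : PadicAlgCl q ≃ₐ[ℚ_[q]] PadicAlgCl q,
        (∀ (w : PadicAlgCl q) (m : ℕ), 0 < m → ¬ q ∣ m → w ^ m = 1 → h w = w) ∧
        σ = x⁻¹ * localGaloisToGlobal q h * x := by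
  rw [Fermat.Agent.Bridge.mem_inertiaSubgroupIn_smul_iff, inv_inv]
  constructor
  · intro h
    have hD : x * σ * x⁻¹ ∈ (padicPlace q).decompositionSubgroup ℚ := by
      obtain ⟨τ, -, hτ⟩ := h
      rw [← hτ]
      exact τ.2
    obtain ⟨τ, hτ⟩ := h23b_exists_localGalois_of_mem_decomp q hD
    refine ⟨τ, (h23b_mem_inertia_iff q τ).mp (by rw [hτ]; exact h), by rw [hτ]; group⟩
  · rintro ⟨h, hh, rfl⟩
    have e : x * (x⁻¹ * localGaloisToGlobal q h * x) * x⁻¹ = localGaloisToGlobal q h := by group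
    rw [e]
    exact (h23b_mem_inertia_iff q h).mpr hh

/-- **Levels unramified outside `S` are unramified at `q ∉ S`**: the local inertia acts trivially
on every local field `E_{q,x}` of `F`. -/
theorem h23b_conj_mem_fixingSubgroup_of_inert {S : Finset Nat.Primes}
    {F : IntermediateField ℚ (AlgebraicClosure ℚ)} (hF : F.IsUnramifiedOutside S)
    (hqS : (⟨q, Fact.out⟩ : Nat.Primes) ∉ S)
    (x : AlgebraicClosure ℚ ≃ₐ[ℚ] AlgebraicClosure ℚ)
    {h : PadicAlgCl q ≃ₐ[ℚ_[q]] PadicAlgCl q}
    (hh : ∀ (w : PadicAlgCl q) (m : ℕ), 0 < m → ¬ q ∣ m → w ^ m = 1 → h w = w) :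
    x⁻¹ * localGaloisToGlobal q h * x ∈ F.fixingSubgroup := by
  have hA : (x⁻¹ • padicPlace q).LiesOverPrime q :=
    (Fermat.Agent.Bridge.liesOverPrime_smul_iff _ _ _).mpr (h23b_padicPlace_liesOver q)
  exact hF.2 ⟨q, Fact.out⟩ hqS _ hA ((h23b_mem_inertia_conj_iff q x _).mpr ⟨h, hh, rfl⟩)

/-- The same in terms of the local field: inertia fixes `E_{q,x}`. -/
theorem h23b_mem_fixingSubgroup_localField_of_inert {S : Finset Nat.Primes}
    {F : IntermediateField ℚ (AlgebraicClosure ℚ)} (hF : F.IsUnramifiedOutside S)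
    (hqS : (⟨q, Fact.out⟩ : Nat.Primes) ∉ S)
    (x : AlgebraicClosure ℚ ≃ₐ[ℚ] AlgebraicClosure ℚ)
    {h : PadicAlgCl q ≃ₐ[ℚ_[q]] PadicAlgCl q}
    (hh : ∀ (w : PadicAlgCl q) (m : ℕ), 0 < m → ¬ q ∣ m → w ^ m = 1 → h w = w) :
    h ∈ (h23b_localField q
      (F.map (x : AlgebraicClosure ℚ →ₐ[ℚ] AlgebraicClosure ℚ))).fixingSubgroup :=
  (h23b_conj_mem_fixingSubgroup_iff q F x h).mp
    (h23b_conj_mem_fixingSubgroup_of_inert q hF hqS x hh)

end Local

end Fermat.Agent.PT.Bridge
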