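/-
W3-PT (S55), PT-BRIDGE, leaf BR-INERT part 2 (helper23): local Frobenius elements, Frobenius
elements at all valuation subrings over `q`, valuation subrings versus the norm of `ℚ̄_q`.

Notation: `A₀ = padicPlace q`, `ι = padicEmbedding q`, `r = localGaloisToGlobal q`.

* `h23b_exists_frob` : there is `φ ∈ G_q` with `φ w = w ^ q` on the roots of unity of order prime
  to `q`.
* `h23b_isFrobeniusAt_conj_iff` : the Frobenius elements at `x⁻¹ • A₀` are the `x⁻¹ r(φ) x`.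
* `h23b_mem_conj_iff`, `h23b_mem_nonunits_conj_iff`, `h23b_isUnit_conj_iff` : membership in
  `x⁻¹ • A₀`, in its maximal ideal, in its unit group, in terms of `‖ι (x a)‖`.
* `h23b_dvdValAt_iff` : `Glob.DvdValAt n L (x⁻¹ • A₀) a` in terms of norms.
-/
import Mathlib
import Fermat.Agent.PT.Bridge.Inertia
import Fermat.Agent.PT.Glob.KIface

set_option autoImplicit false
set_option linter.style.haveILetI false

open ExtCitation groupCohomology
open scoped Pointwise

namespace Fermat.Agent.PT.Bridge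

section Local

variable (q : ℕ) [Fact q.Prime]

/-! ## Frobenius elements -/

/-- A Frobenius element exists in the local Galois group. -/
theorem h23b_exists_frob :
    ∃ φ : PadicAlgCl q ≃ₐ[ℚ_[q]] PadicAlgCl q,
      ∀ (w : PadicAlgCl q) (m : ℕ), 0 < m → ¬ q ∣ m → w ^ m = 1 → φ w = w ^ q := by
  obtain ⟨σ, hσ⟩ := Fermat.Agent.Bridge.existsFrob (padicPlace q) q Fact.out
    (h23b_padicPlace_liesOver q)
  obtain ⟨φ, rfl⟩ := h23b_exists_localGalois_of_mem_decomp q hσ.mem_decompositionSubgroup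
  exact ⟨φ, (h23b_isFrobeniusAt_iff q φ).mp hσ⟩

/-- The Frobenius elements at `x⁻¹ • padicPlace q` are the conjugates `x⁻¹ r(φ) x` of the local
Frobenius elements. -/
theorem h23b_isFrobeniusAt_conj_iff (x σ : AlgebraicClosure ℚ ≃ₐ[ℚ] AlgebraicClosure ℚ) :
    (x⁻¹ • padicPlace q).IsFrobeniusAt σ q ↔
      ∃ φ : PadicAlgCl q ≃ₐ[ℚ_[q]] PadicAlgCl q,
        (∀ (w : PadicAlgCl q) (m : ℕ), 0 < m → ¬ q ∣ m → w ^ m = 1 → φ w = w ^ q) ∧
        σ = x⁻¹ * localGaloisToGlobal q φ * x := by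
  have hq : q.Prime := Fact.out
  have hA := h23b_padicPlace_liesOver q
  have hA' : (x⁻¹ • padicPlace q).LiesOverPrime q :=
    (Fermat.Agent.Bridge.liesOverPrime_smul_iff _ _ _).mpr hA
  constructor
  · intro h
    have h1 := Fermat.Agent.Bridge.isFrobeniusAt_conj hq hA' h x
    rw [smul_inv_smul] at h1
    obtain ⟨φ, hφ⟩ := h23b_exists_localGalois_of_mem_decomp q h1.mem_decompositionSubgroup
    refine ⟨φ, (h23b_isFrobeniusAt_iff q φ).mp (by rw [hφ]; exact h1), ?_⟩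
    rw [hφ]
    group
  · rintro ⟨φ, hφ, rfl⟩
    have h1 := Fermat.Agent.Bridge.isFrobeniusAt_conj hq hA
      ((h23b_isFrobeniusAt_iff q φ).mpr hφ) x⁻¹
    rwa [inv_inv] at h1

/-! ## Valuation subrings and the norm -/

/-- Membership in the maximal ideal of `padicPlace q`. -/
theorem h23b_mem_nonunits_padicPlace_iff (a : AlgebraicClosure ℚ) :
    a ∈ (padicPlace q).nonunits ↔ ‖padicEmbedding q a‖ < 1 := by
  rw [Fermat.Agent.Bridge.mem_nonunits_iff_inv]
  by_cases ha : a = 0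
  · subst ha
    simp
  · have hne : padicEmbedding q a ≠ 0 := by
      intro h
      exact ha ((h23b_padicEmbedding_injective q) (by rw [h, map_zero]))
    have hpos : 0 < ‖padicEmbedding q a‖ := norm_pos_iff.mpr hne
    simp only [ha, false_or]
    have e : a⁻¹ ∈ padicPlace q ↔ ‖padicEmbedding q a⁻¹‖ ≤ 1 := Iff.rfl
    rw [e, map_inv₀, norm_inv, not_le, one_lt_inv₀ hpos]

/-- Membership in `x⁻¹ • padicPlace q`. -/
theorem h23b_mem_conj_iff (x : AlgebraicClosure ℚ ≃ₐ[ℚ] AlgebraicClosure ℚ)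
    (a : AlgebraicClosure ℚ) :
    a ∈ x⁻¹ • padicPlace q ↔ ‖padicEmbedding q (x a)‖ ≤ 1 := by
  rw [Fermat.Agent.Bridge.mem_smul_iff, inv_inv]
  rfl

/-- Membership in the maximal ideal of `x⁻¹ • padicPlace q`. -/
theorem h23b_mem_nonunits_conj_iff (x : AlgebraicClosure ℚ ≃ₐ[ℚ] AlgebraicClosure ℚ)
    (a : AlgebraicClosure ℚ) :
    a ∈ (x⁻¹ • padicPlace q).nonunits ↔ ‖padicEmbedding q (x a)‖ < 1 := by
  rw [Fermat.Agent.Bridge.mem_nonunits_smul_iff, inv_inv, h23b_mem_nonunits_padicPlace_iff]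

/-- Units of `x⁻¹ • padicPlace q`. -/
theorem h23b_isUnit_conj_iff (x : AlgebraicClosure ℚ ≃ₐ[ℚ] AlgebraicClosure ℚ)
    (a : AlgebraicClosure ℚ) (ha : a ≠ 0) :
    (a ∈ x⁻¹ • padicPlace q ∧ a⁻¹ ∈ x⁻¹ • padicPlace q) ↔ ‖padicEmbedding q (x a)‖ = 1 := by
  have hne : padicEmbedding q (x a) ≠ 0 := by
    intro h0
    apply ha
    have := (h23b_padicEmbedding_injective q) (by rw [h0, map_zero] :
      padicEmbedding q (x a) = padicEmbedding q 0)
    exact (map_eq_zero x).mp this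
  have hpos : 0 < ‖padicEmbedding q (x a)‖ := norm_pos_iff.mpr hne
  rw [h23b_mem_conj_iff, h23b_mem_conj_iff, map_inv₀, map_inv₀, norm_inv]
  constructor
  · rintro ⟨h1, h2⟩
    exact le_antisymm h1 ((inv_le_one₀ hpos).mp h2)
  · intro h
    rw [h]
    simp

/-- `n` divides the valuation of `a` at the place `(q, x)` of `L`, in terms of norms. -/
theorem h23b_dvdValAt_iff (n : ℕ) (L : IntermediateField ℚ (AlgebraicClosure ℚ))
    (x : AlgebraicClosure ℚ ≃ₐ[ℚ] AlgebraicClosure ℚ) (a : AlgebraicClosure ℚ) (ha : a ≠ 0) :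
    Glob.DvdValAt n L (x⁻¹ • padicPlace q) a ↔
      ∃ π : AlgebraicClosure ℚ, π ∈ L ∧ π ≠ 0 ∧
        ‖padicEmbedding q (x a)‖ = ‖padicEmbedding q (x π)‖ ^ n := by
  constructor
  · rintro ⟨π, hπL, hπ0, u, hu, hu', rfl⟩
    refine ⟨π, hπL, hπ0, ?_⟩
    have hu0 : u ≠ 0 := by
      rintro rfl
      exact ha (mul_zero _)
    have h1 := (h23b_isUnit_conj_iff q x u hu0).mp ⟨hu, hu'⟩
    rw [map_mul, map_mul, norm_mul, h1, mul_one, map_pow, map_pow, norm_pow]
  · rintro ⟨π, hπL, hπ0, h⟩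
    have hπn : π ^ n ≠ 0 := pow_ne_zero _ hπ0
    refine ⟨π, hπL, hπ0, a / π ^ n, ?_⟩
    have hxπ : padicEmbedding q (x π) ≠ 0 := by
      intro h0
      apply hπ0
      have := (h23b_padicEmbedding_injective q) (by rw [h0, map_zero] :
        padicEmbedding q (x π) = padicEmbedding q 0)
      exact (map_eq_zero x).mp this
    have h1 : ‖padicEmbedding q (x (a / π ^ n))‖ = 1 := by
      rw [map_div₀, map_div₀, norm_div, map_pow, map_pow, norm_pow, h]
      exact div_self (pow_ne_zero _ (norm_ne_zero_iff.mpr hxπ))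
    obtain ⟨h2, h3⟩ := (h23b_isUnit_conj_iff q x _ (div_ne_zero ha hπn)).mpr h1
    exact ⟨h2, h3, by field_simp⟩

end Local

end Fermat.Agent.PT.Bridge
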