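/-
W3-PT (S55), PT-BRIDGE, leaf BR-UNRAM (helper23): the maximal unramified extension of `ℚ_q` and
unramified cochains.

Notation: `G_q = Gal(ℚ̄_q/ℚ_q)`, `I_q` = the elements fixing all roots of unity of order prime
to `q` (by `Inertia.lean` this is `r⁻¹` of the frozen inertia subgroup of `padicPlace q`).

* `h23b_Qur q` : `ℚ_q^{ur} = ℚ_q(μ_m, q ∤ m)`;  `h23b_QurFin q n = ℚ_q(μ_{q^n - 1})`.
* `h23b_mem_fixingSubgroup_Qur_iff` : `Gal(ℚ̄_q/ℚ_q^{ur}) = I_q`.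
* `h23b_le_QurFin_of_le_Qur` : a finite subextension of `ℚ_q^{ur}` lies in some `ℚ_q(μ_{q^n-1})`.
* `h23b_le_QurFin_of_inert` : a finite extension fixed by `I_q` lies in some `ℚ_q(μ_{q^n-1})`.
* `h23b_exists_inert_mul` : for `E/ℚ_q` finite there is `n > 0` with
  `Gal(ℚ̄_q/ℚ_q(μ_{q^n-1})) ⊆ I_q · Gal(ℚ̄_q/E)`.
* `h23b_unramified_cochain₁/₂/₃` : a cochain which is right invariant under `G_E` (`E` finite) and
  under `I_q` is right invariant under `Gal(ℚ̄_q/ℚ_q(μ_{q^n-1}))` for some `n > 0`.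
-/
import Mathlib
import Fermat.Agent.PT.Bridge.Frob

set_option autoImplicit false
set_option linter.style.haveILetI false

open ExtCitation groupCohomology
open scoped Pointwise

namespace Fermat.Agent.PT.Bridge

/-! ## Fixing subgroups of adjoined sets -/

section General

variable {k K : Type*} [Field k] [Field K] [Algebra k K]

/-- An automorphism fixes `k(S)` iff it fixes `S` pointwise. -/
theorem h23b_mem_fixingSubgroup_adjoin_iff (S : Set K) (g : K ≃ₐ[k] K) :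
    g ∈ (IntermediateField.adjoin k S).fixingSubgroup ↔ ∀ x ∈ S, g x = x := by
  constructor
  · intro h x hx
    exact h ⟨x, IntermediateField.subset_adjoin k S hx⟩
  · intro h
    have h1 : IntermediateField.adjoin k S ≤
        IntermediateField.fixedField (fixingSubgroup (K ≃ₐ[k] K) S) := by
      rw [IntermediateField.adjoin_le_iff]
      intro x hx
      rw [SetLike.mem_coe, IntermediateField.mem_fixedField_iff]
      intro f hf
      exact (mem_fixingSubgroup_iff _).mp hf x hx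
    exact (IntermediateField.le_iff_le _ _).mp h1 ((mem_fixingSubgroup_iff _).mpr h)

end General

section Local

variable (q : ℕ) [Fact q.Prime]

/-- The maximal unramified extension `ℚ_q^{ur}` of `ℚ_q`: generated by the roots of unity of
order prime to `q`. -/
noncomputable def h23b_Qur : IntermediateField ℚ_[q] (PadicAlgCl q) :=
  IntermediateField.adjoin ℚ_[q] {w : PadicAlgCl q | ∃ m : ℕ, 0 < m ∧ ¬ q ∣ m ∧ w ^ m = 1}

/-- The unramified extension of degree `n`: `ℚ_q(μ_{q^n - 1})`. -/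
noncomputable def h23b_QurFin (n : ℕ) : IntermediateField ℚ_[q] (PadicAlgCl q) :=
  IntermediateField.adjoin ℚ_[q] {w : PadicAlgCl q | w ^ (q ^ n - 1) = 1}

/-- `Gal(ℚ̄_q/ℚ_q^{ur})` is the inertia group. -/
theorem h23b_mem_fixingSubgroup_Qur_iff (g : PadicAlgCl q ≃ₐ[ℚ_[q]] PadicAlgCl q) :
    g ∈ (h23b_Qur q).fixingSubgroup ↔
      ∀ (w : PadicAlgCl q) (m : ℕ), 0 < m → ¬ q ∣ m → w ^ m = 1 → g w = w := by
  unfold h23b_Qur
  rw [h23b_mem_fixingSubgroup_adjoin_iff]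
  constructor
  · intro h w m hm hnd hw
    exact h w ⟨m, hm, hnd, hw⟩
  · rintro h w ⟨m, hm, hnd, hw⟩
    exact h w m hm hnd hw

/-- `Gal(ℚ̄_q/ℚ_q^{ur})` is the preimage of the frozen inertia subgroup. -/
theorem h23b_fixingSubgroup_Qur_eq :
    (h23b_Qur q).fixingSubgroup =
      ((padicPlace q).inertiaSubgroupIn ℚ).comap (localGaloisToGlobal q) := by
  ext g
  rw [Subgroup.mem_comap, h23b_mem_inertia_iff, h23b_mem_fixingSubgroup_Qur_iff]

/-- The inertia group is normal. -/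
theorem h23b_fixingSubgroup_Qur_normal : (h23b_Qur q).fixingSubgroup.Normal := by
  refine ⟨fun i hi g => ?_⟩
  rw [h23b_mem_fixingSubgroup_Qur_iff] at hi ⊢
  intro w m hm hnd hw
  have h1 : (g⁻¹ w) ^ m = 1 := by rw [← map_pow, hw, map_one]
  have h2 := hi (g⁻¹ w) m hm hnd h1
  show g (i (g⁻¹ w)) = w
  rw [h2]
  exact g.apply_symm_apply w

/-- The exponent `q ^ n - 1` is positive and prime to `q` for `n > 0`. -/
theorem h23b_pow_sub_one_pos {n : ℕ} (hn : 0 < n) : 0 < q ^ n - 1 := by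
  have hq : q.Prime := Fact.out
  have : 2 ≤ q ^ n := by
    calc 2 ≤ q := hq.two_le
      _ = q ^ 1 := (pow_one q).symm
      _ ≤ q ^ n := Nat.pow_le_pow_right hq.pos hn
  omega

theorem h23b_not_dvd_pow_sub_one {n : ℕ} (hn : 0 < n) : ¬ q ∣ q ^ n - 1 := by
  have hq : q.Prime := Fact.out
  intro hdvd
  have hpos := h23b_pow_sub_one_pos q hn
  have h1 : q ∣ q ^ n := dvd_pow_self q hn.ne'
  have h2 : q ∣ q ^ n - (q ^ n - 1) := Nat.dvd_sub h1 hdvd
  have h3 : q ^ n - (q ^ n - 1) = 1 := by omega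
  rw [h3] at h2
  exact hq.one_lt.ne' (Nat.dvd_one.mp h2)

/-- `ℚ_q(μ_{q^n-1}) ⊆ ℚ_q^{ur}` for `n > 0`. -/
theorem h23b_QurFin_le_Qur {n : ℕ} (hn : 0 < n) : h23b_QurFin q n ≤ h23b_Qur q :=
  IntermediateField.adjoin.mono _ _ _ fun _ hw =>
    ⟨q ^ n - 1, h23b_pow_sub_one_pos q hn, h23b_not_dvd_pow_sub_one q hn, hw⟩

/-- Every `m` prime to `q` divides some `q ^ n - 1`, `n > 0`. -/
theorem h23b_exists_dvd_pow_sub_one {m : ℕ} (hm : 0 < m) (hnd : ¬ q ∣ m) :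
    ∃ n : ℕ, 0 < n ∧ m ∣ q ^ n - 1 := by
  have hq : q.Prime := Fact.out
  have hcop : Nat.Coprime q m := (Nat.Prime.coprime_iff_not_dvd hq).mpr hnd
  refine ⟨Nat.totient m, Nat.totient_pos.mpr hm, ?_⟩
  have h1 := Nat.ModEq.pow_totient hcop
  exact (Nat.modEq_iff_dvd' (Nat.one_le_pow _ _ hq.pos)).mp h1.symm

/-- A finite set of roots of unity of order prime to `q` lies in some `μ_{q^n - 1}`. -/
theorem h23b_exists_pow_of_finset (T : Finset (PadicAlgCl q))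
    (hT : ∀ w ∈ T, ∃ m : ℕ, 0 < m ∧ ¬ q ∣ m ∧ w ^ m = 1) :
    ∃ n : ℕ, 0 < n ∧ ∀ w ∈ T, w ^ (q ^ n - 1) = 1 := by
  classical
  induction T using Finset.induction_on with
  | empty => exact ⟨1, one_pos, by simp⟩
  | insert a s ha ih =>
    obtain ⟨n, hn, hs⟩ := ih fun w hw => hT w (Finset.mem_insert_of_mem hw)
    obtain ⟨m, hm, hnd, hw⟩ := hT a (Finset.mem_insert_self a s)
    obtain ⟨n', hn', hdvd⟩ := h23b_exists_dvd_pow_sub_one q hm hnd
    have key : ∀ a b : ℕ, 0 < a → q ^ a - 1 ∣ q ^ (a * b) - 1 := by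
      intro a b _
      rw [pow_mul]
      exact Nat.sub_one_dvd_pow_sub_one ..
    refine ⟨n * n', Nat.mul_pos hn hn', fun w hw => ?_⟩
    rcases Finset.mem_insert.mp hw with rfl | hw
    · have h1 : q ^ n' - 1 ∣ q ^ (n * n') - 1 := by
        rw [mul_comm]
        exact key n' n hn'
      obtain ⟨c, hc⟩ := dvd_trans hdvd h1
      rw [hc, pow_mul, ‹w ^ m = 1›, one_pow]
    · obtain ⟨c, hc⟩ := key n n' hn
      rw [hc, pow_mul, hs w hw, one_pow]

/-- A finite subextension of `ℚ_q^{ur}` lies in some `ℚ_q(μ_{q^n-1})`. -/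
theorem h23b_le_QurFin_of_le_Qur (E : IntermediateField ℚ_[q] (PadicAlgCl q))
    [FiniteDimensional ℚ_[q] E] (hE : E ≤ h23b_Qur q) :
    ∃ n : ℕ, 0 < n ∧ E ≤ h23b_QurFin q n := by
  classical
  let b := Module.finBasis ℚ_[q] E
  have hb : ∀ i, ∃ T : Finset (PadicAlgCl q),
      (T : Set (PadicAlgCl q)) ⊆ {w : PadicAlgCl q | ∃ m : ℕ, 0 < m ∧ ¬ q ∣ m ∧ w ^ m = 1} ∧
        ((b i : E) : PadicAlgCl q) ∈ IntermediateField.adjoin ℚ_[q] (T : Set (PadicAlgCl q)) :=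
    fun i => IntermediateField.exists_finset_of_mem_adjoin (hE (b i).2)
  choose T hTsub hTmem using hb
  obtain ⟨n, hn, hpow⟩ := h23b_exists_pow_of_finset q (Finset.univ.biUnion T) (by
    intro w hw
    obtain ⟨i, -, hi⟩ := Finset.mem_biUnion.mp hw
    exact hTsub i hi)
  refine ⟨n, hn, h23b_le_of_basis_mem E _ fun i => ?_⟩
  have hle : IntermediateField.adjoin ℚ_[q] (T i : Set (PadicAlgCl q)) ≤ h23b_QurFin q n :=
    IntermediateField.adjoin.mono _ _ _ fun w hw =>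
      hpow w (Finset.mem_biUnion.mpr ⟨i, Finset.mem_univ _, hw⟩)
  exact hle (hTmem i)

/-- A finite extension of `ℚ_q` fixed by the inertia group lies in some `ℚ_q(μ_{q^n-1})`. -/
theorem h23b_le_QurFin_of_inert (E : IntermediateField ℚ_[q] (PadicAlgCl q))
    [FiniteDimensional ℚ_[q] E]
    (hE : ∀ g : PadicAlgCl q ≃ₐ[ℚ_[q]] PadicAlgCl q,
      (∀ (w : PadicAlgCl q) (m : ℕ), 0 < m → ¬ q ∣ m → w ^ m = 1 → g w = w) →
        g ∈ E.fixingSubgroup) :
    ∃ n : ℕ, 0 < n ∧ E ≤ h23b_QurFin q n := by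
  haveI := h23b_isGalois_padicAlgCl q
  refine h23b_le_QurFin_of_le_Qur q E ?_
  have h1 : (h23b_Qur q).fixingSubgroup ≤ E.fixingSubgroup := fun g hg =>
    hE g ((h23b_mem_fixingSubgroup_Qur_iff q g).mp hg)
  have h2 := IntermediateField.fixedField_antitone h1
  rwa [InfiniteGalois.fixedField_fixingSubgroup, InfiniteGalois.fixedField_fixingSubgroup] at h2

/-- For `E/ℚ_q` finite there is `n > 0` with
`Gal(ℚ̄_q/ℚ_q(μ_{q^n-1})) ⊆ I_q · Gal(ℚ̄_q/E)`. -/
theorem h23b_exists_inert_mul (E : IntermediateField ℚ_[q] (PadicAlgCl q))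
    [FiniteDimensional ℚ_[q] E] :
    ∃ n : ℕ, 0 < n ∧ ∀ s ∈ (h23b_QurFin q n).fixingSubgroup,
      ∃ i : PadicAlgCl q ≃ₐ[ℚ_[q]] PadicAlgCl q,
        (∀ (w : PadicAlgCl q) (m : ℕ), 0 < m → ¬ q ∣ m → w ^ m = 1 → i w = w) ∧
        i⁻¹ * s ∈ E.fixingSubgroup := by
  haveI := h23b_isGalois_padicAlgCl q
  haveI := h23b_fixingSubgroup_Qur_normal q
  obtain ⟨L', hL'E, hL'fin, hfix⟩ := h23b_exists_fixingSubgroup_eq E
    ((h23b_Qur q).fixingSubgroup ⊔ E.fixingSubgroup) le_sup_right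
  haveI := hL'fin
  have hL'ur : L' ≤ h23b_Qur q := by
    have h1 : (h23b_Qur q).fixingSubgroup ≤ L'.fixingSubgroup := by
      rw [hfix]
      exact le_sup_left
    have h2 := IntermediateField.fixedField_antitone h1
    rwa [InfiniteGalois.fixedField_fixingSubgroup, InfiniteGalois.fixedField_fixingSubgroup] at h2
  obtain ⟨n, hn, hle⟩ := h23b_le_QurFin_of_le_Qur q L' hL'ur
  refine ⟨n, hn, fun s hs => ?_⟩
  have hs' : s ∈ (h23b_Qur q).fixingSubgroup ⊔ E.fixingSubgroup := by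
    rw [← hfix]
    exact IntermediateField.fixingSubgroup_antitone hle hs
  obtain ⟨i, hi, e, he, rfl⟩ := Subgroup.mem_sup_of_normal_left.mp hs'
  refine ⟨i, (h23b_mem_fixingSubgroup_Qur_iff q i).mp hi, ?_⟩
  rw [inv_mul_cancel_left]
  exact he

/-- `ℚ_q(μ_{q^n-1})` is finite over `ℚ_q`. -/
theorem h23b_finiteDimensional_QurFin {n : ℕ} (hn : 0 < n) :
    FiniteDimensional ℚ_[q] (h23b_QurFin q n) := by
  classical
  have hpos := h23b_pow_sub_one_pos q hn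
  have hset : {w : PadicAlgCl q | w ^ (q ^ n - 1) = 1} =
      (Polynomial.nthRootsFinset (q ^ n - 1) (1 : PadicAlgCl q) : Set (PadicAlgCl q)) := by
    ext w
    rw [Finset.mem_coe, Polynomial.mem_nthRootsFinset hpos]
    rfl
  unfold h23b_QurFin
  rw [hset]
  exact IntermediateField.finiteDimensional_adjoin fun x _ => Algebra.IsIntegral.isIntegral x

/-- Comparison with the unramified extensions of PT-LOC. -/
theorem h23b_Kur_bot_eq (h : Loc.resCard (⊥ : Loc.LF q) = q) (n : ℕ) :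
    Loc.Kur (⊥ : Loc.LF q) n = h23b_QurFin q n := by
  unfold Loc.Kur h23b_QurFin
  rw [h, bot_sup_eq]

/-! ## Unramified cochains -/

/-- A `1`-cochain right invariant under `G_E` and under inertia is right invariant under
`Gal(ℚ̄_q/ℚ_q(μ_{q^n-1}))` for some `n > 0`. -/
theorem h23b_unramified_cochain₁ {X : Type*} (E : IntermediateField ℚ_[q] (PadicAlgCl q))
    [FiniteDimensional ℚ_[q] E] (f : (PadicAlgCl q ≃ₐ[ℚ_[q]] PadicAlgCl q) → X)
    (hE : ∀ g s, s ∈ E.fixingSubgroup → f (g * s) = f g)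
    (hI : ∀ g i, (∀ (w : PadicAlgCl q) (m : ℕ), 0 < m → ¬ q ∣ m → w ^ m = 1 → i w = w) →
      f (g * i) = f g) :
    ∃ n : ℕ, 0 < n ∧ ∀ g s, s ∈ (h23b_QurFin q n).fixingSubgroup → f (g * s) = f g := by
  obtain ⟨n, hn, h⟩ := h23b_exists_inert_mul q E
  refine ⟨n, hn, fun g s hs => ?_⟩
  obtain ⟨i, hi, he⟩ := h s hs
  have e : g * s = g * i * (i⁻¹ * s) := by group
  rw [e, hE _ _ he, hI _ _ hi]

/-- The same for `2`-cochains. -/
theorem h23b_unramified_cochain₂ {X : Type*} (E : IntermediateField ℚ_[q] (PadicAlgCl q))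
    [FiniteDimensional ℚ_[q] E]
    (f : (PadicAlgCl q ≃ₐ[ℚ_[q]] PadicAlgCl q) × (PadicAlgCl q ≃ₐ[ℚ_[q]] PadicAlgCl q) → X)
    (hE : ∀ g g' s s', s ∈ E.fixingSubgroup → s' ∈ E.fixingSubgroup →
      f (g * s, g' * s') = f (g, g'))
    (hI : ∀ g g' i i',
      (∀ (w : PadicAlgCl q) (m : ℕ), 0 < m → ¬ q ∣ m → w ^ m = 1 → i w = w) →
      (∀ (w : PadicAlgCl q) (m : ℕ), 0 < m → ¬ q ∣ m → w ^ m = 1 → i' w = w) →
      f (g * i, g' * i') = f (g, g')) :
    ∃ n : ℕ, 0 < n ∧ ∀ g g' s s', s ∈ (h23b_QurFin q n).fixingSubgroup →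
      s' ∈ (h23b_QurFin q n).fixingSubgroup → f (g * s, g' * s') = f (g, g') := by
  obtain ⟨n, hn, h⟩ := h23b_exists_inert_mul q E
  refine ⟨n, hn, fun g g' s s' hs hs' => ?_⟩
  obtain ⟨i, hi, he⟩ := h s hs
  obtain ⟨i', hi', he'⟩ := h s' hs'
  have e : g * s = g * i * (i⁻¹ * s) := by group
  have e' : g' * s' = g' * i' * (i'⁻¹ * s') := by group
  rw [e, e', hE _ _ _ _ he he', hI _ _ _ _ hi hi']

/-- The same for `3`-cochains. -/
theorem h23b_unramified_cochain₃ {X : Type*} (E : IntermediateField ℚ_[q] (PadicAlgCl q))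
    [FiniteDimensional ℚ_[q] E]
    (f : (PadicAlgCl q ≃ₐ[ℚ_[q]] PadicAlgCl q) × (PadicAlgCl q ≃ₐ[ℚ_[q]] PadicAlgCl q) ×
      (PadicAlgCl q ≃ₐ[ℚ_[q]] PadicAlgCl q) → X)
    (hE : ∀ g g' g'' s s' s'', s ∈ E.fixingSubgroup → s' ∈ E.fixingSubgroup →
      s'' ∈ E.fixingSubgroup → f (g * s, g' * s', g'' * s'') = f (g, g', g''))
    (hI : ∀ g g' g'' i i' i'',
      (∀ (w : PadicAlgCl q) (m : ℕ), 0 < m → ¬ q ∣ m → w ^ m = 1 → i w = w) →
      (∀ (w : PadicAlgCl q) (m : ℕ), 0 < m → ¬ q ∣ m → w ^ m = 1 → i' w = w) →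
      (∀ (w : PadicAlgCl q) (m : ℕ), 0 < m → ¬ q ∣ m → w ^ m = 1 → i'' w = w) →
      f (g * i, g' * i', g'' * i'') = f (g, g', g'')) :
    ∃ n : ℕ, 0 < n ∧ ∀ g g' g'' s s' s'', s ∈ (h23b_QurFin q n).fixingSubgroup →
      s' ∈ (h23b_QurFin q n).fixingSubgroup → s'' ∈ (h23b_QurFin q n).fixingSubgroup →
      f (g * s, g' * s', g'' * s'') = f (g, g', g'') := by
  obtain ⟨n, hn, h⟩ := h23b_exists_inert_mul q E
  refine ⟨n, hn, fun g g' g'' s s' s'' hs hs' hs'' => ?_⟩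
  obtain ⟨i, hi, he⟩ := h s hs
  obtain ⟨i', hi', he'⟩ := h s' hs'
  obtain ⟨i'', hi'', he''⟩ := h s'' hs''
  have e : g * s = g * i * (i⁻¹ * s) := by group
  have e' : g' * s' = g' * i' * (i'⁻¹ * s') := by group
  have e'' : g'' * s'' = g'' * i'' * (i''⁻¹ * s'') := by group
  rw [e, e', e'', hE _ _ _ _ _ _ he he' he'', hI _ _ _ _ _ _ hi hi' hi'']

end Local

end Fermat.Agent.PT.Bridge
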