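import Fermat.Agent.PT.Bridge.Sha
import Fermat.Agent.Bridge.Main
import Fermat.Agent.Bridge.FrobeniusConj
import Fermat.Agent.S29.CycChar

/-!
# W3-PT, PT-BRIDGE: the levels of the frozen side

* `pt79_isUnramifiedOutside_map` : a conjugate of a field unramified outside `S` is unramified
  outside `S`.
* `pt79_isUnramifiedOutside_normalClosure`, `pt79_exists_galois_level` : levels may be taken
  Galois over `ℚ`, i.e. the open subgroups `F.fixingSubgroup` (`F` unramified outside `S`)
  contain normal ones of the same kind.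
* `pt79_cycloChar_inertia` : the mod `p` cyclotomic character is trivial on inertia at `q ≠ p`.
* `pt79_cycloChar_level` : it factors through a Galois level unramified outside `{p}`.
* `pt79_module_level` : a finite dimensional smooth module unramified outside `S` is trivial on
  a Galois level unramified outside `S`.
* `pt79_dualTwist_level` : same for the twisted dual (`p ∈ S`).

Sub-architect: helper79.
-/

set_option autoImplicit false
set_option linter.style.haveILetI false

open CategoryTheory groupCohomology ExtCitation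
open scoped Pointwise

noncomputable section

namespace Fermat.Agent.PT

/-- the algebraic closure of `ℚ`. -/
abbrev Qbar : Type := AlgebraicClosure ℚ

theorem pt79_isAlgebraic_Qbar : Algebra.IsAlgebraic ℚ Qbar := AlgebraicClosure.isAlgebraic ℚ

theorem pt79_normal_Qbar : Normal ℚ Qbar :=
  haveI := pt79_isAlgebraic_Qbar
  haveI : IsAlgClosure ℚ Qbar := ⟨inferInstance, inferInstance⟩
  IsAlgClosure.normal ℚ Qbar

theorem pt79_isGalois_Qbar : IsGalois ℚ Qbar :=
  haveI := pt79_isAlgebraic_Qbar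
  haveI := pt79_normal_Qbar
  ⟨⟩

/-- a conjugate of a field unramified outside `S` is unramified outside `S`. -/
theorem pt79_isUnramifiedOutside_map {S : Finset Nat.Primes}
    {F : IntermediateField ℚ Qbar} (hF : F.IsUnramifiedOutside S) (σ : GQ) :
    (F.map (σ : Qbar →ₐ[ℚ] Qbar)).IsUnramifiedOutside S := by
  haveI := hF.1
  refine ⟨?_, fun q hq A hA τ hτ => ?_⟩
  · exact LinearEquiv.finiteDimensional (IntermediateField.equivMap F (σ : Qbar →ₐ[ℚ] Qbar)).toLinearEquiv
  · rw [IntermediateField.mem_fixingSubgroup_iff]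
    rintro x ⟨y, hy, rfl⟩
    have h1 : σ⁻¹ * τ * σ ∈ (σ⁻¹ • A).inertiaSubgroupIn ℚ := by
      rw [Fermat.Agent.Bridge.mem_inertiaSubgroupIn_smul_iff]
      simpa [mul_assoc] using hτ
    have h2 : (σ⁻¹ • A).LiesOverPrime (q : ℕ) :=
      (Fermat.Agent.Bridge.liesOverPrime_smul_iff A σ⁻¹ q).mpr hA
    have h3 := hF.2 q hq _ h2 h1
    rw [IntermediateField.mem_fixingSubgroup_iff] at h3
    have h4 := h3 y hy
    have h5 : (σ⁻¹ * τ * σ) y = σ⁻¹ (τ (σ y)) := rfl
    rw [h5] at h4
    have h6 := congrArg σ h4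
    have h7 : σ (σ⁻¹ (τ (σ y))) = τ (σ y) := by
      change (σ * σ⁻¹) (τ (σ y)) = _
      rw [mul_inv_cancel]
      rfl
    rw [h7] at h6
    exact h6

/-- the Galois closure of `F` inside `Qbar`, as the compositum of the conjugates. -/
def pt79_galClosure (F : IntermediateField ℚ Qbar) : IntermediateField ℚ Qbar :=
  ⨆ σ : GQ, F.map (σ : Qbar →ₐ[ℚ] Qbar)

theorem pt79_galClosure_eq (F : IntermediateField ℚ Qbar) :
    pt79_galClosure F = IntermediateField.normalClosure ℚ F Qbar :=
  haveI := pt79_normal_Qbar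
  (IntermediateField.normalClosure_def'' F).symm

theorem pt79_le_galClosure (F : IntermediateField ℚ Qbar) : F ≤ pt79_galClosure F := by
  rw [pt79_galClosure_eq]
  exact IntermediateField.le_normalClosure F

theorem pt79_galClosure_normal (F : IntermediateField ℚ Qbar) :
    Normal ℚ (pt79_galClosure F) := by
  haveI := pt79_normal_Qbar
  rw [pt79_galClosure_eq]
  exact normalClosure.normal _ _ _

theorem pt79_galClosure_finiteDimensional (F : IntermediateField ℚ Qbar)
    [FiniteDimensional ℚ F] : FiniteDimensional ℚ (pt79_galClosure F) := by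
  rw [pt79_galClosure_eq]
  exact normalClosure.is_finiteDimensional _ _ _

/-- the normal closure of a field unramified outside `S` is unramified outside `S`. -/
theorem pt79_isUnramifiedOutside_galClosure {S : Finset Nat.Primes}
    {F : IntermediateField ℚ Qbar} (hF : F.IsUnramifiedOutside S) :
    (pt79_galClosure F).IsUnramifiedOutside S := by
  haveI := hF.1
  refine ⟨pt79_galClosure_finiteDimensional F, fun q hq A hA τ hτ => ?_⟩
  have hle : pt79_galClosure F ≤ IntermediateField.fixedField (Subgroup.zpowers τ) := by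
    refine iSup_le fun σ => ?_
    intro x hx
    rw [IntermediateField.mem_fixedField_iff]
    intro g hg
    obtain ⟨n, rfl⟩ := Subgroup.mem_zpowers_iff.mp hg
    have h1 := (pt79_isUnramifiedOutside_map hF σ).2 q hq A hA
      ((A.inertiaSubgroupIn ℚ).zpow_mem hτ n)
    rw [IntermediateField.mem_fixingSubgroup_iff] at h1
    exact h1 x hx
  rw [IntermediateField.mem_fixingSubgroup_iff]
  intro x hx
  have h2 := hle hx
  rw [IntermediateField.mem_fixedField_iff] at h2
  exact h2 τ (Subgroup.mem_zpowers τ)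

/-- **levels may be taken Galois.** -/
theorem pt79_exists_galois_level {S : Finset Nat.Primes}
    {F : IntermediateField ℚ Qbar} (hF : F.IsUnramifiedOutside S) :
    ∃ F' : IntermediateField ℚ Qbar, F ≤ F' ∧ F'.IsUnramifiedOutside S ∧ IsGalois ℚ F' ∧
      F'.fixingSubgroup.Normal ∧ F'.fixingSubgroup ≤ F.fixingSubgroup := by
  haveI := hF.1
  haveI := pt79_normal_Qbar
  haveI := pt79_isGalois_Qbar
  haveI hn : Normal ℚ (pt79_galClosure F) := pt79_galClosure_normal F
  haveI hg : IsGalois ℚ (pt79_galClosure F) := ⟨⟩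
  exact ⟨pt79_galClosure F, pt79_le_galClosure F,
    pt79_isUnramifiedOutside_galClosure hF, hg,
    (InfiniteGalois.normal_iff_isGalois (pt79_galClosure F)).mpr hg,
    IntermediateField.fixingSubgroup_antitone (pt79_le_galClosure F)⟩

/-! ### The level cut out by a normal subgroup -/

/-- a normal subgroup of `G_ℚ` containing an open subgroup and all inertia groups outside `S` is
the fixing subgroup of a finite Galois extension unramified outside `S`. -/
theorem pt79_level_of_normal (S : Finset Nat.Primes) (N : Subgroup GQ) [hN : N.Normal]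
    (hopen : ∃ F : IntermediateField ℚ Qbar, FiniteDimensional ℚ F ∧ F.fixingSubgroup ≤ N)
    (hur : ∀ q : Nat.Primes, q ∉ S → ∀ A : ValuationSubring Qbar,
      A.LiesOverPrime (q : ℕ) → A.inertiaSubgroupIn ℚ ≤ N) :
    ∃ F : IntermediateField ℚ Qbar, F.IsUnramifiedOutside S ∧ IsGalois ℚ F ∧
      F.fixingSubgroup = N := by
  haveI := pt79_normal_Qbar
  haveI := pt79_isGalois_Qbar
  obtain ⟨F₀, hF₀, hle⟩ := hopen
  have hopenN : IsOpen (N : Set GQ) :=
    Subgroup.isOpen_mono hle (IntermediateField.fixingSubgroup_isOpen F₀)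
  have hclosed : IsClosed (N : Set GQ) := OpenSubgroup.isClosed ⟨N, hopenN⟩
  have hfix : (IntermediateField.fixedField N).fixingSubgroup = N :=
    InfiniteGalois.fixingSubgroup_fixedField (k := ℚ) (K := Qbar) ⟨N, hclosed⟩
  have hfin : FiniteDimensional ℚ (IntermediateField.fixedField N) := by
    rw [← InfiniteGalois.isOpen_iff_finite, hfix]
    exact hopenN
  refine ⟨IntermediateField.fixedField N, ⟨hfin, fun q hq A hA => ?_⟩, ?_, hfix⟩
  · rw [hfix]
    exact hur q hq A hA
  · have hN' : (IntermediateField.fixedField N).fixingSubgroup.Normal := by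
      rw [hfix]
      exact hN
    exact (InfiniteGalois.normal_iff_isGalois (IntermediateField.fixedField N)).mp hN'

/-! ### The cyclotomic character -/

/-- the defining property of the mod `p` cyclotomic character. -/
theorem pt79_cycloChar_spec (p : ℕ) [Fact p.Prime] (σ : GQ) (t : Qbar) (ht : t ^ p = 1) :
    σ t = t ^ ((cycloChar p σ : (ZMod p)ˣ) : ZMod p).val := by
  have hp : p.Prime := Fact.out
  have ht0 : t ≠ 0 := by
    rintro rfl
    rw [zero_pow hp.ne_zero] at ht
    exact zero_ne_one ht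
  have hmem : Units.mk0 t ht0 ∈ rootsOfUnity p Qbar := by
    rw [mem_rootsOfUnity]
    ext
    simpa using ht
  exact modularCyclotomicCharacter.spec Qbar
    (ExtCitation.card_rootsOfUnity_eq_self p) (σ : Qbar ≃+* Qbar) hmem

/-- `σ` fixes a primitive `p`-th root of unity iff the cyclotomic character is trivial at `σ`. -/
theorem pt79_cycloChar_eq_one_of_fix (p : ℕ) [Fact p.Prime] {ζ : Qbar} (hζ : IsPrimitiveRoot ζ p)
    (σ : GQ) (h : σ ζ = ζ) : cycloChar p σ = 1 := by
  have hp : p.Prime := Fact.out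
  haveI : NeZero p := ⟨hp.ne_zero⟩
  haveI : Fact (1 < p) := ⟨hp.one_lt⟩
  have h1 := pt79_cycloChar_spec p σ ζ hζ.pow_eq_one
  rw [h] at h1
  have h2 : 1 ≡ ((cycloChar p σ : (ZMod p)ˣ) : ZMod p).val [MOD p] :=
    Fermat.Agent.S29.CycChar.modEq_of_pow_eq hζ hp.pos (by rw [pow_one]; exact h1)
  have h3 : ((1 : ℕ) : ZMod p) = ((((cycloChar p σ : (ZMod p)ˣ) : ZMod p).val : ℕ) : ZMod p) :=
    (ZMod.natCast_eq_natCast_iff _ _ _).mpr h2
  rw [ZMod.natCast_val, ZMod.cast_id] at h3
  apply Units.ext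
  rw [← h3]
  simp

theorem pt79_exists_primitiveRoot (p : ℕ) [Fact p.Prime] : ∃ ζ : Qbar, IsPrimitiveRoot ζ p := by
  have hp : p.Prime := Fact.out
  haveI : NeZero (p : Qbar) := ⟨Nat.cast_ne_zero.mpr hp.ne_zero⟩
  exact HasEnoughRootsOfUnity.exists_primitiveRoot Qbar p

/-- **the mod `p` cyclotomic character is unramified outside `p`.** -/
theorem pt79_cycloChar_inertia (p : ℕ) [Fact p.Prime] (q : Nat.Primes) (hq : q ≠ pPrime p)
    (A : ValuationSubring Qbar) (hA : A.LiesOverPrime (q : ℕ)) (σ : GQ)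
    (hσ : σ ∈ A.inertiaSubgroupIn ℚ) : cycloChar p σ = 1 := by
  have hp : p.Prime := Fact.out
  obtain ⟨ζ, hζ⟩ := pt79_exists_primitiveRoot p
  have hζp : ζ ^ p = 1 := hζ.pow_eq_one
  have hζint : IsIntegral ℤ ζ := hζ.isIntegral hp.pos
  have hζA : ζ ∈ A := Fermat.Agent.S54.mem_valuationSubring_of_isIntegral A hζint
  have h1 : σ ζ - ζ ∈ A.nonunits := Fermat.Agent.S29.CycChar.inertia_sub_mem A hσ hζA
  have hσp : (σ ζ) ^ p = 1 := by rw [← map_pow, hζp, map_one]
  have hne : (q : ℕ) ≠ p := fun h => hq (Subtype.ext h)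
  have h2 : σ ζ = ζ :=
    Fermat.Agent.S29.CycChar.eq_of_sub_mem_nonunits A hp q.2 hne hA hσp hζp h1
  exact pt79_cycloChar_eq_one_of_fix p hζ σ h2

/-- the cyclotomic character factors through a finite level. -/
theorem pt79_cycloChar_open (p : ℕ) [Fact p.Prime] :
    ∃ F : IntermediateField ℚ Qbar, FiniteDimensional ℚ F ∧
      F.fixingSubgroup ≤ (cycloChar p).ker := by
  have hp : p.Prime := Fact.out
  obtain ⟨ζ, hζ⟩ := pt79_exists_primitiveRoot p
  have hζint : IsIntegral ℤ ζ := hζ.isIntegral hp.pos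
  refine ⟨IntermediateField.adjoin ℚ {ζ},
    IntermediateField.adjoin.finiteDimensional (hζint.tower_top (A := ℚ)), fun σ hσ => ?_⟩
  rw [MonoidHom.mem_ker]
  exact pt79_cycloChar_eq_one_of_fix p hζ σ
    (hσ ⟨ζ, IntermediateField.mem_adjoin_simple_self ℚ ζ⟩)

/-- **the level of the cyclotomic character**: a finite Galois extension of `ℚ`, unramified
outside `S ∋ p`, whose fixing subgroup is the kernel of the mod `p` cyclotomic character. -/
theorem pt79_cycloChar_level (p : ℕ) [Fact p.Prime] (S : Finset Nat.Primes)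
    (hpS : pPrime p ∈ S) :
    ∃ F : IntermediateField ℚ Qbar, F.IsUnramifiedOutside S ∧ IsGalois ℚ F ∧
      F.fixingSubgroup = (cycloChar p).ker := by
  refine pt79_level_of_normal S (cycloChar p).ker (pt79_cycloChar_open p)
    (fun q hq A hA σ hσ => ?_)
  rw [MonoidHom.mem_ker]
  exact pt79_cycloChar_inertia p q (fun h => hq (h ▸ hpS)) A hA σ hσ

/-! ### The level of a module -/

section Module

variable {k : Type} [Field k] (M : Rep k GQ)

/-- the kernel of the action on `M`. -/
def pt79_kerρ : Subgroup GQ where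
  carrier := {g | M.ρ g = 1}
  one_mem' := map_one M.ρ
  mul_mem' {a b} ha hb := by
    change M.ρ (a * b) = 1
    rw [map_mul, (ha : M.ρ a = 1), (hb : M.ρ b = 1), mul_one]
  inv_mem' {a} ha := by
    change M.ρ a⁻¹ = 1
    have h1 : M.ρ a⁻¹ * M.ρ a = 1 := by rw [← map_mul, inv_mul_cancel, map_one]
    rw [(ha : M.ρ a = 1), mul_one] at h1
    exact h1

theorem pt79_mem_kerρ {g : GQ} : g ∈ pt79_kerρ M ↔ M.ρ g = 1 := Iff.rfl

instance pt79_kerρ_normal : (pt79_kerρ M).Normal where
  conj_mem n hn g := by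
    change M.ρ (g * n * g⁻¹) = 1
    rw [map_mul, map_mul, (hn : M.ρ n = 1), mul_one, ← map_mul, mul_inv_cancel, map_one]

/-- a finite dimensional smooth module is trivial on an open subgroup. -/
theorem pt79_kerρ_open [FiniteDimensional k M]
    (hsm : ∀ m : M, ∃ F : IntermediateField ℚ Qbar, FiniteDimensional ℚ F ∧
      ∀ s ∈ F.fixingSubgroup, M.ρ s m = m) :
    ∃ F : IntermediateField ℚ Qbar, FiniteDimensional ℚ F ∧ F.fixingSubgroup ≤ pt79_kerρ M := by
  classical
  let b := Module.finBasis k M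
  choose Fm hFm1 hFm2 using hsm
  refine ⟨⨆ i, Fm (b i), ?_, fun s hs => ?_⟩
  · haveI : ∀ i, FiniteDimensional ℚ (Fm (b i)) := fun i => hFm1 (b i)
    exact IntermediateField.finiteDimensional_iSup_of_finite
  · rw [pt79_mem_kerρ]
    refine b.ext fun i => ?_
    exact hFm2 (b i) s (IntermediateField.fixingSubgroup_antitone (le_iSup (fun i => Fm (b i)) i) hs)

/-- **the level of a module**: a finite dimensional smooth module unramified outside `S` is
trivial exactly on the fixing subgroup of a finite Galois extension unramified outside `S`. -/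
theorem pt79_module_level (S : Finset Nat.Primes) [FiniteDimensional k M]
    (hsm : ∀ m : M, ∃ F : IntermediateField ℚ Qbar, FiniteDimensional ℚ F ∧
      ∀ s ∈ F.fixingSubgroup, M.ρ s m = m)
    (hMur : ∀ q : Nat.Primes, q ∉ S → ∀ A : ValuationSubring Qbar,
      A.LiesOverPrime (q : ℕ) → ∀ g ∈ A.inertiaSubgroupIn ℚ, M.ρ g = 1) :
    ∃ F : IntermediateField ℚ Qbar, F.IsUnramifiedOutside S ∧ IsGalois ℚ F ∧
      F.fixingSubgroup = pt79_kerρ M :=
  pt79_level_of_normal S (pt79_kerρ M) (pt79_kerρ_open M hsm)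
    (fun q hq A hA g hg => hMur q hq A hA g hg)

end Module

/-! ### The twisted dual -/

section Dual

variable {p : ℕ} [Fact p.Prime] (M : Rep (ZMod p) GQ)

theorem pt79_dualTwist_ρ_eq_one {g : GQ} (h1 : M.ρ g = 1) (h2 : cycloChar p g = 1) :
    (M.dualTwist (cycloChar p)).ρ g = 1 := by
  have h3 : M.ρ g⁻¹ = 1 := (pt79_kerρ M).inv_mem h1
  ext f
  rw [Rep.dualTwist_ρ_apply, h2, h3]
  simp

/-- the twisted dual is smooth. -/
theorem pt79_dualTwist_hsm [FiniteDimensional (ZMod p) M]
    (hsm : ∀ m : M, ∃ F : IntermediateField ℚ Qbar, FiniteDimensional ℚ F ∧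
      ∀ s ∈ F.fixingSubgroup, M.ρ s m = m) :
    ∀ f : M.dualTwist (cycloChar p), ∃ F : IntermediateField ℚ Qbar, FiniteDimensional ℚ F ∧
      ∀ s ∈ F.fixingSubgroup, (M.dualTwist (cycloChar p)).ρ s f = f := by
  intro f
  obtain ⟨F₁, hF₁, h₁⟩ := pt79_kerρ_open M hsm
  obtain ⟨F₂, hF₂, h₂⟩ := pt79_cycloChar_open p
  haveI := hF₁
  haveI := hF₂
  refine ⟨F₁ ⊔ F₂, inferInstance, fun s hs => ?_⟩
  have e1 : M.ρ s = 1 := h₁ (IntermediateField.fixingSubgroup_antitone le_sup_left hs)
  have e2 : cycloChar p s = 1 :=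
    MonoidHom.mem_ker.mp (h₂ (IntermediateField.fixingSubgroup_antitone le_sup_right hs))
  rw [pt79_dualTwist_ρ_eq_one M e1 e2]
  rfl

/-- the twisted dual is unramified outside `S ∋ p`. -/
theorem pt79_dualTwist_hMur (S : Finset Nat.Primes) (hpS : pPrime p ∈ S)
    (hMur : ∀ q : Nat.Primes, q ∉ S → ∀ A : ValuationSubring Qbar,
      A.LiesOverPrime (q : ℕ) → ∀ g ∈ A.inertiaSubgroupIn ℚ, M.ρ g = 1) :
    ∀ q : Nat.Primes, q ∉ S → ∀ A : ValuationSubring Qbar,
      A.LiesOverPrime (q : ℕ) → ∀ g ∈ A.inertiaSubgroupIn ℚ,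
        (M.dualTwist (cycloChar p)).ρ g = 1 := by
  intro q hq A hA g hg
  exact pt79_dualTwist_ρ_eq_one M (hMur q hq A hA g hg)
    (pt79_cycloChar_inertia p q (fun h => hq (h ▸ hpS)) A hA g hg)

/-- **common level** of `M` and of the cyclotomic character (hence of the twisted dual). -/
theorem pt79_common_level (S : Finset Nat.Primes) (hpS : pPrime p ∈ S)
    [FiniteDimensional (ZMod p) M]
    (hsm : ∀ m : M, ∃ F : IntermediateField ℚ Qbar, FiniteDimensional ℚ F ∧
      ∀ s ∈ F.fixingSubgroup, M.ρ s m = m)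
    (hMur : ∀ q : Nat.Primes, q ∉ S → ∀ A : ValuationSubring Qbar,
      A.LiesOverPrime (q : ℕ) → ∀ g ∈ A.inertiaSubgroupIn ℚ, M.ρ g = 1) :
    ∃ F : IntermediateField ℚ Qbar, F.IsUnramifiedOutside S ∧ IsGalois ℚ F ∧
      F.fixingSubgroup.Normal ∧
      (∀ s ∈ F.fixingSubgroup, M.ρ s = 1) ∧ (∀ s ∈ F.fixingSubgroup, cycloChar p s = 1) ∧
      (∀ s ∈ F.fixingSubgroup, (M.dualTwist (cycloChar p)).ρ s = 1) := by
  haveI := pt79_isGalois_Qbar
  obtain ⟨F₁, hF₁, -, h₁⟩ := pt79_module_level M S hsm hMur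
  obtain ⟨F₂, hF₂, -, h₂⟩ := pt79_cycloChar_level p S hpS
  obtain ⟨F, hle, hF, hgal, hnorm, hfix⟩ := pt79_exists_galois_level (hF₁.sup hF₂)
  have e1 : ∀ s ∈ F.fixingSubgroup, M.ρ s = 1 := fun s hs => by
    have : s ∈ F₁.fixingSubgroup :=
      IntermediateField.fixingSubgroup_antitone le_sup_left (hfix hs)
    rw [h₁] at this
    exact this
  have e2 : ∀ s ∈ F.fixingSubgroup, cycloChar p s = 1 := fun s hs => by
    have : s ∈ F₂.fixingSubgroup :=
      IntermediateField.fixingSubgroup_antitone le_sup_right (hfix hs)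
    rw [h₂] at this
    exact MonoidHom.mem_ker.mp this
  exact ⟨F, hF, hgal, hnorm, e1, e2, fun s hs => pt79_dualTwist_ρ_eq_one M (e1 s hs) (e2 s hs)⟩

end Dual

end Fermat.Agent.PT
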