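import Fermat.Agent.PT.Iface
import Fermat.Agent.PT.Bridge.Levels

/-!
# W3-PT, PT-BRIDGE: `BridgeSha`

The frozen Tate–Shafarevich groups `sha₁ S A`, `sha₂ S M` of the Prelude are the abstract
`Ш¹`, `Ш²` of the arithmetic datum `DQ p S`.

* `pt79_isLC1_levQ_iff`, `pt79_isLC2_levQ_iff`, `pt79_isLC1_levFin_comap_iff` : dictionary of
  level-constant cochains.
* `pt79_sha1Equiv : (DQ p S).Sha1 A.ρ ≃ₗ sha₁ S A`, `pt79_sha2Equiv : (DQ p S).Sha2 M.ρ ≃ₗ sha₂ S M`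
  (for `p` odd).
* `pt79_isDisc` : a smooth finite dimensional module unramified outside `S` is discrete for the
  levels of `DQ p S`.
* `bridgeSha : BridgeSha`.

Sub-architect: helper79.
-/

set_option autoImplicit false
set_option linter.style.haveILetI false

open CategoryTheory groupCohomology ExtCitation

noncomputable section

namespace Fermat.Agent.PT

/-! ### Dictionary of levels -/

theorem pt79_isLC1_levQ_iff (S : Finset Nat.Primes) {X : Type*} (f : GQ → X) :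
    IsLC1 (levQ S) f ↔ IsLevelConstantS₁ S f := by
  constructor
  · rintro ⟨N, ⟨F, hF, -, rfl⟩, h⟩
    exact ⟨F, hF, h⟩
  · rintro ⟨F, hF, h⟩
    obtain ⟨F', -, hF', hgal, -, hle⟩ := pt79_exists_galois_level hF
    haveI := hgal
    exact ⟨F'.fixingSubgroup, ⟨F', hF', IsGalois.to_normal, rfl⟩, fun g s hs => h g s (hle hs)⟩

theorem pt79_isLC2_levQ_iff (S : Finset Nat.Primes) {X : Type*} (f : GQ × GQ → X) :
    IsLC2 (levQ S) f ↔ IsLevelConstantS₂ S f := by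
  constructor
  · rintro ⟨N, ⟨F, hF, -, rfl⟩, h⟩
    exact ⟨F, hF, h⟩
  · rintro ⟨F, hF, h⟩
    obtain ⟨F', -, hF', hgal, -, hle⟩ := pt79_exists_galois_level hF
    haveI := hgal
    exact ⟨F'.fixingSubgroup, ⟨F', hF', IsGalois.to_normal, rfl⟩,
      fun g g' s s' hs hs' => h g g' s s' (hle hs) (hle hs')⟩

theorem pt79_isLC1_levFin_comap_iff {H : Type} [Group H] (r : H →* GQ) {X : Type*}
    (f : H → X) : IsLC1 (levFin.comap r) f ↔ IsLevelConstant₁ r f := by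
  constructor
  · rintro ⟨N', ⟨N, ⟨F, hF, -, rfl⟩, rfl⟩, h⟩
    exact ⟨F, hF, fun g s hs => h g s hs⟩
  · rintro ⟨F, hF, h⟩
    haveI := hF
    refine ⟨(pt79_galClosure F).fixingSubgroup.comap r,
      ⟨(pt79_galClosure F).fixingSubgroup,
        ⟨pt79_galClosure F, pt79_galClosure_finiteDimensional F, pt79_galClosure_normal F, rfl⟩,
        rfl⟩, fun g s hs => h g s ?_⟩
    exact IntermediateField.fixingSubgroup_antitone (pt79_le_galClosure F) hs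

/-! ### Dictionary of differentials -/

section Diff

variable {k : Type} [CommRing k] {G : Type} [Group G] (A : Rep k G)

theorem pt79_d₀₁_eq (m : A) : (d₀₁ A).hom m = d0 A.ρ m := rfl

theorem pt79_d₁₂_eq (f : G → A) : (d₁₂ A).hom f = d1 A.ρ f := rfl

theorem pt79_d₂₃_eq (f : G × G → A) : (d₂₃ A).hom f = d2 A.ρ f := rfl

theorem pt79_mem_cocycles₁_iff (f : G → A) : f ∈ cocycles₁ A ↔ d1 A.ρ f = 0 := Iff.rfl

theorem pt79_mem_cocycles₂_iff (f : G × G → A) : f ∈ cocycles₂ A ↔ d2 A.ρ f = 0 := Iff.rfl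

theorem pt79_coboundaries₁_eq : coboundaries₁ A = B1 A.ρ := rfl

end Diff

/-! ### Unfolding `ZSha1`, `ZSha2` for a general datum -/

section Datum

variable {k : Type} [Field k] (D : Datum k) {V : Type} [AddCommGroup V] [Module k V]
  (ρ : Representation k D.G V)

theorem pt79_datum_mem_ZSha1_iff (f : D.G → V) :
    f ∈ D.ZSha1 ρ ↔ (d1 ρ f = 0 ∧ IsLC1 D.lev f) ∧
      ∀ v : D.P, ∃ m : V, ∀ γ : D.H v, f (D.loc v γ) = ρ (D.loc v γ) m - m := by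
  unfold Datum.ZSha1
  rw [Submodule.mem_inf, mem_Z1, Submodule.mem_iInf]
  refine and_congr Iff.rfl (forall_congr' fun v => ?_)
  rw [Submodule.mem_comap, mem_B1]
  refine exists_congr fun m => ?_
  constructor
  · intro h γ
    exact (congrFun h γ).symm
  · intro h
    funext γ
    exact (h γ).symm

theorem pt79_datum_mem_ZSha2_iff (f : D.G × D.G → V) :
    f ∈ D.ZSha2 ρ ↔ (d2 ρ f = 0 ∧ IsLC2 D.lev f) ∧
      ∀ v : D.P, ∃ y : D.H v → V, IsLC1 (D.levH v) y ∧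
        ∀ γ γ' : D.H v, f (D.loc v γ, D.loc v γ')
          = ρ (D.loc v γ) (y γ') - y (γ * γ') + y γ := by
  unfold Datum.ZSha2
  rw [Submodule.mem_inf, mem_Z2, Submodule.mem_iInf]
  refine and_congr Iff.rfl (forall_congr' fun v => ?_)
  rw [Submodule.mem_comap, mem_B2]
  refine exists_congr fun y => and_congr Iff.rfl ?_
  constructor
  · intro h γ γ'
    exact (congrFun h (γ, γ')).symm
  · intro h
    funext ⟨γ, γ'⟩
    exact (h γ γ').symm

end Datum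

/-! ### `Ш¹` -/

section Sha1

variable (p : ℕ) [Fact p.Prime] (S : Finset Nat.Primes) (A : Rep (ZMod p) GQ)

theorem pt79_mem_ZSha1_iff (f : GQ → A) :
    f ∈ (DQ p S).ZSha1 A.ρ ↔
      f ∈ cocycles₁ A ∧ IsLevelConstantS₁ S f ∧ ∀ q ∈ S, LocTriv₁ A q f := by
  refine (pt79_datum_mem_ZSha1_iff (DQ p S) A.ρ f).trans ?_
  constructor
  · rintro ⟨⟨h1, h2⟩, h3⟩
    exact ⟨h1, (pt79_isLC1_levQ_iff S f).1 h2, fun q hq => h3 ⟨q, hq⟩⟩
  · rintro ⟨h1, h2, h3⟩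
    exact ⟨⟨h1, (pt79_isLC1_levQ_iff S f).2 h2⟩, fun q => h3 q.1 q.2⟩

/-- the cocycle underlying an element of `ZSha1`. -/
def pt79_toCocycles₁ : ↥((DQ p S).ZSha1 A.ρ) →ₗ[ZMod p] ↥(cocycles₁ A) :=
  LinearMap.codRestrict (cocycles₁ A) ((DQ p S).ZSha1 A.ρ).subtype
    (fun f => ((pt79_mem_ZSha1_iff p S A f.1).1 f.2).1)

@[simp] theorem pt79_toCocycles₁_coe (f : ↥((DQ p S).ZSha1 A.ρ)) :
    ((pt79_toCocycles₁ p S A f : cocycles₁ A) : GQ → A) = f.1 := rfl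

variable (h2 : (2 : ZMod p) ≠ 0)

include h2 in
theorem pt79_H1π_mem_sha₁ (f : ↥((DQ p S).ZSha1 A.ρ)) :
    (H1π A).hom (pt79_toCocycles₁ p S A f) ∈ sha₁ S A := by
  obtain ⟨-, h3, h4⟩ := (pt79_mem_ZSha1_iff p S A f.1).1 f.2
  exact (pt79_mem_sha₁_iff S A h2 _).2 ⟨pt79_toCocycles₁ p S A f, h3, rfl, h4⟩

/-- the map `ZSha1 → sha₁`. -/
def pt79_shaMap₁ : ↥((DQ p S).ZSha1 A.ρ) →ₗ[ZMod p] ↥(sha₁ S A) :=
  LinearMap.codRestrict (sha₁ S A) ((H1π A).hom ∘ₗ pt79_toCocycles₁ p S A)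
    (fun f => pt79_H1π_mem_sha₁ p S A h2 f)

theorem pt79_shaMap₁_surjective : Function.Surjective (pt79_shaMap₁ p S A h2) := by
  rintro ⟨x, hx⟩
  obtain ⟨c, hc1, hc2, hc3⟩ := (pt79_mem_sha₁_iff S A h2 x).1 hx
  refine ⟨⟨c.1, (pt79_mem_ZSha1_iff p S A c.1).2 ⟨c.2, hc1, hc3⟩⟩, ?_⟩
  apply Subtype.ext
  exact hc2

theorem pt79_ker_shaMap₁ :
    LinearMap.ker (pt79_shaMap₁ p S A h2)
      = (B1 A.ρ).comap ((DQ p S).ZSha1 A.ρ).subtype := by
  ext f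
  rw [LinearMap.mem_ker, Submodule.mem_comap]
  have h1 : pt79_shaMap₁ p S A h2 f = 0 ↔ (H1π A).hom (pt79_toCocycles₁ p S A f) = 0 := by
    constructor
    · intro h
      exact congrArg Subtype.val h
    · intro h
      exact Subtype.ext h
  rw [h1]
  exact H1π_eq_zero_iff (pt79_toCocycles₁ p S A f)

/-- **`Ш¹` of the arithmetic datum is the frozen `sha₁`.** -/
def pt79_sha1Equiv : (DQ p S).Sha1 A.ρ ≃ₗ[ZMod p] ↥(sha₁ S A) :=
  (Submodule.quotEquivOfEq _ _ (pt79_ker_shaMap₁ p S A h2).symm).trans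
    ((pt79_shaMap₁ p S A h2).quotKerEquivOfSurjective (pt79_shaMap₁_surjective p S A h2))

end Sha1

/-! ### `Ш²` -/

section Sha2

variable (p : ℕ) [Fact p.Prime] (S : Finset Nat.Primes) (M : Rep (ZMod p) GQ)

theorem pt79_mem_ZSha2_iff (f : GQ × GQ → M) :
    f ∈ (DQ p S).ZSha2 M.ρ ↔
      f ∈ levelCocyclesS₂ S M ∧ ∀ q ∈ S, LocTriv₂ M q f := by
  refine (pt79_datum_mem_ZSha2_iff (DQ p S) M.ρ f).trans ?_
  constructor
  · rintro ⟨⟨h1, h2⟩, h3⟩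
    refine ⟨⟨h1, (pt79_isLC2_levQ_iff S f).1 h2⟩, fun q hq => ?_⟩
    obtain ⟨y, hy, hyf⟩ := h3 ⟨q, hq⟩
    exact ⟨y, (pt79_isLC1_levFin_comap_iff (primeLocalToGlobal q) y).1 hy, hyf⟩
  · rintro ⟨⟨h1, h2⟩, h3⟩
    refine ⟨⟨h1, (pt79_isLC2_levQ_iff S f).2 h2⟩, fun q => ?_⟩
    obtain ⟨y, hy, hyf⟩ := h3 q.1 q.2
    exact ⟨y, (pt79_isLC1_levFin_comap_iff (primeLocalToGlobal q.1) y).2 hy, hyf⟩

/-- the level cocycle underlying an element of `ZSha2`. -/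
def pt79_toCocycles₂ : ↥((DQ p S).ZSha2 M.ρ) →ₗ[ZMod p] ↥(levelCocyclesS₂ S M) :=
  LinearMap.codRestrict (levelCocyclesS₂ S M) ((DQ p S).ZSha2 M.ρ).subtype
    (fun f => ((pt79_mem_ZSha2_iff p S M f.1).1 f.2).1)

@[simp] theorem pt79_toCocycles₂_coe (f : ↥((DQ p S).ZSha2 M.ρ)) :
    ((pt79_toCocycles₂ p S M f : ↥(levelCocyclesS₂ S M)) : GQ × GQ → M) = f.1 := rfl

variable (h2 : (2 : ZMod p) ≠ 0)

include h2 in
theorem pt79_H2π_mem_sha₂ (f : ↥((DQ p S).ZSha2 M.ρ)) :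
    continuousH2Sπ S M (pt79_toCocycles₂ p S M f) ∈ sha₂ S M := by
  obtain ⟨-, h4⟩ := (pt79_mem_ZSha2_iff p S M f.1).1 f.2
  exact (pt79_mem_sha₂_iff S M h2 _).2 ⟨pt79_toCocycles₂ p S M f, rfl, h4⟩

/-- the map `ZSha2 → sha₂`. -/
def pt79_shaMap₂ : ↥((DQ p S).ZSha2 M.ρ) →ₗ[ZMod p] ↥(sha₂ S M) :=
  LinearMap.codRestrict (sha₂ S M) (continuousH2Sπ S M ∘ₗ pt79_toCocycles₂ p S M)
    (fun f => pt79_H2π_mem_sha₂ p S M h2 f)

theorem pt79_shaMap₂_surjective : Function.Surjective (pt79_shaMap₂ p S M h2) := by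
  rintro ⟨x, hx⟩
  obtain ⟨c, hc2, hc3⟩ := (pt79_mem_sha₂_iff S M h2 x).1 hx
  refine ⟨⟨c.1, (pt79_mem_ZSha2_iff p S M c.1).2 ⟨c.2, hc3⟩⟩, ?_⟩
  apply Subtype.ext
  exact hc2

theorem pt79_levelCoboundariesS₂_eq : levelCoboundariesS₂ S M = B2 (levQ S) M.ρ := by
  ext f
  rw [mem_levelCoboundariesS₂_iff, mem_B2]
  refine exists_congr fun x => and_congr (pt79_isLC1_levQ_iff S x).symm Iff.rfl

theorem pt79_ker_shaMap₂ :
    LinearMap.ker (pt79_shaMap₂ p S M h2)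
      = (B2 (DQ p S).lev M.ρ).comap ((DQ p S).ZSha2 M.ρ).subtype := by
  ext f
  rw [LinearMap.mem_ker, Submodule.mem_comap]
  have h1 : pt79_shaMap₂ p S M h2 f = 0 ↔
      continuousH2Sπ S M (pt79_toCocycles₂ p S M f) = 0 := by
    constructor
    · intro h
      exact congrArg Subtype.val h
    · intro h
      exact Subtype.ext h
  rw [h1, continuousH2Sπ_eq_zero_iff, pt79_levelCoboundariesS₂_eq]
  exact Iff.rfl

/-- **`Ш²` of the arithmetic datum is the frozen `sha₂`.** -/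
def pt79_sha2Equiv : (DQ p S).Sha2 M.ρ ≃ₗ[ZMod p] ↥(sha₂ S M) :=
  (Submodule.quotEquivOfEq _ _ (pt79_ker_shaMap₂ p S M h2).symm).trans
    ((pt79_shaMap₂ p S M h2).quotKerEquivOfSurjective (pt79_shaMap₂_surjective p S M h2))

end Sha2

/-! ### Discreteness and the bridge -/

section Final

variable (p : ℕ) [Fact p.Prime] (S : Finset Nat.Primes) (M : Rep (ZMod p) GQ)

/-- a smooth finite dimensional module unramified outside `S` is discrete for the levels of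
`DQ p S`. -/
theorem pt79_isDisc [FiniteDimensional (ZMod p) M]
    (hsm : ∀ m : M, ∃ F : IntermediateField ℚ (AlgebraicClosure ℚ), FiniteDimensional ℚ F ∧
      ∀ s ∈ F.fixingSubgroup, M.ρ s m = m)
    (hMur : ∀ q : Nat.Primes, q ∉ S → ∀ A : ValuationSubring (AlgebraicClosure ℚ),
      A.LiesOverPrime (q : ℕ) → ∀ g ∈ A.inertiaSubgroupIn ℚ, M.ρ g = 1) :
    IsDisc (DQ p S).lev M.ρ := by
  obtain ⟨F, hF, hgal, hfix⟩ := pt79_module_level M S hsm hMur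
  haveI := hgal
  have key : ∀ (v : M) (s : GQ), s ∈ F.fixingSubgroup → M.ρ s v = v := by
    intro v s hs
    have h1 : s ∈ pt79_kerρ M := hfix ▸ hs
    have h2 : M.ρ s = 1 := h1
    rw [h2]
    rfl
  intro v
  exact ⟨F.fixingSubgroup, ⟨F, hF, IsGalois.to_normal, rfl⟩, fun s hs => key v s hs⟩

theorem pt79_two_ne_zero (hp2 : p ≠ 2) : (2 : ZMod p) ≠ 0 := by
  intro h
  have h1 : ((2 : ℕ) : ZMod p) = 0 := by exact_mod_cast h
  rw [ZMod.natCast_eq_zero_iff] at h1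
  have hp : p.Prime := Fact.out
  exact hp2 ((Nat.prime_dvd_prime_iff_eq hp Nat.prime_two).mp h1)

end Final

/-- **BRIDGE**: the frozen `sha₁`, `sha₂` are the abstract `Ш¹`, `Ш²` of the arithmetic datum. -/
theorem bridgeSha : BridgeSha := by
  intro p _ S hp2 hpS M _ hsm hMur
  have h2 := pt79_two_ne_zero p hp2
  exact ⟨pt79_isDisc p S M hsm hMur,
    ⟨(pt79_sha1Equiv p S (M.dualTwist (cycloChar p)) h2).symm⟩,
    ⟨(pt79_sha2Equiv p S M h2).symm⟩⟩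

end Fermat.Agent.PT
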