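import Fermat.Prelude.Def_GroupCohomology_ContinuousUnramified

/-!
# W3-PT, PT-BRIDGE: finite groups of invertible order; the archimedean place is vacuous

* `pt79_H1_eq_zero` : `H¹(G, A) = 0` for a finite group `G` whose order is invertible in `k`.
* `pt79_cocycle₂_eq_d₁₂` : every `2`-cocycle of such a group is the coboundary of the averaged
  cochain.
* `pt79_arch_H1_eq_zero`, `pt79_arch_continuousH2_eq_zero` : for `2` invertible in `k`, the
  local cohomology groups at the archimedean place (the group generated by complex conjugation)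
  vanish; so the archimedean conditions in `sha₁`, `sha₂` are vacuous.

Sub-architect: helper79.
-/

set_option autoImplicit false

open CategoryTheory groupCohomology ExtCitation

noncomputable section

namespace Fermat.Agent.PT

section finite

variable {k : Type} [Field k] {G : Type} [Group G] [Fintype G] (A : Rep k G)

/-- a `1`-cocycle of a finite group of invertible order is a coboundary. -/
theorem pt79_cocycle₁_eq_d₀₁ (hn : (Fintype.card G : k) ≠ 0) (c : G → A)
    (hc : c ∈ cocycles₁ A) :
    ∃ m : A, ∀ g : G, c g = A.ρ g m - m := by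
  classical
  rw [mem_cocycles₁_iff] at hc
  set T : A := ∑ h : G, c h with hT
  refine ⟨-((Fintype.card G : k)⁻¹ • T), fun g => ?_⟩
  have h1 : ∑ h : G, c (g * h) = T :=
    Fintype.sum_equiv (Equiv.mulLeft g) _ _ (fun _ => rfl)
  have h2 : ∑ h : G, c (g * h) = A.ρ g T + (Fintype.card G : k) • c g := by
    simp only [hc, Finset.sum_add_distrib, Finset.sum_const, Finset.card_univ, hT, map_sum]
    rw [Nat.cast_smul_eq_nsmul]
  have h3 : (Fintype.card G : k) • c g = T - A.ρ g T := by
    rw [eq_sub_iff_add_eq, add_comm, ← h2, h1]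
  have h4 : c g = (Fintype.card G : k)⁻¹ • (T - A.ρ g T) := by
    rw [← h3, smul_smul, inv_mul_cancel₀ hn, one_smul]
  rw [h4, map_neg, map_smul, smul_sub]
  abel

/-- `H¹` of a finite group of invertible order vanishes. -/
theorem pt79_H1_eq_zero (hn : (Fintype.card G : k) ≠ 0) (x : H1 A) : x = 0 := by
  induction x using H1_induction_on with
  | h c =>
    rw [H1π_eq_zero_iff]
    obtain ⟨m, hm⟩ := pt79_cocycle₁_eq_d₀₁ A hn c c.2
    refine ⟨m, ?_⟩
    funext g
    rw [d₀₁_hom_apply]
    exact (hm g).symm

/-- every `2`-cocycle of a finite group of invertible order is a coboundary. -/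
theorem pt79_cocycle₂_eq_d₁₂ (hn : (Fintype.card G : k) ≠ 0) (f : G × G → A)
    (hf : f ∈ cocycles₂ A) :
    ∃ x : G → A, (d₁₂ A).hom x = f := by
  classical
  rw [mem_cocycles₂_iff] at hf
  refine ⟨fun g => (Fintype.card G : k)⁻¹ • ∑ j : G, f (g, j), ?_⟩
  funext ⟨g, h⟩
  rw [d₁₂_hom_apply]
  have h1 : ∑ j : G, f (g, h * j) = ∑ j : G, f (g, j) :=
    Fintype.sum_equiv (Equiv.mulLeft h) _ _ (fun _ => rfl)
  have h2 : ∑ j : G, (f (g * h, j) + f (g, h)) = ∑ j : G, (A.ρ g (f (h, j)) + f (g, h * j)) :=
    Finset.sum_congr rfl fun j _ => hf g h j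
  rw [Finset.sum_add_distrib, Finset.sum_add_distrib, Finset.sum_const, Finset.card_univ,
    h1, ← map_sum] at h2
  have h3 : (Fintype.card G : k) • f (g, h)
      = A.ρ g (∑ j : G, f (h, j)) + ∑ j : G, f (g, j) - ∑ j : G, f (g * h, j) := by
    rw [eq_sub_iff_add_eq, add_comm, ← h2, Nat.cast_smul_eq_nsmul]
  have h4 : f (g, h) = (Fintype.card G : k)⁻¹ •
      (A.ρ g (∑ j : G, f (h, j)) + ∑ j : G, f (g, j) - ∑ j : G, f (g * h, j)) := by
    rw [← h3, smul_smul, inv_mul_cancel₀ hn, one_smul]
  rw [h4, map_smul, smul_sub, smul_add]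
  abel

end finite

/-! ## the archimedean place -/

/-- a square root of `-1` in `ℚ̄`. -/
theorem pt79_exists_sq_eq_neg_one : ∃ x : AlgebraicClosure ℚ, x * x = -1 := by
  obtain ⟨x, hx⟩ := IsAlgClosed.exists_pow_nat_eq (-1 : AlgebraicClosure ℚ) (n := 2) (by norm_num)
  exact ⟨x, by rw [← hx, sq]⟩

/-- complex conjugation moves every square root of `-1`. -/
theorem pt79_complexConjugation_ne {x : AlgebraicClosure ℚ} (hx : x * x = -1) :
    complexConjugation x ≠ x := by
  intro h
  have h1 := complexEmbedding_complexConjugation x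
  rw [h] at h1
  have h2 : complexEmbedding x * complexEmbedding x = -1 := by
    rw [← map_mul, hx, map_neg, map_one]
  -- `z = conj z` and `z * z = -1` is impossible
  set z := complexEmbedding x with hz
  have h3 : (starRingEnd ℂ) z = z := h1.symm
  have h4 : z.im = 0 := Complex.conj_eq_iff_im.mp h3
  have h5 := congrArg Complex.re h2
  simp only [Complex.mul_re, h4, mul_zero, sub_zero, Complex.neg_re, Complex.one_re] at h5
  nlinarith [mul_self_nonneg z.re]

/-- the elements of the archimedean decomposition group are `1` and complex conjugation. -/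
theorem pt79_arch_eq_one_or (s : archimedeanDecomposition) :
    (s : AlgebraicClosure ℚ ≃ₐ[ℚ] AlgebraicClosure ℚ) = 1 ∨
      (s : AlgebraicClosure ℚ ≃ₐ[ℚ] AlgebraicClosure ℚ) = complexConjugation := by
  obtain ⟨n, hn⟩ := Subgroup.mem_zpowers_iff.mp s.2
  rcases Int.even_or_odd n with ⟨m, rfl⟩ | ⟨m, rfl⟩
  · left
    rw [← hn, ← two_mul, zpow_mul, zpow_ofNat, complexConjugation_sq, one_zpow]
  · right
    rw [← hn, zpow_add, zpow_mul, zpow_ofNat, complexConjugation_sq, one_zpow, one_mul,
      zpow_one]

/-- a finite level which separates the archimedean decomposition group. -/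
theorem pt79_arch_exists_level :
    ∃ F : IntermediateField ℚ (AlgebraicClosure ℚ), FiniteDimensional ℚ F ∧
      ∀ s : archimedeanDecomposition, archimedeanLoc s ∈ F.fixingSubgroup → s = 1 := by
  obtain ⟨x, hx⟩ := pt79_exists_sq_eq_neg_one
  have hint : IsIntegral ℚ x := ((AlgebraicClosure.isAlgebraic ℚ).isAlgebraic x).isIntegral
  refine ⟨IntermediateField.adjoin ℚ {x}, IntermediateField.adjoin.finiteDimensional hint,
    fun s hs => ?_⟩
  have hfix : archimedeanLoc s x = x := by
    rw [IntermediateField.mem_fixingSubgroup_iff] at hs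
    exact hs x (IntermediateField.mem_adjoin_simple_self ℚ x)
  rcases pt79_arch_eq_one_or s with h | h
  · exact Subtype.ext h
  · exfalso
    apply pt79_complexConjugation_ne hx
    have : archimedeanLoc s = complexConjugation := h
    rw [← this]
    exact hfix

/-- every cochain on the archimedean decomposition group is level constant. -/
theorem pt79_arch_isLevelConstant₁ {X : Type*} (f : archimedeanDecomposition → X) :
    IsLevelConstant₁ archimedeanLoc f := by
  obtain ⟨F, hF, h⟩ := pt79_arch_exists_level
  exact ⟨F, hF, fun g s hs => by rw [h s hs, mul_one]⟩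

/-- every `2`-cochain on the archimedean decomposition group is level constant. -/
theorem pt79_arch_isLevelConstant₂ {X : Type*}
    (f : archimedeanDecomposition × archimedeanDecomposition → X) :
    IsLevelConstant₂ archimedeanLoc f := by
  obtain ⟨F, hF, h⟩ := pt79_arch_exists_level
  exact ⟨F, hF, fun g g' s s' hs hs' => by rw [h s hs, h s' hs', mul_one, mul_one]⟩

/-- the archimedean decomposition group is finite. -/
instance pt79_arch_finite : Finite archimedeanDecomposition := by
  classical
  have : (Set.univ : Set archimedeanDecomposition) ⊆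
      {(1 : archimedeanDecomposition), archimedeanGen} := by
    intro s _
    rcases pt79_arch_eq_one_or s with h | h
    · left; exact Subtype.ext h
    · right; exact Subtype.ext h
  exact Set.finite_univ_iff.mp ((Set.toFinite _).subset this)

/-- the order of the archimedean decomposition group divides `2`. -/
theorem pt79_arch_card_le : Nat.card archimedeanDecomposition ≤ 2 := by
  classical
  have h1 : Nat.card archimedeanDecomposition = Nat.card (Set.univ : Set archimedeanDecomposition) :=
    (Nat.card_congr (Equiv.Set.univ _)).symm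
  have hsub : (Set.univ : Set archimedeanDecomposition) ⊆
      {(1 : archimedeanDecomposition), archimedeanGen} := by
    intro s _
    rcases pt79_arch_eq_one_or s with h | h
    · left; exact Subtype.ext h
    · right; exact Subtype.ext h
  rw [h1]
  calc Nat.card (Set.univ : Set archimedeanDecomposition)
      ≤ Nat.card ({(1 : archimedeanDecomposition), archimedeanGen} : Set _) :=
        Nat.card_mono (Set.toFinite _) hsub
    _ ≤ 2 := by
        rw [Nat.card_eq_fintype_card, ← Set.toFinset_card]
        simp only [Set.toFinset_insert, Set.toFinset_singleton]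
        exact Finset.card_le_two

/-- the order of the archimedean decomposition group is invertible where `2` is. -/
theorem pt79_arch_card_ne_zero {k : Type} [Field k] (h2 : (2 : k) ≠ 0) :
    ((Nat.card archimedeanDecomposition : ℕ) : k) ≠ 0 := by
  have h1 := pt79_arch_card_le
  have h0 : 0 < Nat.card archimedeanDecomposition := Nat.card_pos
  interval_cases h : Nat.card archimedeanDecomposition
  · simp
  · simpa using h2

variable {k : Type} [Field k]
  (M : Rep k (AlgebraicClosure ℚ ≃ₐ[ℚ] AlgebraicClosure ℚ))

/-- **the archimedean `H¹` vanishes** (for `2` invertible). -/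
theorem pt79_arch_H1_eq_zero (h2 : (2 : k) ≠ 0) (x : H1 (Rep.res archimedeanLoc M)) :
    x = 0 := by
  classical
  letI : Fintype archimedeanDecomposition := Fintype.ofFinite _
  refine pt79_H1_eq_zero _ ?_ x
  rw [← Nat.card_eq_fintype_card]
  exact pt79_arch_card_ne_zero h2

/-- **the archimedean continuous `H²` vanishes** (for `2` invertible). -/
theorem pt79_arch_continuousH2_eq_zero (h2 : (2 : k) ≠ 0)
    (x : continuousH2 archimedeanLoc (Rep.res archimedeanLoc M)) : x = 0 := by
  classical
  letI : Fintype archimedeanDecomposition := Fintype.ofFinite _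
  obtain ⟨f, rfl⟩ := Submodule.mkQ_surjective _ x
  have hn : ((Fintype.card archimedeanDecomposition : ℕ) : k) ≠ 0 := by
    rw [← Nat.card_eq_fintype_card]
    exact pt79_arch_card_ne_zero h2
  obtain ⟨y, hy⟩ := pt79_cocycle₂_eq_d₁₂ (Rep.res archimedeanLoc M) hn
    (f : archimedeanDecomposition × archimedeanDecomposition → _) f.2.1
  change continuousH2π archimedeanLoc (Rep.res archimedeanLoc M) f = 0
  rw [continuousH2π_eq_zero_iff, mem_levelCoboundaries₂_iff]
  exact ⟨y, pt79_arch_isLevelConstant₁ y, hy⟩

end Fermat.Agent.PT
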