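/-
W3-PT (S55), PT-BRIDGE, leaf BR-NF (helper23): the number field dictionary.

`L ⊆ ℚ̄` a number field, `A` a valuation subring of `ℚ̄` over a prime `q`, `v` the place of `L`
under `A` (`v.asIdeal = primeUnder A L`).  For `a ∈ L`:

* `h23b_mem_iff_valuation_le_one`          : `a ∈ A ↔ v(a) ≤ 1`;
* `h23b_mem_nonunits_iff_valuation_lt_one` : `a ∈ 𝔪_A ↔ v(a) < 1`;
* `h23b_isUnit_iff_valuation_eq_one`       : `a ∈ Aˣ ↔ v(a) = 1`;
* `h23b_dvdValAt_iff_valuation`            : `Glob.DvdValAt n L A a ↔ ∃ k, v(a) = exp (n k)`;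
* `h23b_placeUnder`                        : the place under `A`;
* `h23b_exists_valuationSubring_of_place`  : every place of `L` is under some `A`;
* `h23b_numberField`                       : `[FiniteDimensional ℚ L] → NumberField L`.
-/
import Mathlib
import Fermat.Agent.PT.Bridge.Frob
import Fermat.Agent.Bridge.Main

set_option autoImplicit false
set_option linter.style.haveILetI false
set_option linter.unusedSectionVars false

open NumberField IsDedekindDomain
open scoped Pointwise

namespace Fermat.Agent.PT.Bridge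

open Fermat.Agent.Bridge

section NF

variable (L : IntermediateField ℚ Qb) [NumberField L] (A : ValuationSubring Qb)

/-- The prime of `𝓞 L` under a valuation subring different from `⊤` is nonzero. -/
theorem h23b_primeUnder_ne_bot {q : ℕ} (hq : q.Prime) (hA : A.LiesOverPrime q) :
    primeUnder A L ≠ ⊥ := by
  intro h
  have h1 : ((q : ℕ) : 𝓞 L) ∈ primeUnder A L := by
    rw [mem_primeUnder]
    have h2 : ((((q : ℕ) : 𝓞 L) : L) : Qb) = ((q : ℕ) : Qb) := by simp
    rw [h2]
    exact hA
  rw [h, Ideal.mem_bot] at h1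
  have : (q : ℕ) = 0 := by exact_mod_cast h1
  exact hq.ne_zero this

/-- The place of `L` under a valuation subring of `ℚ̄` lying over `q`. -/
noncomputable def h23b_placeUnder {q : ℕ} (hq : q.Prime) (hA : A.LiesOverPrime q) :
    HeightOneSpectrum (𝓞 L) :=
  ⟨primeUnder A L, inferInstance, h23b_primeUnder_ne_bot L A hq hA⟩

@[simp] theorem h23b_placeUnder_asIdeal {q : ℕ} (hq : q.Prime) (hA : A.LiesOverPrime q) :
    (h23b_placeUnder L A hq hA).asIdeal = primeUnder A L := rfl

variable {L A}

/-- Elements of `𝓞 L` outside the prime under `A` are units of `A`. -/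
theorem h23b_valuation_eq_one_of_notMem {d : 𝓞 L} (hd : d ∉ primeUnder A L) :
    A.valuation (((d : L) : Qb)) = 1 := by
  have h1 : (((d : L) : Qb)) ∈ A := (ooToVal A L d).2
  have h2 : (((d : L) : Qb)) ∉ A.nonunits := fun h => hd (mem_primeUnder.mpr h)
  exact val_eq_one_of_not_mem_nonunits A h1 h2

/-- **Dictionary (integers).** For `a ∈ L`: `a ∈ A` iff `v(a) ≤ 1` for the place `v` under `A`. -/
theorem h23b_mem_iff_valuation_le_one (v : HeightOneSpectrum (𝓞 L))
    (hv : v.asIdeal = primeUnder A L) (a : L) :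
    (a : Qb) ∈ A ↔ v.valuation L a ≤ 1 := by
  have key : ∀ b : L, v.valuation L b ≤ 1 → (b : Qb) ∈ A := by
    intro b hb
    obtain ⟨n, d, hnd⟩ := v.exists_primeCompl_mul_eq_of_integer b hb
    have hd : (d : 𝓞 L) ∉ primeUnder A L := by
      rw [← hv]
      exact d.2
    have h1 := h23b_valuation_eq_one_of_notMem hd
    have h2 : (b : Qb) * (((d : 𝓞 L) : L) : Qb) = (((n : 𝓞 L) : L) : Qb) := by
      have := congrArg (fun x : L => (x : Qb)) hnd
      simpa using this
    rw [← A.valuation_le_one_iff]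
    calc A.valuation (b : Qb) = A.valuation (b : Qb) * A.valuation ((((d : 𝓞 L) : L) : Qb)) := by
          rw [h1, mul_one]
      _ = A.valuation ((((n : 𝓞 L) : L) : Qb)) := by rw [← map_mul, h2]
      _ ≤ 1 := (A.valuation_le_one_iff _).mpr (ooToVal A L n).2
  have key2 : ∀ b : L, v.valuation L b < 1 → (b : Qb) ∈ A.nonunits := by
    intro b hb
    obtain ⟨n, d, hnd⟩ := v.exists_primeCompl_mul_eq_of_integer b hb.le
    have hd : (d : 𝓞 L) ∉ primeUnder A L := by
      rw [← hv]
      exact d.2
    have h1 := h23b_valuation_eq_one_of_notMem hd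
    have hdv : v.valuation L ((d : 𝓞 L) : L) = 1 := by
      rw [HeightOneSpectrum.valuation_of_algebraMap]
      exact (v.intValuation_eq_one_iff_mem_primeCompl _).mpr d.2
    have hn : n ∈ primeUnder A L := by
      rw [← hv, ← v.valuation_lt_one_iff_mem (K := L)]
      have : v.valuation L ((n : 𝓞 L) : L) = v.valuation L b := by
        have h3 := congrArg (v.valuation L) hnd
        rw [map_mul] at h3
        have hdv' : v.valuation L (algebraMap (𝓞 L) L d) = 1 := hdv
        rw [hdv', mul_one] at h3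
        exact h3.symm
      rw [this]
      exact hb
    have h2 : (b : Qb) * (((d : 𝓞 L) : L) : Qb) = (((n : 𝓞 L) : L) : Qb) := by
      have := congrArg (fun x : L => (x : Qb)) hnd
      simpa using this
    rw [ValuationSubring.mem_nonunits_iff]
    calc A.valuation (b : Qb) = A.valuation (b : Qb) * A.valuation ((((d : 𝓞 L) : L) : Qb)) := by
          rw [h1, mul_one]
      _ = A.valuation ((((n : 𝓞 L) : L) : Qb)) := by rw [← map_mul, h2]
      _ < 1 := (ValuationSubring.mem_nonunits_iff A).mp (mem_primeUnder.mp hn)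
  constructor
  · intro ha
    by_contra hlt
    rw [not_le] at hlt
    have ha0 : a ≠ 0 := by
      rintro rfl
      rw [map_zero] at hlt
      exact absurd hlt (by simp)
    have h1 : v.valuation L a⁻¹ < 1 := by
      rw [map_inv₀]
      exact inv_lt_one_of_one_lt₀ hlt
    have h2 := key2 a⁻¹ h1
    rw [mem_nonunits_iff_inv] at h2
    rcases h2 with h2 | h2
    · have : (a⁻¹ : L) = 0 := by exact_mod_cast h2
      exact ha0 (inv_eq_zero.mp this)
    · apply h2
      have : (((a⁻¹ : L) : Qb))⁻¹ = (a : Qb) := by simp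
      rw [this]
      exact ha
  · exact key a

/-- **Dictionary (maximal ideal).** -/
theorem h23b_mem_nonunits_iff_valuation_lt_one (v : HeightOneSpectrum (𝓞 L))
    (hv : v.asIdeal = primeUnder A L) (a : L) :
    (a : Qb) ∈ A.nonunits ↔ v.valuation L a < 1 := by
  rw [mem_nonunits_iff_inv]
  by_cases ha : a = 0
  · subst ha
    simp
  · have h1 : ((a : Qb)) ≠ 0 := by
      intro h
      apply ha
      exact_mod_cast h
    have h2 : ((a : Qb))⁻¹ = ((a⁻¹ : L) : Qb) := by simp
    rw [h2, h23b_mem_iff_valuation_le_one v hv, map_inv₀, not_le]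
    simp only [h1, false_or]
    have hv0 : v.valuation L a ≠ 0 := (Valuation.ne_zero_iff _).mpr ha
    exact one_lt_inv₀ (zero_lt_iff.mpr hv0)

/-- **Dictionary (units).** -/
theorem h23b_isUnit_iff_valuation_eq_one (v : HeightOneSpectrum (𝓞 L))
    (hv : v.asIdeal = primeUnder A L) (a : L) :
    ((a : Qb) ∈ A ∧ (a : Qb) ∉ A.nonunits) ↔ v.valuation L a = 1 := by
  rw [h23b_mem_iff_valuation_le_one v hv, h23b_mem_nonunits_iff_valuation_lt_one v hv, not_lt]
  exact ⟨fun h => le_antisymm h.1 h.2, fun h => ⟨h.le, h.ge⟩⟩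

/-- **Dictionary (divisibility of valuations).** For `a ∈ Lˣ`: `n` divides the valuation of `a`
at the place below `A` in the sense of `Glob.DvdValAt` iff `v(a) = exp (n k)` for some `k : ℤ`. -/
theorem h23b_dvdValAt_iff_valuation (v : HeightOneSpectrum (𝓞 L))
    (hv : v.asIdeal = primeUnder A L) (n : ℕ) (a : L) (ha : a ≠ 0) :
    Glob.DvdValAt n L A (a : Qb) ↔ ∃ k : ℤ, v.valuation L a = WithZero.exp ((n : ℤ) * k) := by
  constructor
  · rintro ⟨π, hπL, hπ0, u, hu, hu', hau⟩
    set π' : L := ⟨π, hπL⟩ with hπ'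
    have hπ'0 : π' ≠ 0 := by
      intro h
      apply hπ0
      have := congrArg (fun x : L => (x : Qb)) h
      simpa [hπ'] using this
    have hu0 : u ≠ 0 := by
      rintro rfl
      apply ha
      have : (a : Qb) = 0 := by rw [hau, mul_zero]
      exact_mod_cast this
    -- `u = a / π ^ n ∈ L`
    have hueq : u = ((a / π' ^ n : L) : Qb) := by
      have h1 : (π : Qb) ^ n ≠ 0 := pow_ne_zero _ hπ0
      have h2 : ((a / π' ^ n : L) : Qb) = (a : Qb) / π ^ n := by
        simp [hπ']
      rw [h2, hau]
      field_simp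
    have hval1 : v.valuation L (a / π' ^ n) = 1 := by
      apply le_antisymm
      · rw [← h23b_mem_iff_valuation_le_one v hv, ← hueq]
        exact hu
      · have h3 : v.valuation L (a / π' ^ n)⁻¹ ≤ 1 := by
          rw [← h23b_mem_iff_valuation_le_one v hv]
          have : (((a / π' ^ n)⁻¹ : L) : Qb) = u⁻¹ := by
            rw [hueq]
            simp
          rw [this]
          exact hu'
        rw [map_inv₀] at h3
        have hne : v.valuation L (a / π' ^ n) ≠ 0 :=
          (Valuation.ne_zero_iff _).mpr (div_ne_zero ha (pow_ne_zero _ hπ'0))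
        exact (inv_le_one₀ (zero_lt_iff.mpr hne)).mp h3
    have hπv : v.valuation L π' ≠ 0 := (Valuation.ne_zero_iff _).mpr hπ'0
    obtain ⟨k, hk⟩ : ∃ k : ℤ, v.valuation L π' = WithZero.exp k := by
      refine ⟨WithZero.log (v.valuation L π'), ?_⟩
      rw [WithZero.exp_log hπv]
    refine ⟨k, ?_⟩
    have h4 : v.valuation L a = v.valuation L (a / π' ^ n) * v.valuation L π' ^ n := by
      rw [← map_pow, ← map_mul, div_mul_cancel₀ _ (pow_ne_zero _ hπ'0)]
    rw [h4, hval1, one_mul, hk, ← WithZero.exp_nsmul, nsmul_eq_mul]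
  · rintro ⟨k, hk⟩
    obtain ⟨ϖ, hϖ⟩ := v.valuation_exists_uniformizer L
    have hϖ0 : ϖ ≠ 0 := by
      rintro rfl
      rw [map_zero] at hϖ
      exact WithZero.exp_ne_zero.symm hϖ
    set π' : L := ϖ ^ (-k) with hπ'
    have hπ'0 : π' ≠ 0 := zpow_ne_zero _ hϖ0
    have hπv : v.valuation L π' = WithZero.exp k := by
      rw [hπ', map_zpow₀, hϖ, ← WithZero.exp_zsmul]
      simp
    have hval1 : v.valuation L (a / π' ^ n) = 1 := by
      rw [map_div₀, map_pow, hπv, hk, ← WithZero.exp_nsmul, nsmul_eq_mul]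
      exact div_self WithZero.exp_ne_zero
    refine ⟨(π' : Qb), π'.2, ?_, ((a / π' ^ n : L) : Qb), ?_, ?_, ?_⟩
    · intro h
      apply hπ'0
      exact_mod_cast h
    · rw [h23b_mem_iff_valuation_le_one v hv, hval1]
    · have : (((a / π' ^ n : L) : Qb))⁻¹ = (((a / π' ^ n)⁻¹ : L) : Qb) := by simp
      rw [this, h23b_mem_iff_valuation_le_one v hv, map_inv₀, hval1, inv_one]
    · have h1 : ((π' : Qb)) ^ n ≠ 0 := by
        apply pow_ne_zero
        intro h
        apply hπ'0
        exact_mod_cast h
      have h2 : ((a / π' ^ n : L) : Qb) = (a : Qb) / (π' : Qb) ^ n := by simp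
      rw [h2]
      field_simp

end NF

/-! ## Existence -/

/-- A finite subextension of `ℚ̄/ℚ` is a number field. -/
theorem h23b_numberField (L : IntermediateField ℚ Qb) [FiniteDimensional ℚ L] : NumberField L :=
  { to_charZero := inferInstance
    to_finiteDimensional := inferInstance }

/-- `primeUnder ⊤ L = ⊥`. -/
theorem h23b_primeUnder_top (L : IntermediateField ℚ Qb) : primeUnder (⊤ : ValuationSubring Qb) L = ⊥ := by
  ext x
  rw [mem_primeUnder, Ideal.mem_bot, mem_nonunits_iff_inv]
  constructor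
  · rintro (h | h)
    · exact_mod_cast h
    · exact absurd (ValuationSubring.mem_top _) h
  · rintro rfl
    left
    simp

/-- Every place of `L` lies under a valuation subring of `ℚ̄` over a prime number. -/
theorem h23b_exists_valuationSubring_of_place (L : IntermediateField ℚ Qb) [NumberField L]
    (v : HeightOneSpectrum (𝓞 L)) :
    ∃ (q : ℕ) (A : ValuationSubring Qb), q.Prime ∧ A.LiesOverPrime q ∧
      v.asIdeal = primeUnder A L := by
  haveI := v.isPrime
  obtain ⟨A, hA⟩ := M2_exists_primeUnder_eq L v.asIdeal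
  have hAtop : A ≠ ⊤ := by
    rintro rfl
    rw [h23b_primeUnder_top] at hA
    exact v.ne_bot hA.symm
  obtain ⟨q, hq, hqA, -⟩ := existsPrime A hAtop
  exact ⟨q, A, hq, hqA, hA.symm⟩

end Fermat.Agent.PT.Bridge
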