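/-
W3-PT (S55), PT-BRIDGE (helper23): dictionary between the abstract language of `PT/Defs.lean`
(`IsLC1/2/3`, `d1/d2/d3`, `Z1/Z2/Z3`, `B2/B3`, `cup11` for a group `H'` with the level system
pulled back from all finite levels of `G_ℚ`) and the RELATIVE language of `PT/Loc/Basic.lean`
(`Cont1/2/3 K`, `ACoc1/2/3 K`, `ACohom K`, `acup` for total functions on `Gal(ℚ̄_q/ℚ_q)`),
for a group `H'` identified with `GK K` by an injective homomorphism `ι : H' →* Gq q` with range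
`GK K`, `K` a finite extension of `ℚ_q`.

Examples of `ι`: the inclusion of a subgroup `Hs = GK K` (stabilisers of the places of the
restricted datum `D_U`, open subgroups `V` of the local clause); the inclusion of
`(GK K₁).subgroupOf (GK K)`.
-/
import Mathlib
import Fermat.Agent.PT.Iface
import Fermat.Agent.PT.Loc.Basic
import Fermat.Agent.PT.Bridge.Open

set_option autoImplicit false
set_option linter.style.haveILetI false
set_option linter.unusedSectionVars false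

open ExtCitation

namespace Fermat.Agent.PT.Bridge

open Fermat.Agent.PT Fermat.Agent.PT.Loc

noncomputable section

variable {q : ℕ} [Fact q.Prime]

/-- The level system of a group `H'` over the local Galois group at `q`: pulled back from all
finite levels of `G_ℚ`. -/
def h23r_lev {H' : Type} [Group H'] (ι : H' →* Gq q) : Lev H' :=
  (levFin.comap (localGaloisToGlobal q)).comap ι

/-- `ι` identifies `H'` with the subgroup `G_K` of `Gq q`. -/
structure h23r_IsEmb {H' : Type} [Group H'] (ι : H' →* Gq q) (K : LF q) : Prop where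
  inj : Function.Injective ι
  range : ∀ g, g ∈ GK K ↔ ∃ h, ι h = g

theorem h23r_isEmb_subtype (K : LF q) : h23r_IsEmb (GK K).subtype K :=
  ⟨Subtype.val_injective, fun g => ⟨fun hg => ⟨⟨g, hg⟩, rfl⟩, by rintro ⟨h, rfl⟩; exact h.2⟩⟩

theorem h23r_isEmb_subtype_of_eq (K : LF q) (Hs : Subgroup (Gq q)) (hHs : Hs = GK K) :
    h23r_IsEmb Hs.subtype K := by
  subst hHs
  exact h23r_isEmb_subtype K

theorem h23r_isEmb_subgroupOf (K K₁ : LF q) (hle : K ≤ K₁) :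
    h23r_IsEmb ((GK K).subtype.comp ((GK K₁).subgroupOf (GK K)).subtype) K₁ := by
  refine ⟨fun a b h => Subtype.ext (Subtype.ext h), fun g => ⟨fun hg => ?_, ?_⟩⟩
  · exact ⟨⟨⟨g, IntermediateField.fixingSubgroup_antitone hle hg⟩, hg⟩, rfl⟩
  · rintro ⟨h, rfl⟩
    exact h.2

section Pull

variable {H' : Type} [Group H'] (ι : H' →* Gq q)

/-- Pull-back of a total `1`-cochain. -/
def h23r_pb1 {X : Type*} (f : Gq q → X) : H' → X := fun h => f (ι h)

/-- Pull-back of a total `2`-cochain. -/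
def h23r_pb2 {X : Type*} (f : Gq q × Gq q → X) : H' × H' → X := fun h => f (ι h.1, ι h.2)

/-- Pull-back of a total `3`-cochain. -/
def h23r_pb3 {X : Type*} (f : Gq q × Gq q × Gq q → X) : H' × H' × H' → X :=
  fun h => f (ι h.1, ι h.2.1, ι h.2.2)

open scoped Classical in
/-- Extension by zero of a `1`-cochain of `H'`. -/
def h23r_ex1 {X : Type*} [Zero X] (f : H' → X) : Gq q → X :=
  fun g => if h : ∃ a, ι a = g then f h.choose else 0

open scoped Classical in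
/-- Extension by zero of a `2`-cochain of `H'`. -/
def h23r_ex2 {X : Type*} [Zero X] (f : H' × H' → X) : Gq q × Gq q → X :=
  fun g => if h : (∃ a, ι a = g.1) ∧ ∃ b, ι b = g.2 then f (h.1.choose, h.2.choose) else 0

@[simp] theorem h23r_pb1_apply {X : Type*} (f : Gq q → X) (h : H') :
    h23r_pb1 ι f h = f (ι h) := rfl

@[simp] theorem h23r_pb2_apply {X : Type*} (f : Gq q × Gq q → X) (h h' : H') :
    h23r_pb2 ι f (h, h') = f (ι h, ι h') := rfl

@[simp] theorem h23r_pb3_apply {X : Type*} (f : Gq q × Gq q × Gq q → X) (h h' h'' : H') :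
    h23r_pb3 ι f (h, h', h'') = f (ι h, ι h', ι h'') := rfl

variable {ι}

theorem h23r_pb1_ex1 (hinj : Function.Injective ι) {X : Type*} [Zero X] (f : H' → X) :
    h23r_pb1 ι (h23r_ex1 ι f) = f := by
  funext h
  have hex : ∃ a, ι a = ι h := ⟨h, rfl⟩
  simp only [h23r_pb1, h23r_ex1, dif_pos hex]
  rw [hinj hex.choose_spec]

theorem h23r_pb2_ex2 (hinj : Function.Injective ι) {X : Type*} [Zero X] (f : H' × H' → X) :
    h23r_pb2 ι (h23r_ex2 ι f) = f := by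
  funext ⟨h, h'⟩
  have hex : (∃ a, ι a = ι h) ∧ ∃ b, ι b = ι h' := ⟨⟨h, rfl⟩, ⟨h', rfl⟩⟩
  simp only [h23r_pb2, h23r_ex2, dif_pos hex]
  rw [hinj hex.1.choose_spec, hinj hex.2.choose_spec]

end Pull

/-! ## Levels -/

section Levels

variable {H' : Type} [Group H'] (ι : H' →* Gq q)

/-- The levels of `h23r_lev`: preimages of the groups `G_{ℚ_q(ι F)}`, `F/ℚ` finite normal. -/
theorem h23r_mem_lev_sets_iff (N : Subgroup H') :
    N ∈ (h23r_lev ι).sets ↔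
      ∃ F : IntermediateField ℚ (AlgebraicClosure ℚ), FiniteDimensional ℚ F ∧ Normal ℚ F ∧
        N = (GK (h23b_localField q F)).comap ι := by
  constructor
  · rintro ⟨N', ⟨N'', ⟨F, hF, hn, rfl⟩, rfl⟩, rfl⟩
    exact ⟨F, hF, hn, by rw [h23b_comap_fixingSubgroup]⟩
  · rintro ⟨F, hF, hn, rfl⟩
    exact ⟨_, ⟨_, ⟨F, hF, hn, rfl⟩, rfl⟩, by rw [h23b_comap_fixingSubgroup]⟩

/-- Every finite extension of `ℚ_q` gives a level of `H'` inside it. -/
theorem h23r_exists_level_le (F : LF q) [FiniteDimensional ℚ_[q] F] :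
    ∃ N ∈ (h23r_lev ι).sets, ∀ s : H', s ∈ N → ι s ∈ GK F := by
  obtain ⟨F₀, hF₀, hn, hle⟩ := h23b_exists_le_localField q F
  refine ⟨_, (h23r_mem_lev_sets_iff ι _).2 ⟨F₀, hF₀, hn, rfl⟩, fun s hs => ?_⟩
  exact IntermediateField.fixingSubgroup_antitone hle hs

variable {ι}

/-- Every level of `H' ≅ G_K` contains the group of a finite extension of `K`. -/
theorem h23r_exists_field_of_level {K : LF q} [FiniteDimensional ℚ_[q] K]
    (hι : h23r_IsEmb ι K) (N : Subgroup H') (hN : N ∈ (h23r_lev ι).sets) :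
    ∃ F : LF q, FiniteDimensional ℚ_[q] F ∧ K ≤ F ∧
      ∀ s, s ∈ GK F → ∃ s' : H', ι s' = s ∧ s' ∈ N := by
  obtain ⟨F₀, hF₀, -, rfl⟩ := (h23r_mem_lev_sets_iff _ _).1 hN
  haveI := hF₀
  haveI := h23b_finiteDimensional_localField q F₀
  refine ⟨K ⊔ h23b_localField q F₀, IntermediateField.finiteDimensional_sup _ _, le_sup_left,
    fun s hs => ?_⟩
  have h1 : s ∈ GK K := IntermediateField.fixingSubgroup_antitone le_sup_left hs
  have h2 : s ∈ GK (h23b_localField q F₀) :=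
    IntermediateField.fixingSubgroup_antitone le_sup_right hs
  obtain ⟨s', rfl⟩ := (hι.range s).1 h1
  exact ⟨s', rfl, h2⟩

/-- The open subgroups of `H' ≅ G_K`: the preimages of the `G_F`, `F ⊇ K` finite. -/
theorem h23r_isOpen_of_field (F : LF q) [FiniteDimensional ℚ_[q] F] :
    (h23r_lev ι).IsOpen ((GK F).comap ι) := by
  obtain ⟨N, hN, hle⟩ := h23r_exists_level_le ι F
  exact ⟨N, hN, fun s hs => hle s hs⟩

end Levels

/-! ## Continuity -/

section Cont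

variable {H' : Type} [Group H'] {ι : H' →* Gq q} {K : LF q} [FiniteDimensional ℚ_[q] K]
variable (hι : h23r_IsEmb ι K) {X : Type*}

include hι

theorem h23r_cont1_iff (f : Gq q → X) :
    Cont1 K f ↔ IsLC1 (h23r_lev ι) (h23r_pb1 ι f) := by
  constructor
  · rintro ⟨F, hF, hKF, h⟩
    haveI := hF
    obtain ⟨N, hN, hNF⟩ := h23r_exists_level_le ι F
    refine ⟨N, hN, fun g s hs => ?_⟩
    simp only [h23r_pb1_apply, map_mul]
    exact h (ι g) ((hι.range _).2 ⟨g, rfl⟩) (ι s) (hNF s hs)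
  · rintro ⟨N, hN, h⟩
    obtain ⟨F, hF, hKF, hFN⟩ := h23r_exists_field_of_level hι N hN
    refine ⟨F, hF, hKF, fun g hg s hs => ?_⟩
    obtain ⟨g', rfl⟩ := (hι.range g).1 hg
    obtain ⟨s', rfl, hs'⟩ := hFN s hs
    have := h g' s' hs'
    simpa only [h23r_pb1_apply, map_mul] using this

theorem h23r_cont2_iff (f : Gq q × Gq q → X) :
    Cont2 K f ↔ IsLC2 (h23r_lev ι) (h23r_pb2 ι f) := by
  constructor
  · rintro ⟨F, hF, hKF, h⟩
    haveI := hF
    obtain ⟨N, hN, hNF⟩ := h23r_exists_level_le ι F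
    refine ⟨N, hN, fun g g' s s' hs hs' => ?_⟩
    simp only [h23r_pb2_apply, map_mul]
    exact h (ι g) ((hι.range _).2 ⟨g, rfl⟩) (ι g') ((hι.range _).2 ⟨g', rfl⟩)
      (ι s) (hNF s hs) (ι s') (hNF s' hs')
  · rintro ⟨N, hN, h⟩
    obtain ⟨F, hF, hKF, hFN⟩ := h23r_exists_field_of_level hι N hN
    refine ⟨F, hF, hKF, fun g hg g' hg' s hs s' hs' => ?_⟩
    obtain ⟨a, rfl⟩ := (hι.range g).1 hg
    obtain ⟨a', rfl⟩ := (hι.range g').1 hg'
    obtain ⟨t, rfl, ht⟩ := hFN s hs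
    obtain ⟨t', rfl, ht'⟩ := hFN s' hs'
    have := h a a' t t' ht ht'
    simpa only [h23r_pb2_apply, map_mul] using this

theorem h23r_cont3_iff (f : Gq q × Gq q × Gq q → X) :
    Cont3 K f ↔ IsLC3 (h23r_lev ι) (h23r_pb3 ι f) := by
  constructor
  · rintro ⟨F, hF, hKF, h⟩
    haveI := hF
    obtain ⟨N, hN, hNF⟩ := h23r_exists_level_le ι F
    refine ⟨N, hN, fun g g' g'' s s' s'' hs hs' hs'' => ?_⟩
    simp only [h23r_pb3_apply, map_mul]
    exact h (ι g) ((hι.range _).2 ⟨g, rfl⟩) (ι g') ((hι.range _).2 ⟨g', rfl⟩)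
      (ι g'') ((hι.range _).2 ⟨g'', rfl⟩) (ι s) (hNF s hs) (ι s') (hNF s' hs')
      (ι s'') (hNF s'' hs'')
  · rintro ⟨N, hN, h⟩
    obtain ⟨F, hF, hKF, hFN⟩ := h23r_exists_field_of_level hι N hN
    refine ⟨F, hF, hKF, fun g hg g' hg' g'' hg'' s hs s' hs' s'' hs'' => ?_⟩
    obtain ⟨a, rfl⟩ := (hι.range g).1 hg
    obtain ⟨a', rfl⟩ := (hι.range g').1 hg'
    obtain ⟨a'', rfl⟩ := (hι.range g'').1 hg''
    obtain ⟨t, rfl, ht⟩ := hFN s hs
    obtain ⟨t', rfl, ht'⟩ := hFN s' hs'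
    obtain ⟨t'', rfl, ht''⟩ := hFN s'' hs''
    have := h a a' a'' t t' t'' ht ht' ht''
    simpa only [h23r_pb3_apply, map_mul] using this

end Cont

/-! ## Cocycles and coboundaries (trivial action on `ZMod p`) -/

section Coc

variable {p : ℕ} {H' : Type} [Group H'] {ι : H' →* Gq q} {K : LF q}
variable (hι : h23r_IsEmb ι K)
variable (ρ : Representation (ZMod p) H' (ZMod p)) (hρ : ∀ h v, ρ h v = v)

include hρ in
theorem h23r_d1_pb (χ : Gq q → ZMod p) (g h : H') :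
    d1 ρ (h23r_pb1 ι χ) (g, h) = acob χ (ι g, ι h) := by
  simp [d1_apply, acob, hρ]

include hρ in
theorem h23r_d2_pb (c : Gq q × Gq q → ZMod p) (g h j : H') :
    d2 ρ (h23r_pb2 ι c) (g, h, j) = acob2 c (ι g, ι h, ι j) := by
  simp [d2_apply, acob2, hρ]

include hρ in
theorem h23r_cup11_pb (χ ψ : Gq q → ZMod p) :
    cup11 (LinearMap.mul (ZMod p) (ZMod p)) ρ (h23r_pb1 ι χ) (h23r_pb1 ι ψ) =
      h23r_pb2 ι (acup χ ψ) := by
  funext ⟨g, h⟩
  simp [cup11_apply, acup, hρ]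

include hι hρ

theorem h23r_acoc1_iff (χ : Gq q → ZMod p) :
    ACoc1 K χ ↔ d1 ρ (h23r_pb1 ι χ) = 0 := by
  constructor
  · intro h
    funext ⟨g, g'⟩
    rw [h23r_d1_pb ρ hρ]
    simp only [acob, Pi.zero_apply]
    rw [h (ι g) ((hι.range _).2 ⟨g, rfl⟩) (ι g') ((hι.range _).2 ⟨g', rfl⟩)]
    ring
  · intro h g hg g' hg'
    obtain ⟨a, rfl⟩ := (hι.range g).1 hg
    obtain ⟨a', rfl⟩ := (hι.range g').1 hg'
    have := congrFun h (a, a')
    rw [h23r_d1_pb ρ hρ] at this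
    simp only [acob, Pi.zero_apply] at this
    linear_combination -this

theorem h23r_acoc2_iff (c : Gq q × Gq q → ZMod p) :
    ACoc2 K c ↔ d2 ρ (h23r_pb2 ι c) = 0 := by
  constructor
  · intro h
    funext ⟨g, g', g''⟩
    rw [h23r_d2_pb ρ hρ]
    exact h (ι g) ((hι.range _).2 ⟨g, rfl⟩) (ι g') ((hι.range _).2 ⟨g', rfl⟩)
      (ι g'') ((hι.range _).2 ⟨g'', rfl⟩)
  · intro h g hg g' hg' g'' hg''
    obtain ⟨a, rfl⟩ := (hι.range g).1 hg
    obtain ⟨a', rfl⟩ := (hι.range g').1 hg'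
    obtain ⟨a'', rfl⟩ := (hι.range g'').1 hg''
    have := congrFun h (a, a', a'')
    rw [h23r_d2_pb ρ hρ] at this
    exact this

theorem h23r_acoc3_iff (c : Gq q × Gq q × Gq q → ZMod p) :
    ACoc3 K c ↔ d3 ρ (h23r_pb3 ι c) = 0 := by
  constructor
  · intro h
    funext ⟨g, g', g'', g'''⟩
    simp only [d3_apply, hρ, h23r_pb3_apply, Pi.zero_apply, map_mul]
    exact h (ι g) ((hι.range _).2 ⟨g, rfl⟩) (ι g') ((hι.range _).2 ⟨g', rfl⟩)
      (ι g'') ((hι.range _).2 ⟨g'', rfl⟩) (ι g''') ((hι.range _).2 ⟨g''', rfl⟩)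
  · intro h g hg g' hg' g'' hg'' g''' hg'''
    obtain ⟨a, rfl⟩ := (hι.range g).1 hg
    obtain ⟨a', rfl⟩ := (hι.range g').1 hg'
    obtain ⟨a'', rfl⟩ := (hι.range g'').1 hg''
    obtain ⟨a''', rfl⟩ := (hι.range g''').1 hg'''
    have := congrFun h (a, a', a'', a''')
    simp only [d3_apply, hρ, h23r_pb3_apply, Pi.zero_apply, map_mul] at this
    exact this

variable [FiniteDimensional ℚ_[q] K]

/-- `Z¹`: continuous additive characters. -/
theorem h23r_mem_Z1_iff (χ : Gq q → ZMod p) :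
    h23r_pb1 ι χ ∈ Z1 (h23r_lev ι) ρ ↔ ACoc1 K χ ∧ Cont1 K χ := by
  rw [mem_Z1, ← h23r_acoc1_iff hι ρ hρ, ← h23r_cont1_iff hι]

/-- `Z²`: continuous `2`-cocycles. -/
theorem h23r_mem_Z2_iff (c : Gq q × Gq q → ZMod p) :
    h23r_pb2 ι c ∈ Z2 (h23r_lev ι) ρ ↔ ACoc2 K c ∧ Cont2 K c := by
  rw [mem_Z2, ← h23r_acoc2_iff hι ρ hρ, ← h23r_cont2_iff hι]

/-- `Z³`: continuous `3`-cocycles. -/
theorem h23r_mem_Z3_iff (c : Gq q × Gq q × Gq q → ZMod p) :
    h23r_pb3 ι c ∈ Z3 (h23r_lev ι) ρ ↔ ACoc3 K c ∧ Cont3 K c := by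
  rw [mem_Z3, ← h23r_acoc3_iff hι ρ hρ, ← h23r_cont3_iff hι]

/-- `B²`: cohomologous cochains. -/
theorem h23r_acohom_iff (c c' : Gq q × Gq q → ZMod p) :
    ACohom K c c' ↔ h23r_pb2 ι c - h23r_pb2 ι c' ∈ B2 (h23r_lev ι) ρ := by
  rw [mem_B2]
  constructor
  · rintro ⟨f, hf, h⟩
    refine ⟨h23r_pb1 ι f, (h23r_cont1_iff hι f).1 hf, ?_⟩
    funext ⟨g, g'⟩
    rw [h23r_d1_pb ρ hρ]
    simp only [Pi.sub_apply, h23r_pb2_apply]
    rw [h (ι g) ((hι.range _).2 ⟨g, rfl⟩) (ι g') ((hι.range _).2 ⟨g', rfl⟩)]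
    ring
  · rintro ⟨x, hx, h⟩
    refine ⟨h23r_ex1 ι x, (h23r_cont1_iff hι _).2 (by rwa [h23r_pb1_ex1 hι.inj]), ?_⟩
    intro g hg g' hg'
    obtain ⟨a, rfl⟩ := (hι.range g).1 hg
    obtain ⟨a', rfl⟩ := (hι.range g').1 hg'
    have := congrFun h (a, a')
    rw [← h23r_pb1_ex1 hι.inj x, h23r_d1_pb ρ hρ] at this
    simp only [Pi.sub_apply, h23r_pb2_apply] at this
    rw [this]
    ring

/-- `B²`: coboundaries. -/
theorem h23r_mem_B2_iff (c : Gq q × Gq q → ZMod p) :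
    h23r_pb2 ι c ∈ B2 (h23r_lev ι) ρ ↔ ACohom K c 0 := by
  rw [h23r_acohom_iff hι ρ hρ]
  have : h23r_pb2 ι (0 : Gq q × Gq q → ZMod p) = 0 := rfl
  rw [this, sub_zero]

/-- `B³`: coboundaries. -/
theorem h23r_mem_B3_iff (c : Gq q × Gq q × Gq q → ZMod p) :
    h23r_pb3 ι c ∈ B3 (h23r_lev ι) ρ ↔
      ∃ f : Gq q × Gq q → ZMod p, Cont2 K f ∧
        ∀ g ∈ GK K, ∀ h ∈ GK K, ∀ j ∈ GK K, c (g, h, j) = acob2 f (g, h, j) := by
  rw [mem_B3]
  constructor
  · rintro ⟨x, hx, h⟩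
    refine ⟨h23r_ex2 ι x, (h23r_cont2_iff hι _).2 (by rwa [h23r_pb2_ex2 hι.inj]), ?_⟩
    intro g hg g' hg' g'' hg''
    obtain ⟨a, rfl⟩ := (hι.range g).1 hg
    obtain ⟨a', rfl⟩ := (hι.range g').1 hg'
    obtain ⟨a'', rfl⟩ := (hι.range g'').1 hg''
    have := congrFun h (a, a', a'')
    rw [← h23r_pb2_ex2 hι.inj x, h23r_d2_pb ρ hρ] at this
    simp only [h23r_pb3_apply] at this
    exact this.symm
  · rintro ⟨f, hf, h⟩
    refine ⟨h23r_pb2 ι f, (h23r_cont2_iff hι f).1 hf, ?_⟩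
    funext ⟨g, g', g''⟩
    rw [h23r_d2_pb ρ hρ]
    exact (h (ι g) ((hι.range _).2 ⟨g, rfl⟩) (ι g') ((hι.range _).2 ⟨g', rfl⟩)
      (ι g'') ((hι.range _).2 ⟨g'', rfl⟩)).symm

/-- every cochain of `H'` is a pull-back. -/
theorem h23r_exists_pb1 {X : Type*} [Zero X] (f : H' → X) : ∃ F : Gq q → X, h23r_pb1 ι F = f :=
  ⟨h23r_ex1 ι f, h23r_pb1_ex1 hι.inj f⟩

/-- every `2`-cochain of `H'` is a pull-back. -/
theorem h23r_exists_pb2 {X : Type*} [Zero X] (f : H' × H' → X) :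
    ∃ F : Gq q × Gq q → X, h23r_pb2 ι F = f :=
  ⟨h23r_ex2 ι f, h23r_pb2_ex2 hι.inj f⟩

end Coc

/-! ## Composite pull-backs of level systems -/

theorem h23r_comap_comap_sets {G₁ G₂ G₃ : Type} [Group G₁] [Group G₂] [Group G₃] (L : Lev G₁)
    (f : G₂ →* G₁) (g : G₃ →* G₂) : ((L.comap f).comap g).sets = (L.comap (f.comp g)).sets := by
  ext N
  constructor
  · rintro ⟨N', ⟨N'', hN'', rfl⟩, rfl⟩
    exact ⟨N'', hN'', (Subgroup.comap_comap _ _ _)⟩
  · rintro ⟨N'', hN'', rfl⟩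
    exact ⟨_, ⟨N'', hN'', rfl⟩, (Subgroup.comap_comap _ _ _).symm⟩

theorem h23r_isLC1_congr {G : Type} [Group G] {L L' : Lev G} (h : L.sets = L'.sets)
    {X : Type*} (f : G → X) : IsLC1 L f ↔ IsLC1 L' f := by
  unfold IsLC1
  rw [h]

theorem h23r_isLC2_congr {G : Type} [Group G] {L L' : Lev G} (h : L.sets = L'.sets)
    {X : Type*} (f : G × G → X) : IsLC2 L f ↔ IsLC2 L' f := by
  unfold IsLC2
  rw [h]

theorem h23r_isLC3_congr {G : Type} [Group G] {L L' : Lev G} (h : L.sets = L'.sets)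
    {X : Type*} (f : G × G × G → X) : IsLC3 L f ↔ IsLC3 L' f := by
  unfold IsLC3
  rw [h]

theorem h23r_lev_ext {G : Type} [Group G] {L L' : Lev G} (h : L.sets = L'.sets) : L = L' := by
  cases L
  cases L'
  simp only at h
  subst h
  rfl

theorem h23r_comap_comap {G₁ G₂ G₃ : Type} [Group G₁] [Group G₂] [Group G₃] (L : Lev G₁)
    (f : G₂ →* G₁) (g : G₃ →* G₂) : (L.comap f).comap g = L.comap (f.comp g) :=
  h23r_lev_ext (h23r_comap_comap_sets L f g)

end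

end Fermat.Agent.PT.Bridge
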