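/-
W3-PT (S55), PT-BRIDGE (helper23): the dictionary `RelDict.lean` applied to the places of the
restricted datum `D_U = DU p S U u` (PT/Glob/KIface2.lean).

For the place `P = ⟨v, w⟩` (`v = q ∈ S`, `w` an orbit representative of `Gal(ℚ̄_q/ℚ_q)` on
`G_ℚ/U`, `x = gsec w`):
* `h23r_fieldAt U u q w = ℚ_q(ι (x L))`, `L = fieldOf U`, is the local field of the place;
* the local group `(DU p S U u).H P` (a stabiliser) is `GK (fieldAt)` (`h23r_isEmb_DU`);
* the local levels are `h23r_lev (h23r_incl …)` (`h23r_levH_DU`, by `rfl`);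
* the field is finite over `ℚ_q` and contains the primitive `p`-th root of unity `zetaL p q`;
* `∑_{w} [K_{q,w} : ℚ_q] = [L : ℚ]`.
-/
import Mathlib
import Fermat.Agent.PT.Glob.KIface2
import Fermat.Agent.PT.Loc.Inv
import Fermat.Agent.PT.Bridge.RelDict
import Fermat.Agent.PT.Bridge.Places
import Fermat.Agent.PT.Bridge.DQGood
import Fermat.Agent.PT.Bridge.Inertia

set_option autoImplicit false
set_option linter.style.haveILetI false
set_option linter.unusedSectionVars false

open ExtCitation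

namespace Fermat.Agent.PT.Bridge

open Fermat.Agent.Bridge Fermat.Agent.PT Fermat.Agent.PT.Loc Fermat.Agent.PT.Glob
  Fermat.Agent.PT.Shap

attribute [local instance] locActQ

noncomputable section

/-- local instance: the prime `q : Nat.Primes` as a `Fact`. -/
local instance h23r_factPrimes (q : Nat.Primes) : Fact (q : ℕ).Prime := ⟨q.2⟩

/-! ## The subgroup `U` -/

section U

variable {p : ℕ} [Fact p.Prime] {S : Finset Nat.Primes} {U : Subgroup GQ}

theorem h23r_exists_field (hadm : Adm p S U) :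
    ∃ L : IntermediateField ℚ Qb, L.IsUnramifiedOutside S ∧ U = L.fixingSubgroup ∧
      fieldOf U = L := by
  obtain ⟨L, hL, hU⟩ := (h23b_isOpen_levQ_iff S U).mp hadm.isOpen
  haveI := h23b_isGalois_Qb
  refine ⟨L, hL, hU, ?_⟩
  rw [hU]
  exact InfiniteGalois.fixedField_fixingSubgroup L

theorem h23r_fixingSubgroup_fieldOf (hadm : Adm p S U) : (fieldOf U).fixingSubgroup = U := by
  obtain ⟨L, -, hU, hL⟩ := h23r_exists_field hadm
  rw [hL, ← hU]

theorem h23r_isUnramifiedOutside_fieldOf (hadm : Adm p S U) :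
    (fieldOf U).IsUnramifiedOutside S := by
  obtain ⟨L, hS, -, hL⟩ := h23r_exists_field hadm
  rw [hL]
  exact hS

theorem h23r_finiteDimensional_fieldOf (hadm : Adm p S U) : FiniteDimensional ℚ (fieldOf U) :=
  (h23r_isUnramifiedOutside_fieldOf hadm).1

theorem h23r_finrank_fieldOf (hadm : Adm p S U) : Module.finrank ℚ (fieldOf U) = U.index := by
  rw [← h23b_index_fixingSubgroup, h23r_fixingSubgroup_fieldOf hadm]

/-- `zetaG p` is a primitive `p`-th root of unity. -/
theorem h23r_zetaG_primitive (p : ℕ) [Fact p.Prime] : IsPrimitiveRoot (zetaG p) p := by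
  have hp : p.Prime := Fact.out
  haveI : NeZero ((p : ℕ) : AlgebraicClosure ℚ) := ⟨by exact_mod_cast hp.ne_zero⟩
  have hex : ∃ ζ : AlgebraicClosure ℚ, IsPrimitiveRoot ζ p :=
    HasEnoughRootsOfUnity.exists_primitiveRoot (AlgebraicClosure ℚ) p
  rw [zetaG, dif_pos hex]
  exact hex.choose_spec

theorem h23r_zetaG_mem_fieldOf (hadm : Adm p S U) : zetaG p ∈ fieldOf U := by
  rw [← h23b_cycloChar_trivial_iff p (fieldOf U) (h23r_zetaG_primitive p),
    h23r_fixingSubgroup_fieldOf hadm]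
  exact hadm.chi

/-- every conjugate of `L = fieldOf U` contains `zetaG p`. -/
theorem h23r_zetaG_mem_map (hadm : Adm p S U) (x : GQ) :
    zetaG p ∈ (fieldOf U).map (x : Qb →ₐ[ℚ] Qb) := by
  have hζ := h23r_zetaG_primitive p
  have hp : p.Prime := Fact.out
  haveI : NeZero p := ⟨hp.ne_zero⟩
  -- `x⁻¹ ζ` is a power of `ζ`, hence in `L`
  have h1 : x⁻¹ (zetaG p) ∈ fieldOf U := by
    rw [h23b_cycloChar_spec p x⁻¹ (zetaG p) hζ.pow_eq_one]
    exact pow_mem (h23r_zetaG_mem_fieldOf hadm) _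
  refine ⟨x⁻¹ (zetaG p), h1, ?_⟩
  show x (x⁻¹ (zetaG p)) = zetaG p
  rw [← AlgEquiv.mul_apply, mul_inv_cancel, AlgEquiv.one_apply]

end U

/-! ## Stabilisers -/

section Stab

variable (q : Nat.Primes)

/-- The stabiliser of the coset `xU` is the Galois group of the local field `ℚ_q(ι (x L))`. -/
theorem h23r_stabilizer_eq (U : Subgroup GQ) (hU : (fieldOf U).fixingSubgroup = U) (x : GQ) :
    (MulAction.stabilizer (primeLocalGaloisGroup q) (QuotientGroup.mk x : GQ ⧸ U) :
        Subgroup (Gq (q : ℕ))) =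
      GK (h23b_localField (q : ℕ) ((fieldOf U).map (x : Qb →ₐ[ℚ] Qb))) := by
  refine Eq.trans ?_ (h23b_stabilizer_eq (q : ℕ) (fieldOf U) x)
  ext h
  rw [MulAction.mem_stabilizer_iff]
  change _ ↔ x⁻¹ * localGaloisToGlobal (q : ℕ) h * x⁻¹⁻¹ ∈ (fieldOf U).fixingSubgroup
  rw [hU, inv_inv]
  have hsmul : (h : primeLocalGaloisGroup q) • (QuotientGroup.mk x : GQ ⧸ U) =
      QuotientGroup.mk (localGaloisToGlobal (q : ℕ) h * x) := rfl
  rw [hsmul, QuotientGroup.eq]
  constructor
  · intro hm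
    have := inv_mem hm
    simpa [mul_assoc] using this
  · intro hm
    have := inv_mem hm
    simpa [mul_assoc] using this

/-- The local field of the place `(q, w)` of `D_U`. -/
def h23r_fieldAt (U : Subgroup GQ) (u : USD U) (w : GQ ⧸ U) : LF (q : ℕ) :=
  h23b_localField (q : ℕ) ((fieldOf U).map ((u.sec.gsec w : GQ) : Qb →ₐ[ℚ] Qb))

theorem h23r_stabilizer_eq_GK (U : Subgroup GQ) (hU : (fieldOf U).fixingSubgroup = U)
    (u : USD U) (w : GQ ⧸ U) :
    (MulAction.stabilizer (primeLocalGaloisGroup q) w : Subgroup (Gq (q : ℕ))) =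
      GK (h23r_fieldAt q U u w) := by
  have h := h23r_stabilizer_eq q U hU (u.sec.gsec w)
  rw [u.sec.gsec_mk] at h
  exact h

theorem h23r_finiteDimensional_fieldAt {p : ℕ} [Fact p.Prime] {S : Finset Nat.Primes}
    {U : Subgroup GQ} (hadm : Adm p S U) (u : USD U) (w : GQ ⧸ U) :
    FiniteDimensional ℚ_[(q : ℕ)] (h23r_fieldAt q U u w) := by
  haveI := h23r_finiteDimensional_fieldOf hadm
  haveI : FiniteDimensional ℚ ((fieldOf U).map ((u.sec.gsec w : GQ) : Qb →ₐ[ℚ] Qb)) :=
    LinearEquiv.finiteDimensional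
      (IntermediateField.equivMap (fieldOf U) ((u.sec.gsec w : GQ) : Qb →ₐ[ℚ] Qb)).toLinearEquiv
  exact h23b_finiteDimensional_localField (q : ℕ) _

theorem h23r_zetaL_mem_fieldAt {p : ℕ} [Fact p.Prime] {S : Finset Nat.Primes}
    {U : Subgroup GQ} (hadm : Adm p S U) (u : USD U) (w : GQ ⧸ U) :
    zetaL p (q : ℕ) ∈ h23r_fieldAt q U u w :=
  h23b_padicEmbedding_mem_localField (q : ℕ) (h23r_zetaG_mem_map hadm _)

theorem h23r_zetaL_primitive (p : ℕ) [Fact p.Prime] : IsPrimitiveRoot (zetaL p (q : ℕ)) p :=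
  (h23r_zetaG_primitive p).map_of_injective (h23b_padicEmbedding_injective (q : ℕ))

/-- `[K_{q,w} : ℚ_q]` is the index of the stabiliser. -/
theorem h23r_finrank_fieldAt (U : Subgroup GQ) (hU : (fieldOf U).fixingSubgroup = U)
    (u : USD U) (w : GQ ⧸ U) :
    Module.finrank ℚ_[(q : ℕ)] (h23r_fieldAt q U u w) =
      (MulAction.stabilizer (primeLocalGaloisGroup q) w).index := by
  rw [← h23b_index_fixingSubgroup_loc]
  exact congrArg Subgroup.index (h23r_stabilizer_eq_GK q U hU u w).symm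

end Stab

/-! ## Orbit data: the class formula -/

/-- The class formula for orbit data: `∑_w [H : Stab w] = #X`. -/
theorem h23r_sum_index_stabilizer {H X : Type} [Group H] [MulAction H X] [Finite X]
    (od : h56s_OrbitData H X) [Fintype od.W] :
    ∑ w : od.W, (MulAction.stabilizer H w.1).index = Nat.card X := by
  classical
  let e : X ≃ Σ w : od.W, MulAction.orbit H w.1 :=
    { toFun := fun x => ⟨od.repW x, x, ⟨od.sec x, od.sec_smul x⟩⟩
      invFun := fun y => y.2.1
      left_inv := fun x => rfl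
      right_inv := by
        rintro ⟨w, y, g, hg⟩
        have h1 : od.repW y = w := by
          apply Subtype.ext
          show od.rep y = w.1
          have hg' : g • w.1 = y := hg
          rw [← hg', od.rep_smul, w.2]
        subst h1
        rfl }
  rw [Nat.card_congr e, Nat.card_sigma]
  refine Finset.sum_congr rfl fun w _ => ?_
  rw [Subgroup.index_eq_card]
  exact (Nat.card_congr (MulAction.orbitEquivQuotientStabilizer H w.1)).symm

section Deg

variable (q : Nat.Primes)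

/-- **Degree formula** for the orbit representatives: `∑_w [K_{q,w} : ℚ_q] = [L : ℚ]`. -/
theorem h23r_sum_finrank_fieldAt {p : ℕ} [Fact p.Prime] {S : Finset Nat.Primes}
    {U : Subgroup GQ} [U.FiniteIndex] (hadm : Adm p S U) (u : USD U) [Fintype (u.od q).W] :
    ∑ w : (u.od q).W, Module.finrank ℚ_[(q : ℕ)] (h23r_fieldAt q U u w.1) =
      Module.finrank ℚ (fieldOf U) := by
  have hU := h23r_fixingSubgroup_fieldOf hadm
  rw [h23r_finrank_fieldOf hadm, Subgroup.index_eq_card]
  rw [← h23r_sum_index_stabilizer (u.od q)]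
  exact Finset.sum_congr rfl fun w _ => h23r_finrank_fieldAt q U hU u w.1

end Deg

/-! ## The places of `D_U` -/

section DU

variable {p : ℕ} [Fact p.Prime] (S : Finset Nat.Primes) (U : Subgroup GQ) [U.FiniteIndex]
  (u : USD U)

/-- The inclusion of the local group of `D_U` at `P` into the local Galois group. -/
def h23r_incl (P : (DU p S U u).P) : (DU p S U u).H P →* Gq (P.1.1 : ℕ) :=
  Subgroup.subtype (@MulAction.stabilizer (primeLocalGaloisGroup P.1.1) (GQ ⧸ U) _
    (locActQ U P.1.1) P.2.1)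

/-- The local field of the place `P` of `D_U`. -/
abbrev h23r_fieldAtP (P : (DU p S U u).P) : LF (P.1.1 : ℕ) :=
  h23r_fieldAt P.1.1 U u (P.2.1 : GQ ⧸ U)

variable {S U}

/-- The local group of `D_U` at `P` is the Galois group of the local field of `P`. -/
theorem h23r_isEmb_DU (hadm : Adm p S U) (P : (DU p S U u).P) :
    h23r_IsEmb (h23r_incl S U u P) (h23r_fieldAtP S U u P) :=
  h23r_isEmb_subtype_of_eq _ _
    (h23r_stabilizer_eq_GK P.1.1 U (h23r_fixingSubgroup_fieldOf hadm) u (P.2.1 : GQ ⧸ U))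

theorem h23r_finiteDimensional_fieldAtP (hadm : Adm p S U) (P : (DU p S U u).P) :
    FiniteDimensional ℚ_[(P.1.1 : ℕ)] (h23r_fieldAtP S U u P) :=
  h23r_finiteDimensional_fieldAt P.1.1 hadm u (P.2.1 : GQ ⧸ U)

theorem h23r_zetaL_mem_fieldAtP (hadm : Adm p S U) (P : (DU p S U u).P) :
    zetaL p (P.1.1 : ℕ) ∈ h23r_fieldAtP S U u P :=
  h23r_zetaL_mem_fieldAt P.1.1 hadm u (P.2.1 : GQ ⧸ U)

variable (S U)

/-- The local levels of `D_U`. -/
theorem h23r_levH_DU (P : (DU p S U u).P) :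
    (DU p S U u).levH P = h23r_lev (h23r_incl S U u P) := rfl

/-- The trivial module of `D_U`, restricted to a local group, is trivial. -/
theorem h23r_repAt_DU (P : (DU p S U u).P) (h : (DU p S U u).H P) (v : ZMod p) :
    (DU p S U u).repAt (trivU p S U u) P h v = v := rfl

/-- The local-to-global map of `D_U`. -/
theorem h23r_loc_DU (P : (DU p S U u).P) (h : (DU p S U u).H P) :
    Subgroup.subtype U ((DU p S U u).loc P h) =
      (u.sec.gsec (P.2.1 : GQ ⧸ U))⁻¹ * localGaloisToGlobal (P.1.1 : ℕ) (h23r_incl S U u P h) *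
        u.sec.gsec (P.2.1 : GQ ⧸ U) := rfl

variable {S U}

/-- `Z¹` of the local group of `D_U` at `P`. -/
theorem h23r_DU_mem_Z1_iff (hadm : Adm p S U) (P : (DU p S U u).P)
    (χ : Gq (P.1.1 : ℕ) → ZMod p) :
    h23r_pb1 (h23r_incl S U u P) χ ∈
        Z1 ((DU p S U u).levH P) ((DU p S U u).repAt (trivU p S U u) P) ↔
      ACoc1 (h23r_fieldAtP S U u P) χ ∧ Cont1 (h23r_fieldAtP S U u P) χ :=
  haveI := h23r_finiteDimensional_fieldAtP u hadm P
  h23r_mem_Z1_iff (h23r_isEmb_DU u hadm P) _ (h23r_repAt_DU S U u P) χ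

/-- `Z²` of the local group of `D_U` at `P`. -/
theorem h23r_DU_mem_Z2_iff (hadm : Adm p S U) (P : (DU p S U u).P)
    (c : Gq (P.1.1 : ℕ) × Gq (P.1.1 : ℕ) → ZMod p) :
    h23r_pb2 (h23r_incl S U u P) c ∈
        Z2 ((DU p S U u).levH P) ((DU p S U u).repAt (trivU p S U u) P) ↔
      ACoc2 (h23r_fieldAtP S U u P) c ∧ Cont2 (h23r_fieldAtP S U u P) c :=
  haveI := h23r_finiteDimensional_fieldAtP u hadm P
  h23r_mem_Z2_iff (h23r_isEmb_DU u hadm P) _ (h23r_repAt_DU S U u P) c

/-- `B²` of the local group of `D_U` at `P`. -/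
theorem h23r_DU_mem_B2_iff (hadm : Adm p S U) (P : (DU p S U u).P)
    (c : Gq (P.1.1 : ℕ) × Gq (P.1.1 : ℕ) → ZMod p) :
    h23r_pb2 (h23r_incl S U u P) c ∈
        B2 ((DU p S U u).levH P) ((DU p S U u).repAt (trivU p S U u) P) ↔
      ACohom (h23r_fieldAtP S U u P) c 0 :=
  haveI := h23r_finiteDimensional_fieldAtP u hadm P
  h23r_mem_B2_iff (h23r_isEmb_DU u hadm P) _ (h23r_repAt_DU S U u P) c

/-- The cup product of the local group of `D_U` at `P`. -/
theorem h23r_DU_cup11 (P : (DU p S U u).P) (χ ψ : Gq (P.1.1 : ℕ) → ZMod p) :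
    cup11 (LinearMap.mul (ZMod p) (ZMod p)) ((DU p S U u).repAt (trivU p S U u) P)
        (h23r_pb1 (h23r_incl S U u P) χ) (h23r_pb1 (h23r_incl S U u P) ψ) =
      h23r_pb2 (h23r_incl S U u P) (acup χ ψ) :=
  h23r_cup11_pb _ (h23r_repAt_DU S U u P) χ ψ

/-- Every `1`-cochain of the local group of `D_U` at `P` is a pull-back. -/
theorem h23r_DU_exists_pb1 (P : (DU p S U u).P) (f : (DU p S U u).H P → ZMod p) :
    ∃ F : Gq (P.1.1 : ℕ) → ZMod p, h23r_pb1 (h23r_incl S U u P) F = f :=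
  ⟨h23r_ex1 _ f, h23r_pb1_ex1 Subtype.val_injective f⟩

/-- Every `2`-cochain of the local group of `D_U` at `P` is a pull-back. -/
theorem h23r_DU_exists_pb2 (P : (DU p S U u).P)
    (f : (DU p S U u).H P × (DU p S U u).H P → ZMod p) :
    ∃ F : Gq (P.1.1 : ℕ) × Gq (P.1.1 : ℕ) → ZMod p, h23r_pb2 (h23r_incl S U u P) F = f :=
  ⟨h23r_ex2 _ f, h23r_pb2_ex2 Subtype.val_injective f⟩

end DU

end

end Fermat.Agent.PT.Bridge
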