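/-
W3-PT (S55), PT-BRIDGE (helper23): the dictionary `RelDict.lean` for the UNIFORM local objects
`VW u q w`, `levW u q w`, `locW u q w`, `trivW p u q w` of `PT/Glob/KIface3.lean`
(`q` ANY prime, standing hypothesis `AdmU p U`).

* `h23w_isEmb` : the local group `VW u q w` is `GK (h23r_fieldAt q U u w)`;
* `h23w_levW`  : `levW u q w = h23r_lev (VW u q w).subtype` (by `rfl`);
* the local field is finite over `ℚ_q` and contains `zetaL p q`;
* `h23w_sum_finrank_fieldAt` : `∑_w [K_{q,w} : ℚ_q] = [L : ℚ]`;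
* `h23w_mem_Z1_iff`, `h23w_mem_Z2_iff`, `h23w_mem_B2_iff`, `h23w_cup11`.
-/
import Mathlib
import Fermat.Agent.PT.Glob.KIface3
import Fermat.Agent.PT.Bridge.RelDictDU

set_option autoImplicit false
set_option linter.style.haveILetI false
set_option linter.unusedSectionVars false

open ExtCitation

namespace Fermat.Agent.PT.Bridge

open Fermat.Agent.Bridge Fermat.Agent.PT Fermat.Agent.PT.Loc Fermat.Agent.PT.Glob
  Fermat.Agent.PT.Shap

attribute [local instance] locActQ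

noncomputable section

/-- local instance: the prime `q : Nat.Primes` as a `Fact`. -/
local instance h23w_factPrimes (q : Nat.Primes) : Fact (q : ℕ).Prime := ⟨q.2⟩

/-! ## The subgroup `U` -/

section U

variable {p : ℕ} [Fact p.Prime] {S : Finset Nat.Primes} {U : Subgroup GQ}

/-- `Adm` implies `AdmU`. -/
theorem h23w_admU_of_adm (hadm : Adm p S U) : AdmU p U := by
  refine ⟨?_, hadm.chi⟩
  obtain ⟨L, hL, hU, -⟩ := h23r_exists_field hadm
  exact (h23b_isOpen_levFin_iff U).2 ⟨L, hL.1, hU⟩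

theorem h23w_exists_field (hadm : AdmU p U) :
    ∃ L : IntermediateField ℚ Qb, FiniteDimensional ℚ L ∧ U = L.fixingSubgroup ∧
      fieldOf U = L := by
  obtain ⟨L, hL, hU⟩ := (h23b_isOpen_levFin_iff U).mp hadm.isOpen
  haveI := h23b_isGalois_Qb
  refine ⟨L, hL, hU, ?_⟩
  rw [hU]
  exact InfiniteGalois.fixedField_fixingSubgroup L

theorem h23w_fixingSubgroup_fieldOf (hadm : AdmU p U) : (fieldOf U).fixingSubgroup = U := by
  obtain ⟨L, -, hU, hL⟩ := h23w_exists_field hadm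
  rw [hL, ← hU]

theorem h23w_finiteDimensional_fieldOf (hadm : AdmU p U) : FiniteDimensional ℚ (fieldOf U) := by
  obtain ⟨L, hfin, -, hL⟩ := h23w_exists_field hadm
  rw [hL]
  exact hfin

theorem h23w_finiteIndex (hadm : AdmU p U) : U.FiniteIndex := by
  haveI := h23w_finiteDimensional_fieldOf hadm
  refine ⟨?_⟩
  rw [← h23w_fixingSubgroup_fieldOf hadm, h23b_index_fixingSubgroup]
  exact Module.finrank_pos.ne'

theorem h23w_finrank_fieldOf (hadm : AdmU p U) : Module.finrank ℚ (fieldOf U) = U.index := by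
  rw [← h23b_index_fixingSubgroup, h23w_fixingSubgroup_fieldOf hadm]

theorem h23w_zetaG_mem_fieldOf (hadm : AdmU p U) : zetaG p ∈ fieldOf U := by
  rw [← h23b_cycloChar_trivial_iff p (fieldOf U) (h23r_zetaG_primitive p),
    h23w_fixingSubgroup_fieldOf hadm]
  exact hadm.chi

/-- every conjugate of `L = fieldOf U` contains `zetaG p`. -/
theorem h23w_zetaG_mem_map (hadm : AdmU p U) (x : GQ) :
    zetaG p ∈ (fieldOf U).map (x : Qb →ₐ[ℚ] Qb) := by
  have hζ := h23r_zetaG_primitive p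
  have hp : p.Prime := Fact.out
  haveI : NeZero p := ⟨hp.ne_zero⟩
  have h1 : x⁻¹ (zetaG p) ∈ fieldOf U := by
    rw [h23b_cycloChar_spec p x⁻¹ (zetaG p) hζ.pow_eq_one]
    exact pow_mem (h23w_zetaG_mem_fieldOf hadm) _
  refine ⟨x⁻¹ (zetaG p), h1, ?_⟩
  show x (x⁻¹ (zetaG p)) = zetaG p
  rw [← AlgEquiv.mul_apply, mul_inv_cancel, AlgEquiv.one_apply]

end U

/-! ## The uniform local objects -/

section W

variable {p : ℕ} [Fact p.Prime] {U : Subgroup GQ} (u : USD U) (q : Nat.Primes)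
  (w : (u.od q).W)

/-- The local field at the orbit representative `w`. -/
abbrev h23w_fieldW : LF (q : ℕ) := h23r_fieldAt q U u (w.1 : GQ ⧸ U)

/-- The inclusion of the local group at `w` into the local Galois group. -/
abbrev h23w_incl : ↥(VW u q w) →* Gq (q : ℕ) := (VW u q w).subtype

theorem h23w_finiteDimensional_fieldW (hadm : AdmU p U) :
    FiniteDimensional ℚ_[(q : ℕ)] (h23w_fieldW u q w) := by
  haveI := h23w_finiteDimensional_fieldOf hadm
  haveI : FiniteDimensional ℚ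
      ((fieldOf U).map ((u.sec.gsec (w.1 : GQ ⧸ U) : GQ) : Qb →ₐ[ℚ] Qb)) :=
    LinearEquiv.finiteDimensional
      (IntermediateField.equivMap (fieldOf U)
        ((u.sec.gsec (w.1 : GQ ⧸ U) : GQ) : Qb →ₐ[ℚ] Qb)).toLinearEquiv
  exact h23b_finiteDimensional_localField (q : ℕ) _

theorem h23w_zetaL_mem_fieldW (hadm : AdmU p U) : zetaL p (q : ℕ) ∈ h23w_fieldW u q w :=
  h23b_padicEmbedding_mem_localField (q : ℕ) (h23w_zetaG_mem_map hadm _)

/-- The local group at `w` is the Galois group of the local field at `w`. -/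
theorem h23w_isEmb (hadm : AdmU p U) : h23r_IsEmb (h23w_incl u q w) (h23w_fieldW u q w) :=
  h23r_isEmb_subtype_of_eq _ _
    (h23r_stabilizer_eq_GK q U (h23w_fixingSubgroup_fieldOf hadm) u (w.1 : GQ ⧸ U))

/-- The levels at `w`. -/
theorem h23w_levW : levW u q w = h23r_lev (h23w_incl u q w) := rfl

/-- The localisation map at `w`. -/
theorem h23w_locW (h : ↥(VW u q w)) :
    U.subtype (locW u q w h) =
      (u.sec.gsec (w.1 : GQ ⧸ U))⁻¹ * localGaloisToGlobal (q : ℕ) (h23w_incl u q w h) *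
        u.sec.gsec (w.1 : GQ ⧸ U) := rfl

theorem h23w_trivW (h : ↥(VW u q w)) (v : ZMod p) : trivW p u q w h v = v := rfl

/-- `[K_{q,w} : ℚ_q]` is the index of the local group. -/
theorem h23w_finrank_fieldW (hadm : AdmU p U) :
    Module.finrank ℚ_[(q : ℕ)] (h23w_fieldW u q w) = (VW u q w).index :=
  h23r_finrank_fieldAt q U (h23w_fixingSubgroup_fieldOf hadm) u (w.1 : GQ ⧸ U)

/-- `Z¹` at `w`. -/
theorem h23w_mem_Z1_iff (hadm : AdmU p U) (χ : Gq (q : ℕ) → ZMod p) :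
    h23r_pb1 (h23w_incl u q w) χ ∈ Z1 (levW u q w) (trivW p u q w) ↔
      ACoc1 (h23w_fieldW u q w) χ ∧ Cont1 (h23w_fieldW u q w) χ :=
  haveI := h23w_finiteDimensional_fieldW u q w hadm
  h23r_mem_Z1_iff (h23w_isEmb u q w hadm) _ (h23w_trivW u q w) χ

/-- `Z²` at `w`. -/
theorem h23w_mem_Z2_iff (hadm : AdmU p U) (c : Gq (q : ℕ) × Gq (q : ℕ) → ZMod p) :
    h23r_pb2 (h23w_incl u q w) c ∈ Z2 (levW u q w) (trivW p u q w) ↔
      ACoc2 (h23w_fieldW u q w) c ∧ Cont2 (h23w_fieldW u q w) c :=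
  haveI := h23w_finiteDimensional_fieldW u q w hadm
  h23r_mem_Z2_iff (h23w_isEmb u q w hadm) _ (h23w_trivW u q w) c

/-- `B²` at `w`. -/
theorem h23w_mem_B2_iff (hadm : AdmU p U) (c : Gq (q : ℕ) × Gq (q : ℕ) → ZMod p) :
    h23r_pb2 (h23w_incl u q w) c ∈ B2 (levW u q w) (trivW p u q w) ↔
      ACohom (h23w_fieldW u q w) c 0 :=
  haveI := h23w_finiteDimensional_fieldW u q w hadm
  h23r_mem_B2_iff (h23w_isEmb u q w hadm) _ (h23w_trivW u q w) c

/-- The cup product at `w`. -/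
theorem h23w_cup11 (χ ψ : Gq (q : ℕ) → ZMod p) :
    cup11 (LinearMap.mul (ZMod p) (ZMod p)) (trivW p u q w)
        (h23r_pb1 (h23w_incl u q w) χ) (h23r_pb1 (h23w_incl u q w) ψ) =
      h23r_pb2 (h23w_incl u q w) (acup χ ψ) :=
  h23r_cup11_pb _ (h23w_trivW u q w) χ ψ

/-- Every `1`-cochain at `w` is a pull-back. -/
theorem h23w_exists_pb1 (f : ↥(VW u q w) → ZMod p) :
    ∃ F : Gq (q : ℕ) → ZMod p, h23r_pb1 (h23w_incl u q w) F = f :=
  ⟨h23r_ex1 _ f, h23r_pb1_ex1 Subtype.val_injective f⟩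

/-- Every `2`-cochain at `w` is a pull-back. -/
theorem h23w_exists_pb2 (f : ↥(VW u q w) × ↥(VW u q w) → ZMod p) :
    ∃ F : Gq (q : ℕ) × Gq (q : ℕ) → ZMod p, h23r_pb2 (h23w_incl u q w) F = f :=
  ⟨h23r_ex2 _ f, h23r_pb2_ex2 Subtype.val_injective f⟩

end W

/-- **Degree formula** (uniform form): `∑_w [K_{q,w} : ℚ_q] = [L : ℚ]`. -/
theorem h23w_sum_finrank_fieldW {p : ℕ} [Fact p.Prime] {U : Subgroup GQ} (hadm : AdmU p U)
    (u : USD U) (q : Nat.Primes) [Fintype (u.od q).W] :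
    ∑ w : (u.od q).W, Module.finrank ℚ_[(q : ℕ)] (h23w_fieldW u q w) =
      Module.finrank ℚ (fieldOf U) := by
  haveI := h23w_finiteIndex hadm
  have hU := h23w_fixingSubgroup_fieldOf hadm
  rw [h23w_finrank_fieldOf hadm, Subgroup.index_eq_card]
  rw [← h23r_sum_index_stabilizer (u.od q)]
  exact Finset.sum_congr rfl fun w _ => h23r_finrank_fieldAt q U hU u w.1

end

end Fermat.Agent.PT.Bridge
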