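import Fermat.Agent.PT.Bridge.Arch

/-!
# W3-PT, PT-BRIDGE: the frozen `sha₁`, `sha₂` in terms of cocycles

Framework independent unfolding of the Prelude definitions (for `2` invertible in the
coefficient field the archimedean conditions are vacuous):

* `pt79_mem_sha₁_iff` : `x ∈ sha₁ S A` iff `x` is the class of a level-constant (unramified
  outside `S`) `1`-cocycle `c` such that for every `q ∈ S` there is `m` with
  `c (r γ) = (r γ) m - m` for all `γ` in the local Galois group at `q`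
  (`r = primeLocalToGlobal q`).
* `pt79_mem_sha₂_iff` : `x ∈ sha₂ S M` iff `x` is the class of a level-constant `2`-cocycle `f`
  such that for every `q ∈ S` the restriction `f ∘ (r × r)` is the coboundary of a cochain on
  the local Galois group which is level constant (with respect to `r`).

Sub-architect: helper79.
-/

set_option autoImplicit false

open CategoryTheory groupCohomology ExtCitation

noncomputable section

namespace Fermat.Agent.PT

/-- the absolute Galois group of `ℚ`. -/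
abbrev GQ : Type := AlgebraicClosure ℚ ≃ₐ[ℚ] AlgebraicClosure ℚ

variable {k : Type} [Field k] (S : Finset Nat.Primes) (M : Rep k GQ)

/-- the local condition of `sha₁` at `q`, on cocycles. -/
def LocTriv₁ (q : Nat.Primes) (c : GQ → M) : Prop :=
  ∃ m : M, ∀ γ : primeLocalGaloisGroup q,
    c (primeLocalToGlobal q γ) = M.ρ (primeLocalToGlobal q γ) m - m

/-- the local condition of `sha₂` at `q`, on cocycles. -/
def LocTriv₂ (q : Nat.Primes) (f : GQ × GQ → M) : Prop :=
  ∃ y : primeLocalGaloisGroup q → M, IsLevelConstant₁ (primeLocalToGlobal q) y ∧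
    ∀ γ γ' : primeLocalGaloisGroup q,
      f (primeLocalToGlobal q γ, primeLocalToGlobal q γ')
        = M.ρ (primeLocalToGlobal q γ) (y γ') - y (γ * γ') + y γ

theorem pt79_locRes_H1π {ι : Type} {Γv : ι → Type} [∀ v, Group (Γv v)]
    (loc : ∀ v, Γv v →* GQ) (v : ι) (c : cocycles₁ M) :
    (locRes loc M v).hom (H1π M c) = 0 ↔
      ∃ m : M, ∀ γ : Γv v, c (loc v γ) = M.ρ (loc v γ) m - m := by
  have h1 : (locRes loc M v).hom (H1π M c)
      = H1π (Rep.res (loc v) M) (mapCocycles₁ (loc v) (𝟙 (Rep.res (loc v) M)) c) :=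
    H1π_comp_map_apply (loc v) (𝟙 (Rep.res (loc v) M)) c
  rw [h1, H1π_eq_zero_iff]
  constructor
  · rintro ⟨m, hm⟩
    refine ⟨m, fun γ => ?_⟩
    have := congrFun hm γ
    rw [d₀₁_hom_apply] at this
    exact this.symm
  · rintro ⟨m, hm⟩
    refine ⟨m, ?_⟩
    funext γ
    rw [d₀₁_hom_apply]
    exact (hm γ).symm

/-- **`sha₁` in terms of cocycles.** -/
theorem pt79_mem_sha₁_iff (h2 : (2 : k) ≠ 0) (x : H1 M) :
    x ∈ sha₁ S M ↔ ∃ c : cocycles₁ M, IsLevelConstantS₁ S c ∧ (H1π M).hom c = x ∧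
      ∀ q ∈ S, LocTriv₁ M q c := by
  constructor
  · rintro ⟨hx1, hx2⟩
    obtain ⟨c, hc, rfl⟩ := (mem_continuousH1S_iff S M x).1 hx1
    refine ⟨c, hc, rfl, fun q hq => ?_⟩
    have h3 : locTotal (extArithLoc S) M ((H1π M).hom c) = 0 := hx2
    have h4 := congrFun h3 (Sum.inr ⟨q, hq⟩)
    rw [locTotal_apply] at h4
    exact (pt79_locRes_H1π M (extArithLoc S) (Sum.inr ⟨q, hq⟩) c).1 h4
  · rintro ⟨c, hc, rfl, hloc⟩
    refine ⟨(mem_continuousH1S_iff S M _).2 ⟨c, hc, rfl⟩, ?_⟩
    change locTotal (extArithLoc S) M ((H1π M).hom c) = 0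
    funext v
    rw [locTotal_apply]
    rcases v with v | ⟨q, hq⟩
    · exact pt79_arch_H1_eq_zero M h2 _
    · exact (pt79_locRes_H1π M (extArithLoc S) (Sum.inr ⟨q, hq⟩) c).2 (hloc q hq)

theorem pt79_locRes₂S_mk {H : Type} [Group H] (r : H →* GQ) (f : ↥(levelCocyclesS₂ S M)) :
    locRes₂S S M r (continuousH2Sπ S M f) = 0 ↔
      ∃ y : H → M, IsLevelConstant₁ r y ∧
        ∀ γ γ' : H, (f : GQ × GQ → M) (r γ, r γ') = M.ρ (r γ) (y γ') - y (γ * γ') + y γ := by
  have h1 : locRes₂S S M r (continuousH2Sπ S M f)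
      = continuousH2π r (Rep.res r M)
          (levelCocycles₂Map (rH := MonoidHom.id _) (rG := r) r (fun _ => rfl)
            (LinearMap.id : M →ₗ[k] Rep.res r M) (fun _ _ => rfl)
            (levelCocyclesS₂ToLevelCocycles₂ S M f)) := rfl
  rw [h1, continuousH2π_eq_zero_iff, mem_levelCoboundaries₂_iff]
  constructor
  · rintro ⟨y, hy, hyf⟩
    refine ⟨y, hy, fun γ γ' => ?_⟩
    have := congrFun hyf (γ, γ')
    rw [d₁₂_hom_apply] at this
    exact this.symm
  · rintro ⟨y, hy, hyf⟩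
    refine ⟨y, hy, ?_⟩
    funext ⟨γ, γ'⟩
    rw [d₁₂_hom_apply]
    exact (hyf γ γ').symm

/-- **`sha₂` in terms of cocycles.** -/
theorem pt79_mem_sha₂_iff (h2 : (2 : k) ≠ 0) (x : continuousH2S S M) :
    x ∈ sha₂ S M ↔ ∃ f : ↥(levelCocyclesS₂ S M), continuousH2Sπ S M f = x ∧
      ∀ q ∈ S, LocTriv₂ M q f := by
  constructor
  · intro hx
    obtain ⟨f, rfl⟩ := Submodule.mkQ_surjective _ x
    refine ⟨f, rfl, fun q hq => ?_⟩
    have h3 : locTotal₂S S M (continuousH2Sπ S M f) = 0 := hx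
    have h4 := congrFun h3 (Sum.inr ⟨q, hq⟩)
    rw [locTotal₂S_apply] at h4
    exact (pt79_locRes₂S_mk S M (extArithLoc S (Sum.inr ⟨q, hq⟩)) f).1 h4
  · rintro ⟨f, rfl, hloc⟩
    change locTotal₂S S M (continuousH2Sπ S M f) = 0
    funext v
    rw [locTotal₂S_apply]
    rcases v with v | ⟨q, hq⟩
    · exact pt79_arch_continuousH2_eq_zero M h2 _
    · exact (pt79_locRes₂S_mk S M (extArithLoc S (Sum.inr ⟨q, hq⟩)) f).2 (hloc q hq)

end Fermat.Agent.PT
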